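import Fermat.Prelude.Def_FLTPrelim_Modularity
import Mathlib.AlgebraicGeometry.EllipticCurve.Affine.Point
import Mathlib.Data.Fintype.Prod
import Mathlib.SetTheory.Cardinal.Finite
import Mathlib.Algebra.Field.ZMod

/-!
# The trace at `3`
-/

set_option autoImplicit false

open WeierstrassCurve WeierstrassCurve.Affine

namespace FermatAgent.Switch2

universe u

/-- Points of a smooth curve are the origin and the solutions of the equation. -/
def pointEquivOption {F : Type u} [Field F] (V : WeierstrassCurve F) (hΔ : V.Δ ≠ 0) :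
    V.toAffine.Point ≃ Option {p : F × F // V.toAffine.Equation p.1 p.2} where
  toFun
    | .zero => none
    | .some x y h => some ⟨(x, y), h.1⟩
  invFun
    | none => .zero
    | some p => .some p.1.1 p.1.2 ((equation_iff_nonsingular_of_Δ_ne_zero hΔ).1 p.2)
  left_inv P := by cases P <;> rfl
  right_inv q := by rcases q with _ | ⟨⟨x, y⟩, h⟩ <;> rfl

/-- The number of affine solutions modulo `3`. -/
def affineCountThree (a₁ a₂ a₃ a₄ a₆ : ZMod 3) : ℕ :=
  (Finset.univ.filter fun p : ZMod 3 × ZMod 3 =>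
    p.2 ^ 2 + a₁ * p.1 * p.2 + a₃ * p.2 = p.1 ^ 3 + a₂ * p.1 ^ 2 + a₄ * p.1 + a₆).card

/-- The trace at three from the number of affine points. -/
lemma traceOfFrobenius_three (V : WeierstrassCurve (ZMod 3)) [Fact (Nat.Prime 3)] (hΔ : V.Δ ≠ 0) :
    V.traceOfFrobenius = 3 - (affineCountThree V.a₁ V.a₂ V.a₃ V.a₄ V.a₆ : ℤ) := by
  classical
  have hc : V.card = affineCountThree V.a₁ V.a₂ V.a₃ V.a₄ V.a₆ + 1 := by
    rw [WeierstrassCurve.card, Nat.card_congr (pointEquivOption V hΔ), Finite.card_option,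
      Nat.card_eq_fintype_card, affineCountThree, Fintype.card_subtype]
    congr 2
    ext p
    simp [Affine.equation_iff]
  rw [WeierstrassCurve.traceOfFrobenius, hc, Nat.card_zmod]
  push_cast; ring

set_option maxRecDepth 100000 in
/-- The table over `𝔽₃`: supersingular means `c₄ = 0`, and the nonsquare discriminants have one or
five affine points. -/
lemma trace_table : ∀ a₁ a₂ a₃ a₄ a₆ : ZMod 3,
    ((⟨a₁, a₂, a₃, a₄, a₆⟩ : WeierstrassCurve (ZMod 3)).Δ ≠ 0 →
      ((affineCountThree a₁ a₂ a₃ a₄ a₆) % 3 = 0 ↔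
        (⟨a₁, a₂, a₃, a₄, a₆⟩ : WeierstrassCurve (ZMod 3)).c₄ = 0)) ∧
    ((⟨a₁, a₂, a₃, a₄, a₆⟩ : WeierstrassCurve (ZMod 3)).Δ = 2 →
      (⟨a₁, a₂, a₃, a₄, a₆⟩ : WeierstrassCurve (ZMod 3)).c₄ ≠ 0 →
      affineCountThree a₁ a₂ a₃ a₄ a₆ = 1 ∨ affineCountThree a₁ a₂ a₃ a₄ a₆ = 5) := by
  simp only [WeierstrassCurve.Δ, WeierstrassCurve.c₄, b₂, b₄, b₆, b₈, affineCountThree]
  decide +kernel

/-- Supersingular reduction at `3` is detected by `c₄`. -/
theorem three_dvd_apOfModel {W : WeierstrassCurve ℤ} (hg : W.IsGoodPrimeFor 3)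
    (h4 : (3 : ℤ) ∣ W.c₄) : (3 : ℤ) ∣ W.apOfModel 3 := by
  have : Fact (Nat.Prime 3) := ⟨Nat.prime_three⟩
  have hΔ : (W.reductionMod 3).Δ ≠ 0 := by
    rw [reductionMod, WeierstrassCurve.map_Δ, eq_intCast, Ne,
      ZMod.intCast_zmod_eq_zero_iff_dvd]
    exact hg
  have h4' : (W.reductionMod 3).c₄ = 0 := by
    rw [reductionMod, WeierstrassCurve.map_c₄, eq_intCast, ZMod.intCast_zmod_eq_zero_iff_dvd]
    exact h4
  rw [apOfModel, traceOfFrobenius_three _ hΔ]
  have h : affineCountThree (W.reductionMod 3).a₁ (W.reductionMod 3).a₂ (W.reductionMod 3).a₃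
      (W.reductionMod 3).a₄ (W.reductionMod 3).a₆ % 3 = 0 :=
    ((trace_table _ _ _ _ _).1 hΔ).2 h4'
  omega

/-- Ordinary reduction with discriminant `-1` modulo `3` has trace `±2`. -/
theorem apOfModel_three_eq_two {W : WeierstrassCurve ℤ} (h4 : ¬(3 : ℤ) ∣ W.c₄)
    (hΔ : (3 : ℤ) ∣ W.Δ + 1) : W.apOfModel 3 = 2 ∨ W.apOfModel 3 = -2 := by
  have : Fact (Nat.Prime 3) := ⟨Nat.prime_three⟩
  have e : (W.reductionMod 3).Δ = 2 := by
    rw [reductionMod, WeierstrassCurve.map_Δ, eq_intCast,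
      show (2 : ZMod 3) = ((-1 : ℤ) : ZMod 3) by decide +revert, ← sub_eq_zero, ← Int.cast_sub,
      ZMod.intCast_zmod_eq_zero_iff_dvd, sub_neg_eq_add]
    exact hΔ
  have h4' : (W.reductionMod 3).c₄ ≠ 0 := by
    rw [reductionMod, WeierstrassCurve.map_c₄, eq_intCast, Ne, ZMod.intCast_zmod_eq_zero_iff_dvd]
    exact h4
  rw [apOfModel,
    traceOfFrobenius_three _ (by rw [e]; exact fun h => absurd h (ne_of_beq_false rfl))]
  have ht : affineCountThree (W.reductionMod 3).a₁ (W.reductionMod 3).a₂ (W.reductionMod 3).a₃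
      (W.reductionMod 3).a₄ (W.reductionMod 3).a₆ = 1 ∨
      affineCountThree (W.reductionMod 3).a₁ (W.reductionMod 3).a₂ (W.reductionMod 3).a₃
      (W.reductionMod 3).a₄ (W.reductionMod 3).a₆ = 5 := (trace_table _ _ _ _ _).2 e h4'
  rcases ht with h | h <;> rw [h] <;> norm_num

end FermatAgent.Switch2
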