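import Fermat.Agent.Switch.Nonsplit

/-!
# Irreducibility modulo `5`
-/

set_option autoImplicit false

noncomputable section

open WeierstrassCurve
open scoped WeierstrassCurve.Affine

namespace FermatAgent.Switch2

open FermatAgent.ECLocal

local notation "Qbar" => AlgebraicClosure ℚ

variable {W : WeierstrassCurve ℤ}

lemma no_root_five : ∀ c : ZMod 5, c * c - 2 * c + 3 ≠ 0 ∧ c * c - -2 * c + 3 ≠ 0 := by decide

/-- Trace `±2` at `3` forces irreducibility modulo `5`. -/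
theorem modRepIsIrreducible_five_of_trace (hΔ : W.Δ ≠ 0) (hg : W.IsGoodPrimeFor 3)
    (ht : W.apOfModel 3 = 2 ∨ W.apOfModel 3 = -2) : W.ModRepIsIrreducible 5 := by
  classical
  have : Fact (Nat.Prime 5) := ⟨by norm_num⟩
  have hΔq := EC.intMap_Δ_ne_zero hΔ
  have hrank := EC.finrank_torsionBy_rat (W.map (Int.castRingHom ℚ)) hΔq 5
  refine ⟨Module.nontrivial_of_finrank_eq_succ hrank, fun N hN => ?_⟩
  by_contra hcon
  push Not at hcon
  obtain ⟨h0, h1⟩ := hcon
  obtain ⟨A, hA⟩ := GaloisBasic.exists_liesOverPrime Nat.prime_three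
  obtain ⟨F, hF⟩ := GaloisBasic.exists_isFrobeniusAt Nat.prime_three hA
  set φ := Affine.Point.galoisRepModuleEnd ℚ (W.map (Int.castRingHom ℚ)).toAffine 5 F with hφ
  have htr : LinearMap.trace (ZMod 5) _ φ = (W.apOfModel 3 : ZMod 5) := by
    rw [hφ, ← Affine.Point.galoisTrace_def]
    exact EC.galoisTrace_frobenius_eq_apOfModel W Nat.prime_three hg (by norm_num) hA hF
  have hdet : LinearMap.det φ = ((3 : ℕ) : ZMod 5) :=
    EC.det_frobenius hΔ Nat.prime_three (by norm_num) hA hF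
  obtain ⟨x, hx, hx0⟩ := Submodule.exists_mem_ne_zero_of_ne_bot h0
  obtain ⟨c, hc⟩ := (finrank_eq_one_iff_of_nonzero' (⟨x, hx⟩ : N)
    (fun h => hx0 (congrArg Subtype.val h))).mp (finrank_line hrank h0 h1) ⟨F • x, hN F x hx⟩
  have hcx : φ x = c • x := (congrArg Subtype.val hc).symm
  have h := EC.comp_self_of_trace_det hrank φ x
  rw [hcx, map_smul, hcx, smul_smul, smul_smul, htr, hdet, ← sub_smul, ← add_smul,
    smul_eq_zero] at h
  rcases ht with e | e <;> rw [e] at h <;> push_cast at h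
  exacts [(no_root_five c).1 (h.resolve_right hx0), (no_root_five c).2 (h.resolve_right hx0)]

lemma root_neg_one : ∀ l : ZMod 5, l * l + (1 + l) * l + l = 0 → l ≠ 0 → l = -1 := by decide

/-- A nonsplit multiplicative prime `ℓ ≢ -1` forces irreducibility modulo `5`. -/
theorem modRepIsIrreducible_five_of_nonsplit (hΔ0 : W.Δ ≠ 0) (hW : W.IsSemistableModel)
    {ℓ : ℕ} [hℓ : Fact ℓ.Prime] (hℓ7 : 7 ≤ ℓ) (hℓmod : (ℓ : ZMod 5) ≠ -1) (hd : (ℓ : ℤ) ∣ W.Δ)
    (hns : ¬ IsSquare ((-W.c₆ : ℤ) : ZMod ℓ)) : W.ModRepIsIrreducible 5 := by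
  classical
  have : Fact (Nat.Prime 5) := ⟨by norm_num⟩
  have hΔq := EC.intMap_Δ_ne_zero hΔ0
  have hrank := EC.finrank_torsionBy_rat (W.map (Int.castRingHom ℚ)) hΔq 5
  refine ⟨Module.nontrivial_of_finrank_eq_succ hrank, fun N hN => ?_⟩
  by_contra hcon
  push Not at hcon
  obtain ⟨h0, h1⟩ := hcon
  obtain ⟨A, hA⟩ := GaloisBasic.exists_liesOverPrime hℓ.out
  obtain ⟨F, hF⟩ := GaloisBasic.exists_isFrobeniusAt hℓ.out hA
  set φ := Affine.Point.galoisRepModuleEnd ℚ (W.map (Int.castRingHom ℚ)).toAffine 5 F with hφ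
  have hdet : LinearMap.det φ = (ℓ : ZMod 5) :=
    EC.det_frobenius hΔ0 hℓ.out (by omega) hA hF
  -- `1` is an eigenvalue
  have hone : LinearMap.det (1 - φ) = 0 :=
    Switch.det_one_sub_eq_zero_of_line hrank φ h0 h1
      ((fix_line_or_cofix (by decide) hΔ0 hW hN h0 h1).imp (fun h x hx => h F x hx)
        (fun h x => h F x))
  have htr := EC.trace_eq_of_det hrank φ
  rw [hdet, hone, sub_zero] at htr
  -- the node
  obtain ⟨r, t, ⟨M⟩, -⟩ := exists_nodeModel_at W A hℓ.out hA hΔ0 hd (hW ℓ hℓ.out hd)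
  have hsmall : ∀ m : ℕ, 0 < m → m < 7 → ¬ℓ ∣ m := fun m hm hm7 h => by
    have := Nat.le_of_dvd hm h; omega
  have hres := Switch.residue_pow_of_nonsplit (hsmall 2 (by norm_num) (by norm_num))
    (hsmall 3 (by norm_num) (by norm_num)) hns hA M
  obtain ⟨x, hx0, Q, hQ, hQ0⟩ := Switch.exists_torsion_isE0 hΔ0 (p := 5) M
  have hFP := Switch.frobenius_eq_neg_nsmul (p := 5) (by norm_num) (by omega) hA hF M hres x.1
    (nsmul_coe_torsion x) hQ hQ0
  have hFx : φ x = -((ℓ : ZMod 5) • x) := by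
    rw [Nat.cast_smul_eq_nsmul]; exact Subtype.ext hFP
  have h := EC.comp_self_of_trace_det hrank φ x
  rw [hFx, map_neg, map_smul, hFx, hdet, htr, smul_neg, smul_neg, neg_neg, smul_smul, smul_smul,
    sub_neg_eq_add, ← add_smul, ← add_smul, smul_eq_zero] at h
  refine hℓmod (root_neg_one _ (h.resolve_right hx0) ?_)
  rw [Ne, ZMod.natCast_eq_zero_iff]
  intro h5
  have := (Nat.prime_dvd_prime_iff_eq (by norm_num : Nat.Prime 5) hℓ.out).1 h5
  omega

end FermatAgent.Switch2
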