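import Fermat.Agent.Switch.TorsionEquiv
import Fermat.Prelude.Def_FLTPrelim_ModularRep

/-!
# Transfer of modularity along congruences

A semistable curve `X` is a switch of `W` at `p` if their `p`-torsion modules are isomorphic as
Galois modules and `X` is good at `p` whenever `W` is. `Transfers W` says that a chain of switches
at `5` and at `3`, each along an irreducible residual representation, leads from `W` to a
semistable curve with supersingular good reduction at `3` and surjective representation modulo
`3`. Modularity is propagated backwards along such a chain (`Assembly.exact_of_transfers`).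
-/

set_option autoImplicit false

noncomputable section

open WeierstrassCurve
open scoped WeierstrassCurve.Affine

namespace FermatAgent.Switch2

open FermatAgent.Switch

local notation "Qbar" => AlgebraicClosure ℚ

/-- The image of Galois on the three torsion is everything. -/
def SurjThree (W : WeierstrassCurve ℤ) : Prop :=
  ∀ f : QTor W 3 ≃+ QTor W 3, ∃ σ : Qbar ≃ₐ[ℚ] Qbar, ∀ x : QTor W 3, σ • x = f x

/-- `X` is a switch of `W` at `p`: a semistable curve with Galois-equivariantly the same
`p`-torsion as `W`, good at `p` if `W` is. -/
structure IsSwitch (p : ℕ) (W X : WeierstrassCurve ℤ) : Prop where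
  /-- the model is nonsingular -/
  ne_zero : X.Δ ≠ 0
  /-- the model is semistable -/
  semistable : X.IsSemistableModel
  /-- the `p`-torsion modules are isomorphic -/
  torEquiv : TorEquiv p W X
  /-- good reduction at `p` is kept -/
  good : W.IsGoodPrimeFor p → X.IsGoodPrimeFor p

/-- Semistable curves with supersingular good reduction at `3` and full image mod `3`, and
curves with an irreducible residual representation modulo `5` or `3` and a switch at that prime
which transfers. -/
inductive Transfers : WeierstrassCurve ℤ → Prop
  | base {W : WeierstrassCurve ℤ} (hΔ : W.Δ ≠ 0) (hW : W.IsSemistableModel)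
      (hgood : W.IsGoodPrimeFor 3) (hss : (3 : ℤ) ∣ W.apOfModel 3) (hsurj : SurjThree W) :
      Transfers W
  | five {W W' : WeierstrassCurve ℤ} (hΔ : W.Δ ≠ 0) (hW : W.IsSemistableModel)
      (hirr : W.ModRepIsIrreducible 5) (hX : IsSwitch 5 W W') (h : Transfers W') : Transfers W
  | three {W W' : WeierstrassCurve ℤ} (hΔ : W.Δ ≠ 0) (hW : W.IsSemistableModel)
      (hirr : W.ModRepIsIrreducible 3) (hX : IsSwitch 3 W W') (h : Transfers W') : Transfers W

end FermatAgent.Switch2
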