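import Fermat.Agent.Switch2.GLTwoThree
import Fermat.Agent.Switch2.Transfers
import Fermat.Agent.Switch2.IrreducibleFive
import Fermat.Agent.RT.Tame
import Fermat.Prelude.Def_GaloisRep_ComplexConjugation

/-!
# The three torsion at supersingular good reduction
-/

set_option autoImplicit false

noncomputable section

open WeierstrassCurve
open scoped WeierstrassCurve.Affine Pointwise

namespace FermatAgent.Switch2

open FermatAgent.ECLocal FermatAgent.GaloisBasic FermatAgent.Switch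

local notation "Qbar" => AlgebraicClosure ℚ
local notation "GQ" => AlgebraicClosure ℚ ≃ₐ[ℚ] AlgebraicClosure ℚ

variable {W : WeierstrassCurve ℤ}

set_option quotPrecheck false in
local notation "Tor" =>
  Submodule.torsionBy ℤ ((W.map (Int.castRingHom ℚ))⁄Qbar).Point ((3 : ℕ) : ℤ)

/-- In characteristic three, `c₄ = 0` and `Δ ≠ 0` leave `Ψ₃` a nonzero constant. -/
lemma eval_Ψ₃_ne_zero {k : Type*} [Field k] (h3 : (3 : k) = 0) {V : WeierstrassCurve k}
    (hΔ : V.Δ ≠ 0) (h4 : V.c₄ = 0) (x : k) : V.Ψ₃.eval x ≠ 0 := by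
  have hb2 : V.b₂ = 0 := by
    refine pow_eq_zero_iff two_ne_zero |>.1 ?_
    rw [WeierstrassCurve.c₄] at h4
    linear_combination h4 + 8 * V.b₄ * h3
  have hΔ' : V.Δ = V.b₄ ^ 3 := by
    rw [WeierstrassCurve.Δ, hb2]
    linear_combination (-3 * V.b₄ ^ 3 - 9 * V.b₆ ^ 2) * h3
  have hb8 : V.b₈ = -V.b₄ ^ 2 := by
    have h := V.b_relation
    rw [hb2] at h
    linear_combination h - V.b₈ * h3
  simp only [WeierstrassCurve.Ψ₃, Polynomial.eval_add, Polynomial.eval_mul, Polynomial.eval_pow,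
    Polynomial.eval_C, Polynomial.eval_X, Polynomial.eval_ofNat, hb2, hb8, h3]
  intro h
  refine hΔ (hΔ'.trans ?_)
  have hb4 : V.b₄ ^ 2 = 0 := by linear_combination -h
  rw [pow_succ, hb4, zero_mul]

/-- At supersingular good reduction all points of order three lie in the kernel of reduction. -/
lemma isE1_of_supersingular {A : ValuationSubring Qbar} (hA : A.LiesOverPrime 3)
    (hgood : W.IsGoodPrimeFor 3) (h4 : (3 : ℤ) ∣ W.c₄)
    (P : ((W.map (Int.castRingHom ℚ))⁄Qbar).Point) (hP : 3 • P = 0) : IsE1 (toGen W A P) := by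
  classical
  have : CharP (IsLocalRing.ResidueField A) 3 := residueChar A hA
  have h3k : (3 : IsLocalRing.ResidueField A) = 0 := by
    exact_mod_cast CharP.cast_eq_zero (IsLocalRing.ResidueField A) 3
  have hΔr : IsLocalRing.residue A (modelAt W A).Δ ≠ 0 :=
    residue_modelAt_Δ Nat.prime_three hA hgood
  have h4r : IsLocalRing.residue A (modelAt W A).c₄ = 0 := by
    rw [show (modelAt W A).c₄ = (W.c₄ : A) by rw [modelAt, WeierstrassCurve.map_c₄]; rfl,
      residue_intCast_eq_zero_iff Nat.prime_three hA]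
    exact h4
  have hs4 : (spc (modelAt W A)).c₄ = 0 := by rw [WeierstrassCurve.map_c₄]; exact h4r
  have hsΔ : (spc (modelAt W A)).Δ ≠ 0 := by rw [WeierstrassCurve.map_Δ]; exact hΔr
  by_contra hE
  have hgΔ : (gen (modelAt W A)).Δ ≠ 0 := by
    rw [WeierstrassCurve.map_Δ]
    exact fun h => hΔr (by rw [A.subtype_injective (h.trans (map_zero _).symm), map_zero])
  rcases hq : toGen W A P with _ | ⟨x, y, h⟩
  · rw [hq] at hE; exact hE isE1_zero
  rw [hq] at hE
  have hx : x ∈ A := not_not.1 fun hx => hE ((isE1_some_iff h).2 hx)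
  have hn : 3 • toGen W A P = 0 := by rw [← map_nsmul, hP, map_zero]
  rw [hq, EC.mem_roots_preΨ'_iff hgΔ (by decide) h, preΨ'_three] at hn
  refine eval_Ψ₃_ne_zero h3k hsΔ hs4 (IsLocalRing.residue A ⟨x, hx⟩) ?_
  rw [WeierstrassCurve.map_Ψ₃, Polynomial.eval_map, Polynomial.eval₂_at_apply]
  rw [WeierstrassCurve.map_Ψ₃, Polynomial.eval_map,
    show x = A.subtype ⟨x, hx⟩ from rfl, Polynomial.eval₂_at_apply] at hn
  rw [show (modelAt W A).Ψ₃.eval ⟨x, hx⟩ = 0 from A.subtype_injective (hn.trans (map_zero _).symm),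
    map_zero]

/-- Supersingular good reduction at `3` gives an irreducible three torsion. -/
theorem modRepIsIrreducible_three_of_supersingular (hΔ0 : W.Δ ≠ 0) (hgood : W.IsGoodPrimeFor 3)
    (h4 : (3 : ℤ) ∣ W.c₄) : W.ModRepIsIrreducible 3 := by
  classical
  have : Fact (Nat.Prime 3) := ⟨Nat.prime_three⟩
  have hΔq := EC.intMap_Δ_ne_zero hΔ0
  have hrank := EC.finrank_torsionBy_rat (W.map (Int.castRingHom ℚ)) hΔq 3
  refine ⟨Module.nontrivial_of_finrank_eq_succ hrank, fun N hN => ?_⟩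
  by_contra hcon
  push Not at hcon
  obtain ⟨h0, h1⟩ := hcon
  obtain ⟨A, hA⟩ := exists_liesOverPrime Nat.prime_three
  have hΔr : IsLocalRing.residue A (modelAt W A).Δ ≠ 0 :=
    residue_modelAt_Δ Nat.prime_three hA hgood
  have h2 : IsLocalRing.residue A (2 : A) ≠ 0 := by
    rw [map_ofNat]
    exact_mod_cast natCast_residue_ne_zero Nat.prime_three hA (by norm_num : ¬3 ∣ 2)
  exact no_stable_line_of_all_isE1 (by decide) hA hΔ0 (exists_simple_root_good _ h2 hΔr)
    (isE1_of_supersingular hA hgood h4) hN h0 h1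

/-- The units of `ZMod 3` are the powers of `-1`. -/
lemma units_three_mem : ∀ x : (ZMod 3)ˣ, x ∈ Subgroup.zpowers (-1 : (ZMod 3)ˣ) := by
  intro x
  have h : x = 1 ∨ x = -1 := by revert x; decide
  rcases h with rfl | rfl
  exacts [one_mem _, Subgroup.mem_zpowers _]

variable [Fact (Nat.Prime 3)]

set_option quotPrecheck false in
local notation "φ₃" =>
  Affine.Point.galoisRepModuleEnd ℚ (W.map (Int.castRingHom ℚ)).toAffine 3

/-- Inertia off `3` at a semistable prime acts with cube one. -/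
lemma galoisRep_pow_three_eq_one (hΔ0 : W.Δ ≠ 0) (hW : W.IsSemistableModel) {q : ℕ}
    (hq : q.Prime) (hq3 : q ≠ 3) {B : ValuationSubring Qbar} (hB : B.LiesOverPrime q) {σ : GQ}
    (hσ : σ ∈ B.inertiaSubgroupIn ℚ) : φ₃ σ ^ 3 = 1 := by
  refine LinearMap.ext fun x => ?_
  have hun := inertia_unipotent hq hq3 hB hΔ0 (hW q hq) hσ x
  set n := σ • x - x with hn
  have e1 : σ • x = x + n := by rw [hn]; abel
  show σ • σ • σ • x = x
  rw [e1, smul_add, e1, hun, smul_add, smul_add, e1, hun,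
    show x + n + n + n = x + 3 • n by abel, ZModModule.char_nsmul_eq_zero 3, add_zero]

/-- A semistable curve with supersingular good reduction at `3` has full image on the three
torsion. -/
theorem surjThree_of_supersingular (hΔ0 : W.Δ ≠ 0) (hW : W.IsSemistableModel)
    (hgood : W.IsGoodPrimeFor 3) (h4 : (3 : ℤ) ∣ W.c₄) : SurjThree W := by
  classical
  have hΔq := EC.intMap_Δ_ne_zero hΔ0
  have hrank := EC.finrank_torsionBy_rat (W.map (Int.castRingHom ℚ)) hΔq 3
  have : FiniteDimensional (ZMod 3) Tor := Module.finite_of_finrank_eq_succ hrank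
  have : Finite Tor := Module.finite_of_finite (ZMod 3)
  have hirr := EC.exists_forall_ne_smul hΔ0
    (modRepIsIrreducible_three_of_supersingular hΔ0 hgood h4)
  have hd := EC.det_complexConjugation (W := W) (p := 3) hΔ0
  suffices hord : ∃ σ : GQ, φ₃ σ ^ 3 = 1 ∧ φ₃ σ ≠ 1 by
    obtain ⟨t, ht, ht1⟩ := hord
    intro f
    have hbij : Function.Bijective (f.toAddMonoidHom.toZModLinearMap 3) := f.bijective
    obtain ⟨σ, hσ⟩ := GLTwoThree.exists_eq_of_order_three φ₃ hrank hirr hd ht ht1 _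
      (LinearMap.isUnit_iff_isUnit_det _ |>.1 ((Module.End.isUnit_iff _).2 hbij)).ne_zero
    exact ⟨σ, fun x => LinearMap.congr_fun hσ x⟩
  by_contra hcon
  push Not at hcon
  let ρu : GQ →* (Module.End (ZMod 3) Tor)ˣ := MonoidHom.toHomUnits φ₃
  have hρu : ∀ σ, (ρu σ : Module.End (ZMod 3) Tor) = φ₃ σ := fun σ => rfl
  have : Finite (Module.End (ZMod 3) Tor) :=
    Finite.of_injective (fun f => (f : Tor → Tor)) DFunLike.coe_injective
  have : Finite (Module.End (ZMod 3) Tor)ˣ := Finite.of_injective _ Units.val_injective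
  let G := ρu.range
  have : Finite G := Subtype.finite
  have : Fact (Nat.Prime 2) := ⟨Nat.prime_two⟩
  have h8 : ∀ σ, ρu σ ^ (2 ^ 3) = 1 := fun σ => by
    refine Units.ext ?_
    rw [Units.val_pow_eq_pow_val, hρu, Units.val_one, ← map_pow]
    refine hcon _ ?_
    rw [map_pow, ← pow_mul]
    refine GLTwoThree.pow_twenty_four hrank _ fun h0 => ?_
    have hu : IsUnit (φ₃ σ) := ⟨ρu σ, rfl⟩
    exact not_isUnit_zero (h0 ▸ hu.map LinearMap.det)
  have hGp : IsPGroup 2 G := by
    rintro ⟨_, σ, rfl⟩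
    exact ⟨3, Subtype.ext (h8 σ)⟩
  have hker : IsOpen (ρu.ker : Set GQ) :=
    EC.isOpen_ker_of_fixing (W.map (Int.castRingHom ℚ)) (n := 3) ρu fun σ h => Units.ext h
  obtain ⟨A, hA⟩ := exists_liesOverPrime Nat.prime_three
  obtain ⟨τ, hτI, hτ⟩ := RT.exists_inertia_cyclotomic Nat.prime_three hA (-1)
  have htame : RT.IsTameGen A 2 τ :=
    RT.isTameGen_of_cyclotomic Nat.prime_three (by norm_num)
      (fun x => units_three_mem x) hτI hτ
  have hP : IsPGroup 2 ((A.inertiaSubgroupIn ℚ).map ρu) := by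
    rintro ⟨_, σ, -, rfl⟩
    exact ⟨3, Subtype.ext (h8 σ)⟩
  have hgen := RT.map_inertia_eq_zpowers ρu Nat.prime_three hA (by norm_num) hker hP htame
  have hoff : ∀ q : ℕ, q.Prime → q ≠ 3 → ∀ B : ValuationSubring Qbar, B.LiesOverPrime q →
      ∀ σ ∈ B.inertiaSubgroupIn ℚ, ρu σ = 1 := by
    intro q hq hq3 B hB σ hσ
    exact Units.ext (hcon σ (galoisRep_pow_three_eq_one hΔ0 hW hq hq3 hB hσ))
  have hτG : ρu τ ∈ G := ⟨τ, rfl⟩
  have htop : Subgroup.zpowers (⟨ρu τ, hτG⟩ : G) = ⊤ := by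
    refine RT.zpowers_eq_top_of_forall_hom hGp _ fun f hf => ?_
    have hfI : ∀ σ ∈ A.inertiaSubgroupIn ℚ, f (ρu.rangeRestrict σ) = 1 := by
      intro σ hσ
      obtain ⟨k, hk⟩ : ρu σ ∈ Subgroup.zpowers (ρu τ) := hgen ▸ ⟨σ, hσ, rfl⟩
      rw [show ρu.rangeRestrict σ = (⟨ρu τ, hτG⟩ : G) ^ k from Subtype.ext hk.symm, map_zpow, hf,
        one_zpow]
    have hone : f.comp ρu.rangeRestrict = 1 := by
      refine monoidHom_eq_one_of_unramified _
        (Subgroup.isOpen_mono (fun σ hσ => ?_) hker) fun q hq B hB σ hσ => ?_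
      · rw [MonoidHom.mem_ker, MonoidHom.comp_apply,
          show ρu.rangeRestrict σ = 1 from Subtype.ext (MonoidHom.mem_ker.1 hσ), map_one]
      by_cases hq3 : q = 3
      · subst hq3
        obtain ⟨t, ht⟩ := exists_smul_eq hq hB hA
        have h := hfI _ (ht ▸ conj_mem_inertiaSubgroupIn hq hB hσ t)
        have h' : (f.comp ρu.rangeRestrict) (t * σ * t⁻¹) = 1 := h
        rw [map_mul, map_mul, mul_right_comm, ← map_mul, mul_inv_cancel, map_one, one_mul] at h'
        exact h'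
      · rw [MonoidHom.comp_apply,
          show ρu.rangeRestrict σ = 1 from Subtype.ext (hoff q hq hq3 B hB σ hσ), map_one]
    refine MonoidHom.ext fun g => ?_
    obtain ⟨σ, rfl⟩ := ρu.rangeRestrict_surjective g
    exact DFunLike.congr_fun hone σ
  refine GLTwoThree.false_of_commute_reflection φ₃ hrank hirr
    (s := complexConjugation) ?_ hd fun g => ?_
  · rw [← map_mul, complexConjugation_mul_self, map_one]
  · have hz : ∀ σ, ∃ k : ℤ, ρu τ ^ k = ρu σ := fun σ => by
      obtain ⟨k, hk⟩ := Subgroup.mem_zpowers_iff.1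
        (htop ▸ Subgroup.mem_top (ρu.rangeRestrict σ))
      exact ⟨k, congrArg Subtype.val hk⟩
    obtain ⟨i, hi⟩ := hz g
    obtain ⟨j, hj⟩ := hz complexConjugation
    have hc : Commute (ρu g) (ρu complexConjugation) := by
      rw [← hi, ← hj]; exact Commute.zpow_zpow_self _ i j
    exact hc.map (Units.coeHom _)

end FermatAgent.Switch2
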