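import Fermat.Prelude.Def_FLTPrelim_Modularity
import Mathlib.RingTheory.Coprime.Lemmas
import Mathlib.Tactic.LinearCombination
import Mathlib.Tactic.NormNum.Prime

/-!
# Integral models with prescribed invariants
-/

set_option autoImplicit false

open WeierstrassCurve

namespace FermatAgent.Switch2

/-- The model `a_i ↦ ν^i a_i`. -/
def scaledModel (W : WeierstrassCurve ℤ) (ν : ℤ) : WeierstrassCurve ℤ :=
  ⟨ν * W.a₁, ν ^ 2 * W.a₂, ν ^ 3 * W.a₃, ν ^ 4 * W.a₄, ν ^ 6 * W.a₆⟩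

/-- Scaling by `ν` multiplies `c₄`, `c₆`, `Δ` by `ν ^ 4`, `ν ^ 6`, `ν ^ 12`. -/
lemma scaledModel_invariants (W : WeierstrassCurve ℤ) (ν : ℤ) :
    (scaledModel W ν).c₄ = ν ^ 4 * W.c₄ ∧ (scaledModel W ν).c₆ = ν ^ 6 * W.c₆ ∧
      (scaledModel W ν).Δ = ν ^ 12 * W.Δ := by
  refine ⟨?_, ?_, ?_⟩ <;>
    simp only [scaledModel, WeierstrassCurve.c₄, WeierstrassCurve.c₆, WeierstrassCurve.Δ, b₂, b₄,
      b₆, b₈] <;> ring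

lemma map_eq_of_dvd {X Y : WeierstrassCurve ℤ} {N : ℕ} (h₁ : (N : ℤ) ∣ X.a₁ - Y.a₁)
    (h₂ : (N : ℤ) ∣ X.a₂ - Y.a₂) (h₃ : (N : ℤ) ∣ X.a₃ - Y.a₃) (h₄ : (N : ℤ) ∣ X.a₄ - Y.a₄)
    (h₆ : (N : ℤ) ∣ X.a₆ - Y.a₆) :
    X.map (Int.castRingHom (ZMod N)) = Y.map (Int.castRingHom (ZMod N)) := by
  have key : ∀ x y : ℤ, (N : ℤ) ∣ x - y → (x : ZMod N) = (y : ZMod N) := fun x y h => by
    rw [← sub_eq_zero, ← Int.cast_sub, ZMod.intCast_zmod_eq_zero_iff_dvd]; exact h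
  refine WeierstrassCurve.ext ?_ ?_ ?_ ?_ ?_ <;> simp [key _ _ h₁, key _ _ h₂, key _ _ h₃,
    key _ _ h₄, key _ _ h₆]

/-- Models congruent modulo `N` have congruent invariants. -/
lemma dvd_of_map_eq {X Y : WeierstrassCurve ℤ} {N : ℕ}
    (h : X.map (Int.castRingHom (ZMod N)) = Y.map (Int.castRingHom (ZMod N))) :
    (N : ℤ) ∣ X.c₄ - Y.c₄ ∧ (N : ℤ) ∣ X.c₆ - Y.c₆ ∧ (N : ℤ) ∣ X.Δ - Y.Δ := by
  have e4 := congrArg WeierstrassCurve.c₄ h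
  have e6 := congrArg WeierstrassCurve.c₆ h
  have eΔ := congrArg WeierstrassCurve.Δ h
  simp only [WeierstrassCurve.map_c₄, WeierstrassCurve.map_c₆, WeierstrassCurve.map_Δ,
    eq_intCast] at e4 e6 eΔ
  refine ⟨?_, ?_, ?_⟩ <;> rw [← ZMod.intCast_zmod_eq_zero_iff_dvd] <;> push_cast <;>
    simp [e4, e6, eΔ]

/-- An integer prime to `n` is invertible modulo `n`. -/
lemma exists_inverse_mod {m n : ℤ} (h : IsCoprime m n) : ∃ i : ℤ, n ∣ m * i - 1 := by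
  obtain ⟨u, v, huv⟩ := h
  exact ⟨u, -v, by linear_combination huv⟩

/-- A model over `ℤ/3^N` with the invariants `(α, β)`. -/
lemma exists_model_mod_three (N : ℕ) {α β δ : ℤ} (hdisc : α ^ 3 - β ^ 2 = 1728 * δ)
    (h3 : ¬(3 : ℤ) ∣ α ∨ (3 : ℤ) ∣ α ∧ (27 : ℤ) ∣ β) :
    ∃ V : WeierstrassCurve ℤ, (3 : ℤ) ^ N ∣ V.c₄ - α ∧ (3 : ℤ) ^ N ∣ V.c₆ - β := by
  rcases h3 with h | ⟨⟨α', rfl⟩, ⟨β', rfl⟩⟩
  · have hc : IsCoprime (4 * α) ((3 : ℤ) ^ N) := by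
      refine IsCoprime.pow_right ?_
      refine ((Int.prime_three.coprime_iff_not_dvd).2 ?_).symm
      intro hd
      rcases Int.prime_three.dvd_mul.1 hd with h' | h'
      · norm_num at h'
      · exact h h'
    obtain ⟨e, k, hk⟩ := exists_inverse_mod hc
    refine ⟨⟨0, -β * e, 0, -36 * δ * (4 * e) ^ 2, β * δ * (4 * e) ^ 3⟩,
      ⟨α * k * (4 * α * e + 1), ?_⟩,
      ⟨β * k * ((4 * α * e) ^ 2 + 4 * α * e + 1), ?_⟩⟩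
    · simp only [WeierstrassCurve.c₄, b₂, b₄]
      linear_combination (-16 * e ^ 2) * hdisc + α * (4 * α * e + 1) * hk
    · simp only [WeierstrassCurve.c₆, b₂, b₄, b₆]
      linear_combination (-64 * β * e ^ 3) * hdisc
        + β * ((4 * α * e) ^ 2 + 4 * α * e + 1) * hk
  · have hc : ∀ c : ℤ, ¬(3 : ℤ) ∣ c → IsCoprime c ((3 : ℤ) ^ N) := fun c hc =>
      IsCoprime.pow_right ((Int.prime_three.coprime_iff_not_dvd).2 hc).symm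
    obtain ⟨i, k, hk⟩ := exists_inverse_mod (hc 16 (by norm_num))
    obtain ⟨j, l, hl⟩ := exists_inverse_mod (hc 32 (by norm_num))
    refine ⟨⟨0, 0, 0, -α' * i, -β' * j⟩, ⟨3 * α' * k, ?_⟩, ⟨27 * β' * l, ?_⟩⟩
    · simp only [WeierstrassCurve.c₄, b₂, b₄]
      linear_combination 3 * α' * hk
    · simp only [WeierstrassCurve.c₆, b₂, b₄, b₆]
      linear_combination 27 * β' * hl

/-- An integral model with the invariants `(α, β)`, congruent to `W` scaled by `ν` away from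
`3`. -/
theorem exists_model (W : WeierstrassCurve ℤ) {α β δ ν : ℤ}
    (hdisc : α ^ 3 - β ^ 2 = 1728 * δ) (h4 : (10 : ℤ) ^ 20 ∣ α - ν ^ 4 * W.c₄)
    (h6 : (10 : ℤ) ^ 20 ∣ β - ν ^ 6 * W.c₆)
    (h3 : ¬(3 : ℤ) ∣ α ∨ (3 : ℤ) ∣ α ∧ (27 : ℤ) ∣ β) :
    ∃ X : WeierstrassCurve ℤ, X.c₄ = α ∧ X.c₆ = β ∧ X.Δ = δ ∧
      X.map (Int.castRingHom (ZMod 10)) = (scaledModel W ν).map (Int.castRingHom (ZMod 10)) := by
  obtain ⟨V, v4, v6⟩ := exists_model_mod_three 20 hdisc h3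
  obtain ⟨s4, s6, -⟩ := scaledModel_invariants W ν
  set S := scaledModel W ν
  obtain ⟨u, v, huv⟩ : IsCoprime ((10 : ℤ) ^ 20) (3 ^ 20) :=
    Int.isCoprime_iff_gcd_eq_one.2 (by norm_num)
  set Y : WeierstrassCurve ℤ :=
    ⟨v * 3 ^ 20 * S.a₁ + u * 10 ^ 20 * V.a₁, v * 3 ^ 20 * S.a₂ + u * 10 ^ 20 * V.a₂,
      v * 3 ^ 20 * S.a₃ + u * 10 ^ 20 * V.a₃, v * 3 ^ 20 * S.a₄ + u * 10 ^ 20 * V.a₄,
      v * 3 ^ 20 * S.a₆ + u * 10 ^ 20 * V.a₆⟩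
  have e10 : ∀ s t : ℤ, ((10 ^ 20 : ℕ) : ℤ) ∣ v * 3 ^ 20 * s + u * 10 ^ 20 * t - s :=
    fun s t => ⟨u * t - u * s, by push_cast; linear_combination s * huv⟩
  have e3 : ∀ s t : ℤ, ((3 ^ 20 : ℕ) : ℤ) ∣ v * 3 ^ 20 * s + u * 10 ^ 20 * t - t :=
    fun s t => ⟨v * s - v * t, by push_cast; linear_combination t * huv⟩
  have m10 : Y.map (Int.castRingHom (ZMod (10 ^ 20))) = S.map (Int.castRingHom (ZMod (10 ^ 20))) :=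
    map_eq_of_dvd (e10 _ _) (e10 _ _) (e10 _ _) (e10 _ _) (e10 _ _)
  obtain ⟨p4, p6, -⟩ := dvd_of_map_eq m10
  obtain ⟨q4, q6, -⟩ := dvd_of_map_eq
    (map_eq_of_dvd (X := Y) (Y := V) (e3 _ _) (e3 _ _) (e3 _ _) (e3 _ _) (e3 _ _))
  push_cast at p4 p6 q4 q6
  have hcop : IsCoprime ((10 : ℤ) ^ 20) (3 ^ 20) := ⟨u, v, huv⟩
  obtain ⟨x, hx⟩ : (10 : ℤ) ^ 20 * 3 ^ 20 ∣ α - Y.c₄ := by
    refine hcop.mul_dvd ?_ ?_
    · rw [show α - Y.c₄ = (α - ν ^ 4 * W.c₄) - (Y.c₄ - S.c₄) by rw [s4]; ring]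
      exact dvd_sub h4 p4
    · rw [show α - Y.c₄ = -(V.c₄ - α) - (Y.c₄ - V.c₄) by ring]
      exact dvd_sub (dvd_neg.2 v4) q4
  obtain ⟨y, hy⟩ : (10 : ℤ) ^ 20 * 3 ^ 20 ∣ β - Y.c₆ := by
    refine hcop.mul_dvd ?_ ?_
    · rw [show β - Y.c₆ = (β - ν ^ 6 * W.c₆) - (Y.c₆ - S.c₆) by rw [s6]; ring]
      exact dvd_sub h6 p6
    · rw [show β - Y.c₆ = -(V.c₆ - β) - (Y.c₆ - V.c₆) by ring]
      exact dvd_sub (dvd_neg.2 v6) q6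
  set δ₄ : ℤ := -(x * (2 ^ 16 * 3 ^ 19 * 5 ^ 20))
  set δ₆ : ℤ := -(Y.b₂ * x * (2 ^ 14 * 3 ^ 18 * 5 ^ 20)) - y * (2 ^ 15 * 3 ^ 17 * 5 ^ 20)
  set X : WeierstrassCurve ℤ := ⟨Y.a₁, Y.a₂, Y.a₃, Y.a₄ + δ₄, Y.a₆ + δ₆⟩
  have hX4 : X.c₄ = α := by
    simp only [X, δ₄, WeierstrassCurve.c₄, b₂, b₄] at hx ⊢
    linear_combination -hx
  have hX6 : X.c₆ = β := by
    simp only [X, δ₄, δ₆, WeierstrassCurve.c₆, b₂, b₄, b₆] at hy ⊢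
    linear_combination -hy
  refine ⟨X, hX4, hX6, mul_left_cancel₀ (show (1728 : ℤ) ≠ 0 by norm_num) ?_, ?_⟩
  · rw [X.c_relation, hX4, hX6, hdisc]
  · have h10 : ((10 : ℕ) : ℤ) ∣ (10 : ℤ) ^ 20 := dvd_pow_self _ (by norm_num)
    have f : ∀ s t : ℤ, ((10 : ℕ) : ℤ) ∣ v * 3 ^ 20 * s + u * 10 ^ 20 * t - s := fun s t =>
      h10.trans (by have := e10 s t; push_cast at this; exact this)
    refine map_eq_of_dvd (f _ _) (f _ _) (f _ _) ?_ ?_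
    · rw [show X.a₄ - S.a₄ = (Y.a₄ - S.a₄) + δ₄ by simp only [X]; ring]
      exact dvd_add (f _ _) ⟨-(x * (2 ^ 15 * 3 ^ 19 * 5 ^ 19)), by simp only [δ₄]; push_cast; ring⟩
    · rw [show X.a₆ - S.a₆ = (Y.a₆ - S.a₆) + δ₆ by simp only [X]; ring]
      exact dvd_add (f _ _) ⟨-(Y.b₂ * x * (2 ^ 13 * 3 ^ 18 * 5 ^ 19))
        - y * (2 ^ 14 * 3 ^ 17 * 5 ^ 19), by simp only [δ₆]; push_cast; ring⟩

/-- Division by `3 ^ (m * e)` modulo `10 ^ 20`. -/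
lemma dvd_sub_pow_mul {ν : ℤ} {m : ℕ} (hν : (10 : ℤ) ^ 20 ∣ 3 ^ m * ν - 1) (e : ℕ) {z x : ℤ}
    (hz : (10 : ℤ) ^ 20 ∣ 3 ^ (m * e) * z - x) : (10 : ℤ) ^ 20 ∣ z - ν ^ e * x := by
  have h1 : (10 : ℤ) ^ 20 ∣ (3 ^ m * ν) ^ e - 1 := by
    have h := sub_dvd_pow_sub_pow (3 ^ m * ν) 1 e
    rw [one_pow] at h
    exact hν.trans h
  rw [show z - ν ^ e * x = ν ^ e * (3 ^ (m * e) * z - x) - z * ((3 ^ m * ν) ^ e - 1) by
    rw [mul_pow, pow_mul]; ring]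
  exact dvd_sub (hz.mul_left _) (h1.mul_left _)

/-- An inverse of `3 ^ m` modulo `10 ^ 20` is a unit at `2` and at `5`. -/
lemma not_dvd_inverse {ν : ℤ} {m : ℕ} (hν : (10 : ℤ) ^ 20 ∣ 3 ^ m * ν - 1) {p : ℕ} (hp : p.Prime)
    (hp10 : p ∣ 10) : ¬(p : ℤ) ∣ ν := fun h => by
  have h1 : (p : ℤ) ∣ (3 : ℤ) ^ m * ν - 1 :=
    (Int.natCast_dvd_natCast.2 hp10).trans ((dvd_pow_self _ (by norm_num)).trans hν)
  have h2 := dvd_sub (h.mul_left ((3 : ℤ) ^ m)) h1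
  rw [sub_sub_cancel, show (1 : ℤ) = ((1 : ℕ) : ℤ) from rfl, Int.natCast_dvd_natCast,
    Nat.dvd_one] at h2
  exact hp.ne_one h2

/-- The new model has no additive reduction at `2`, `3` or `5`. -/
lemma not_additive_small {W X : WeierstrassCurve ℤ} (hW : W.IsSemistableModel) {ν : ℤ} {m : ℕ}
    (hν : (10 : ℤ) ^ 20 ∣ 3 ^ m * ν - 1) (n4 : ((10 : ℕ) : ℤ) ∣ X.c₄ - ν ^ 4 * W.c₄)
    (nΔ : ((10 : ℕ) : ℤ) ∣ X.Δ - ν ^ 12 * W.Δ)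
    (h3 : ¬(3 : ℤ) ∣ X.c₄ ∨ ¬(3 : ℤ) ∣ X.Δ) :
    ∀ p ∈ [2, 3, 5], ((p : ℕ) : ℤ) ∣ X.Δ → ¬((p : ℕ) : ℤ) ∣ X.c₄ := by
  intro p hp hpΔ hp4
  by_cases hp3' : p = 3
  · subst hp3'
    rcases h3 with h | h
    exacts [h hp4, h hpΔ]
  have hp' : p.Prime ∧ p ∣ 10 := by
    simp only [List.mem_cons, List.not_mem_nil, or_false] at hp
    rcases hp with rfl | rfl | rfl <;> first | exact absurd rfl hp3' | norm_num
  have hq := Nat.prime_iff_prime_int.1 hp'.1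
  have cast10 : ∀ {z : ℤ}, ((10 : ℕ) : ℤ) ∣ z → (p : ℤ) ∣ z :=
    (Int.natCast_dvd_natCast.2 hp'.2).trans
  have a1 := (hq.dvd_mul.1 (by simpa using dvd_sub hpΔ (cast10 nΔ))).resolve_left
    fun h => not_dvd_inverse hν hp'.1 hp'.2 (hq.dvd_of_dvd_pow h)
  have a2 := (hq.dvd_mul.1 (by simpa using dvd_sub hp4 (cast10 n4))).resolve_left
    fun h => not_dvd_inverse hν hp'.1 hp'.2 (hq.dvd_of_dvd_pow h)
  exact hW p hp'.1 a1 a2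

end FermatAgent.Switch2
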