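import Fermat.Agent.Switch2.HessePoints
import Fermat.Agent.Switch.Semistable

/-!
# Three torsion unramified at `q ≥ 5` forces good reduction up to scaling

`scalable_three`: if `Y` has the three torsion of a curve good at `q ≥ 5` and `q` divides its `c₄`
and discriminant, then `q ^ 4 ∣ c₄` and `q ^ 6 ∣ c₆`. The Hesse parameters of `Y` are fixed by
inertia, so either the conclusion holds or the valuation of `c₆` is read off and bounds that of `u`
(`scale_or_read`); in the second case all four roots `u ^ 2` of the quartic would be small, and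
its linear coefficient `8 c₆` smaller than it is.
-/

set_option autoImplicit false

noncomputable section

open WeierstrassCurve WeierstrassCurve.Affine Polynomial
open scoped WeierstrassCurve.Affine Pointwise
open FermatAgent.EC (mapPoint mapPoint_some)

namespace FermatAgent.Switch2

open FermatAgent.ECLocal FermatAgent.Switch

local notation "Qbar" => AlgebraicClosure ℚ

variable {q : ℕ} {A : ValuationSubring Qbar}

/-- The largest scale `q ^ m` with `v (u) ≤ v (q) ^ m` and `3 m ≤ e`. -/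
private lemma exists_scale (hq : q.Prime) (hA : A.LiesOverPrime q) {u : Qbar}
    (hu : ∀ σ ∈ A.inertiaSubgroupIn ℚ, σ u = u) (e : ℤ) :
    ∃ m : ℤ, 3 * m ≤ e ∧ A.valuation u ≤ A.valuation (q : Qbar) ^ m ∧
      (e ≤ 3 * m + 2 ∨ A.valuation u = A.valuation (q : Qbar) ^ m) := by
  by_cases hu0 : u = 0
  · exact ⟨e / 3, by omega, by rw [hu0, map_zero]; exact zero_le, Or.inl (by omega)⟩
  · obtain ⟨i, hi⟩ := Mazur.exists_zpow_valuation_eq hq hA hu0 hu
    by_cases h : i ≤ e / 3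
    · exact ⟨i, by omega, hi.le, Or.inr hi⟩
    · exact ⟨e / 3, by omega, hi.le.trans (zpow_le_zpow_right_of_le_one₀
        (zero_lt_iff.2 (ECLocal.valuation_natCast_ne_zero hq))
        (ECLocal.valuation_natCast_lt_one hA).le (by omega)), Or.inl (by omega)⟩

/-- Unramified elements of the maximal ideal are divisible by `q`. -/
private lemma valuation_le_of_lt_one (hq : q.Prime) (hA : A.LiesOverPrime q) {x : Qbar}
    (hx : ∀ σ ∈ A.inertiaSubgroupIn ℚ, σ x = x) (h : A.valuation x < 1) :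
    A.valuation x ≤ A.valuation (q : Qbar) := by
  have hπ0 : 0 < A.valuation (q : Qbar) := zero_lt_iff.2 (ECLocal.valuation_natCast_ne_zero hq)
  have hπ1 := (ECLocal.valuation_natCast_lt_one hA).le
  by_cases hx0 : x = 0
  · rw [hx0, map_zero]; exact zero_le
  obtain ⟨i, hi⟩ := Mazur.exists_zpow_valuation_eq hq hA hx0 hx
  rw [hi] at h ⊢
  have : 1 ≤ i := by
    by_contra h'
    exact absurd h (not_lt.2 (one_le_zpow_of_nonpos₀ hπ0 hπ1 (by omega)))
  exact (zpow_le_zpow_right_of_le_one₀ hπ0 hπ1 this).trans (zpow_one _).le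

/-- Products of powers of `2` and `3` are units at `q ≥ 5`. -/
private lemma natCast_smooth_ne_zero (hq : q.Prime) (hq5 : 5 ≤ q) (hA : A.LiesOverPrime q)
    (i j : ℕ) : ((2 ^ i * 3 ^ j : ℕ) : IsLocalRing.ResidueField A) ≠ 0 :=
  natCast_residue_ne_zero hq hA fun h => by
    rcases (Nat.Prime.dvd_mul hq).1 h with h | h
    · have := Nat.le_of_dvd (by norm_num) (hq.dvd_of_dvd_pow h); omega
    · have := Nat.le_of_dvd (by norm_num) (hq.dvd_of_dvd_pow h); omega

/-- Over a field without `2, 3` torsion, `hesse4 = 0` and a vanishing discriminant force the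
parameters to vanish. -/
private lemma eq_zero_of_hesse {k : Type*} [Field k] (c3 : (3 : k) ≠ 0) (c27 : (27 : k) ≠ 0)
    (c1728 : (1728 : k) ≠ 0) {U W : k} (h4 : hesse4 U W = 0)
    (hd : 1728 * W ^ 3 * (U ^ 3 - 27 * W) = 0) : U = 0 ∧ W = 0 := by
  simp only [hesse4] at h4
  rcases mul_eq_zero.1 hd with h | h
  · have hW : W = 0 := (pow_eq_zero_iff (by norm_num : (3 : ℕ) ≠ 0)).1
      ((mul_eq_zero.1 h).resolve_left c1728)
    refine ⟨?_, hW⟩
    rw [hW] at h4
    exact (pow_eq_zero_iff (by norm_num : (4 : ℕ) ≠ 0)).1 (by linear_combination h4)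
  · have h0 : 3 * (U * W) = 0 := by linear_combination h4 - U * h
    rcases mul_eq_zero.1 ((mul_eq_zero.1 h0).resolve_left c3) with h' | h'
    · exact ⟨h', (mul_eq_zero.1 (show (27 : k) * W = 0 by
        rw [h'] at h; linear_combination -h)).resolve_left c27⟩
    · exact ⟨(pow_eq_zero_iff (by norm_num : (3 : ℕ) ≠ 0)).1
        (by rw [h'] at h; linear_combination h), h'⟩

/-- When `u` is small against `w`, the term in `w²` dominates `hesse6`. -/
private lemma valuation_hesse6 (hq : q.Prime) (hA : A.LiesOverPrime q)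
    (h216 : A.valuation (216 : Qbar) = 1) {x y : Qbar} {j : ℤ} (hj : j = 1 ∨ j = 2)
    (hx : A.valuation x ≤ A.valuation (q : Qbar))
    (hy : A.valuation y = A.valuation (q : Qbar) ^ j) :
    A.valuation (hesse6 x y) = A.valuation (q : Qbar) ^ (2 * j) := by
  set π := A.valuation (q : Qbar)
  have hπ0 : 0 < π := zero_lt_iff.2 (ECLocal.valuation_natCast_ne_zero hq)
  have hπ1 : π < 1 := ECLocal.valuation_natCast_lt_one hA
  rw [show hesse6 x y = -216 * y ^ 2 + (36 * x ^ 3 * y - x ^ 6) by simp only [hesse6]; ring]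
  have hlead : A.valuation (-216 * y ^ 2) = π ^ (2 * j) := by
    rw [map_mul, map_pow, Valuation.map_neg, h216, one_mul, hy, ← zpow_natCast, ← zpow_mul,
      mul_comm j]
    rfl
  refine (A.valuation.map_add_eq_of_lt_left ?_).trans hlead
  rw [hlead]
  refine (A.valuation.map_sub _ _).trans_lt (max_lt ?_ ?_)
  · rw [map_mul, map_mul, map_pow, hy]
    have h36 : A.valuation (36 : Qbar) ≤ 1 := A.valuation_le_one (36 : A)
    refine lt_of_le_of_lt (mul_le_mul' (mul_le_mul' h36 (pow_le_pow_left₀ zero_le hx 3))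
      le_rfl) ?_
    rw [one_mul, ← zpow_natCast π, ← zpow_add₀ hπ0.ne']
    exact zpow_lt_zpow_right_of_lt_one₀ hπ0 hπ1 (by push_cast; omega)
  · rw [map_pow]
    refine lt_of_le_of_lt (pow_le_pow_left₀ zero_le hx 6) ?_
    rw [← zpow_natCast π]
    exact zpow_lt_zpow_right_of_lt_one₀ hπ0 hπ1 (by push_cast; omega)

/-- The residual step: at a point with small invariants the scale is read off from `c₆`. -/
lemma scale_or_read (hq : q.Prime) (hq5 : 5 ≤ q) (hA : A.LiesOverPrime q) {a b : ℤ} {u w : Qbar}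
    (h4 : hesse4 u w = a) (h6 : hesse6 u w = b) (hw : w ≠ 0) (ha : (q : ℤ) ∣ a)
    (hd : (q : ℤ) ∣ a ^ 3 - b ^ 2)
    (hu : ∀ σ ∈ A.inertiaSubgroupIn ℚ, σ u = u) (hwf : ∀ σ ∈ A.inertiaSubgroupIn ℚ, σ w = w) :
    ((q : ℤ) ^ 4 ∣ a ∧ (q : ℤ) ^ 6 ∣ b) ∨
      ∃ M k : ℤ, (k = 1 ∨ k = 2) ∧
        A.valuation (b : Qbar) = A.valuation (q : Qbar) ^ (6 * M + 2 * k) ∧
        A.valuation u ≤ A.valuation (q : Qbar) ^ (M + 1) := by
  obtain ⟨e, he⟩ := Mazur.exists_zpow_valuation_eq hq hA hw hwf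
  set π := A.valuation (q : Qbar) with hπ
  have hπ0 : 0 < π := zero_lt_iff.2 (ECLocal.valuation_natCast_ne_zero hq)
  have hπ1 : π < 1 := ECLocal.valuation_natCast_lt_one hA
  -- the scale
  obtain ⟨m, hm3, hmu, hmax⟩ := exists_scale hq hA hu e
  set d : Qbar := (q : Qbar) ^ m with hddef
  have hd0 : d ≠ 0 := zpow_ne_zero _ (Nat.cast_ne_zero.2 hq.ne_zero)
  have hvd : A.valuation d = π ^ m := by rw [hddef, map_zpow₀]
  have hvu : A.valuation (u / d) ≤ 1 := by
    rw [map_div₀, hvd]; exact (div_le_one₀ (zpow_pos hπ0 m)).2 hmu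
  have hvw : A.valuation (w / d ^ 3) = π ^ (e - 3 * m) := by
    rw [map_div₀, map_pow, hvd, he, ← zpow_natCast (π ^ m), ← zpow_mul, mul_comm m,
      zpow_sub₀ hπ0.ne']
    rfl
  have hvw1 : A.valuation (w / d ^ 3) ≤ 1 := by
    rw [hvw, ← zpow_zero π]
    exact zpow_le_zpow_right_of_le_one₀ hπ0 hπ1.le (by omega)
  let u' : A := ⟨u / d, (A.valuation_le_one_iff _).1 hvu⟩
  let w' : A := ⟨w / d ^ 3, (A.valuation_le_one_iff _).1 hvw1⟩
  have e4 : (a : Qbar) = d ^ 4 * ((hesse4 u' w' : A) : Qbar) := by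
    rw [← h4, show ((hesse4 u' w' : A) : Qbar) = hesse4 (u / d) (w / d ^ 3) from
      (map_hesse A.subtype u' w').1]
    simp only [hesse4]; field_simp
  have e6 : (b : Qbar) = d ^ 6 * ((hesse6 u' w' : A) : Qbar) := by
    rw [← h6, show ((hesse6 u' w' : A) : Qbar) = hesse6 (u / d) (w / d ^ 3) from
      (map_hesse A.subtype u' w').2]
    simp only [hesse6]; field_simp
  have eΔ : ((a ^ 3 - b ^ 2 : ℤ) : Qbar) =
      d ^ 12 * (((hesse4 u' w') ^ 3 - (hesse6 u' w') ^ 2 : A) : Qbar) := by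
    push_cast; rw [e4, e6]; ring
  by_cases hm1 : 1 ≤ m
  · exact Or.inl ⟨pow_dvd_of_scale hq hA hm1 e4, pow_dvd_of_scale hq hA hm1 e6⟩
  right
  have hm0 : m ≤ 0 := by omega
  have r4 := residue_eq_zero_of_scale hq hA hm0 e4
    ((ECLocal.valuation_intCast_lt_one_iff hq hA a).2 ha)
  have rΔ := residue_eq_zero_of_scale hq hA hm0 eΔ
    ((ECLocal.valuation_intCast_lt_one_iff hq hA _).2 hd)
  rw [(map_hesse (IsLocalRing.residue A) u' w').1] at r4
  rw [map_sub, map_pow, map_pow, (map_hesse (IsLocalRing.residue A) u' w').1,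
    (map_hesse (IsLocalRing.residue A) u' w').2, hesse_disc] at rΔ
  set U := IsLocalRing.residue A u' with hUdef
  set W' := IsLocalRing.residue A w' with hWdef
  obtain ⟨hU, hW'⟩ : U = 0 ∧ W' = 0 :=
    eq_zero_of_hesse (by simpa using natCast_smooth_ne_zero hq hq5 hA 0 1)
      (by simpa using natCast_smooth_ne_zero hq hq5 hA 0 3)
      (by simpa using natCast_smooth_ne_zero hq hq5 hA 6 3) r4 rΔ
  rw [hUdef, IsLocalRing.residue_eq_zero_iff, A.valuation_lt_one_iff] at hU
  rw [hWdef, IsLocalRing.residue_eq_zero_iff, A.valuation_lt_one_iff] at hW'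
  change A.valuation (u / d) < 1 at hU
  change A.valuation (w / d ^ 3) < 1 at hW'
  have hk1 : 1 ≤ e - 3 * m := by
    by_contra h
    rw [hvw, show e - 3 * m = 0 by omega, zpow_zero] at hW'
    exact lt_irrefl _ hW'
  have hk2 : e ≤ 3 * m + 2 := hmax.resolve_right fun h => by
    rw [map_div₀, hvd, h, div_self (zpow_pos hπ0 m).ne'] at hU
    exact lt_irrefl _ hU
  have huπ : A.valuation (u / d) ≤ π :=
    valuation_le_of_lt_one hq hA
      (fun σ hσ => by rw [map_div₀, hu σ hσ, hddef, map_zpow₀, map_natCast]) hU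
  have h216 : A.valuation (216 : Qbar) = 1 :=
    (residue_ne_zero_iff A (216 : A)).1 (by
      rw [map_ofNat]; simpa using natCast_smooth_ne_zero hq hq5 hA 3 3)
  refine ⟨m, e - 3 * m, by omega, ?_, ?_⟩
  · rw [e6, valuation_scale_mul, show ((hesse6 u' w' : A) : Qbar) = hesse6 (u / d) (w / d ^ 3) from
      (map_hesse A.subtype u' w').2, valuation_hesse6 hq hA h216 (by omega) huπ hvw,
      ← zpow_add₀ hπ0.ne']
    congr 1
  · rw [zpow_add₀ hπ0.ne', zpow_one]
    rw [map_div₀, hvd, div_le_iff₀ (zpow_pos hπ0 m)] at huπ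
    exact huπ.trans (le_of_eq (mul_comm _ _))

/-- A root of the quartic of `u²` comes from parameters with the given invariants. -/
private lemma exists_hesse_of_root {a b Z : Qbar}
    (hZ' : Z ^ 4 - 6 * a * Z ^ 2 - 8 * b * Z - 3 * a ^ 2 = 0) :
    ∃ u w : Qbar, hesse4 u w = a ∧ hesse6 u w = b ∧ u ^ 2 = Z := by
  obtain ⟨u, hu⟩ := IsAlgClosed.exists_pow_nat_eq Z (show 0 < 2 by norm_num)
  by_cases hu0 : u = 0
  · subst hu0
    obtain ⟨w, hw⟩ := IsAlgClosed.exists_pow_nat_eq (-b / 216) (show 0 < 2 by norm_num)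
    rw [zero_pow two_ne_zero] at hu
    subst hu
    have ha0 : a = 0 :=
      (pow_eq_zero_iff two_ne_zero).1 (by linear_combination -(1/3 : Qbar) * hZ')
    refine ⟨0, w, ?_, ?_, zero_pow two_ne_zero⟩
    · simp [hesse4, ha0]
    · simp only [hesse6, hw]; ring
  · refine ⟨u, (u ^ 4 - a) / (24 * u), ?_, ?_, hu⟩
    · simp only [hesse4]; field_simp; ring
    · rw [← hu] at hZ'
      simp only [hesse6]
      field_simp
      linear_combination (72 : Qbar) * hZ'

/-- Coefficients of a monic split polynomial with roots in `D A` are scaled into `A`. -/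
private lemma coeff_scaleRoots_mem {g : Qbar[X]} (hmonic : g.Monic) {D : Qbar} (hD0 : D ≠ 0)
    (hsmall : ∀ Z ∈ g.roots, Z / D ∈ A) (i : ℕ) : (scaleRoots g D⁻¹).coeff i ∈ A := by
  classical
  have hd1 : (scaleRoots g D⁻¹).Monic := by
    rw [Monic, leadingCoeff, natDegree_scaleRoots, coeff_scaleRoots_natDegree]; exact hmonic
  have hr : (scaleRoots g D⁻¹).roots = g.roots.map fun Z => Z / D := by
    rw [roots_scaleRoots g (IsUnit.mk0 _ (inv_ne_zero hD0))]
    exact Multiset.map_congr rfl fun Z _ => by rw [mul_comm, div_eq_mul_inv]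
  have hl : scaleRoots g D⁻¹ ∈ lifts A.subtype := by
    rw [(IsAlgClosed.splits (scaleRoots g D⁻¹)).eq_prod_roots_of_monic hd1, hr, Multiset.map_map]
    refine multiset_prod_mem _ fun p hp => ?_
    obtain ⟨Z, hZ, rfl⟩ := Multiset.mem_map.1 hp
    rw [Function.comp_apply, sub_eq_add_neg, ← C_neg]
    exact add_mem (X_mem_lifts _) (C'_mem_lifts ⟨⟨_, neg_mem (hsmall Z hZ)⟩, rfl⟩)
  obtain ⟨y, hy⟩ := (lifts_iff_coeff_lifts _).1 hl i
  exact hy ▸ y.2

/-- If the three torsion is unramified at `q ≥ 5`, the curve is good at `q` up to scaling. -/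
theorem scalable_three {W Y : WeierstrassCurve ℤ} (hΔ : Y.Δ ≠ 0) (hT : TorEquiv 3 W Y)
    (hq : q.Prime) (hq5 : 5 ≤ q) (hgood : ¬(q : ℤ) ∣ W.Δ) (h4 : (q : ℤ) ∣ Y.c₄)
    (hΔq : (q : ℤ) ∣ Y.Δ) : (q : ℤ) ^ 4 ∣ Y.c₄ ∧ (q : ℤ) ^ 6 ∣ Y.c₆ := by
  classical
  obtain ⟨A, hA⟩ := GaloisBasic.exists_liesOverPrime hq
  set a := Y.c₄ with ha
  set b := Y.c₆ with hb
  have hrel : a ^ 3 - b ^ 2 = 1728 * Y.Δ := by rw [ha, hb, Y.c_relation]
  have hd' := cast_cube_ne_sq hrel hΔ
  have hdvd : (q : ℤ) ∣ a ^ 3 - b ^ 2 := hrel ▸ hΔq.mul_left _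
  obtain ⟨e, he⟩ := (hT.trans (torEquiv_shortCurve 3 Y).symm : TorEquiv 3 W (shortCurve a b))
  let pc := ECLocal.pointCongr (qbar_curve_eq a b)
  have hfix : ∀ u w : Qbar, hesse4 u w = a → hesse6 u w = b →
      ∀ σ ∈ A.inertiaSubgroupIn ℚ, σ u = u ∧ σ w = w := by
    intro u w h4' h6' σ hσ
    set P := hessePt hd' h4' h6' with hP
    let x : QTor (shortCurve a b) 3 := ⟨pc.symm P, mem_qTor.2 (by
      rw [← map_nsmul, hP, three_nsmul_hessePt, map_zero])⟩
    have hx : σ • x = x := by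
      obtain ⟨y, hy⟩ := e.surjective x
      rw [← hy, ← he σ y, show σ • y = y from Subtype.ext (inertia_fixes_of_good hq hA hgood
        (fun h => by have := Nat.le_of_dvd (by norm_num) h; omega) hσ (mem_qTor.1 y.2))]
    have h0 := shortCurve_map_galois σ.toRingEquiv a b
    have hmap : mapPoint σ.toRingEquiv.toRingHom h0 P = P := by
      have h := pointCongr_galois (qbar_curve_eq a b) σ h0 x.1
      rw [show σ • x.1 = x.1 from congrArg Subtype.val hx] at h
      simpa [x, pc] using h.symm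
    have h4'' : hesse4 (σ u) (σ w) = (a : Qbar) := by
      rw [← map_intCast σ a, ← h4']; exact ((map_hesse (σ : Qbar →+* Qbar) u w).1).symm
    have h6'' : hesse6 (σ u) (σ w) = (b : Qbar) := by
      rw [← map_intCast σ b, ← h6']; exact ((map_hesse (σ : Qbar →+* Qbar) u w).2).symm
    refine hesse_inj hd' (h4 := h4') (h6 := h6') (h4' := h4'') (h6' := h6'') ?_
    rw [← hP, ← hmap, hP, hessePt, hessePt, mapPoint_some, Point.some.injEq]
    constructor <;> simp [map_ofNat]
  set π := A.valuation (q : Qbar) with hπ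
  have hπ0 : 0 < π := zero_lt_iff.2 (ECLocal.valuation_natCast_ne_zero hq)
  have hπ1 : π < 1 := ECLocal.valuation_natCast_lt_one hA
  by_contra hcon
  have read : ∀ u w : Qbar, hesse4 u w = a → hesse6 u w = b → ∃ M k : ℤ, (k = 1 ∨ k = 2) ∧
      A.valuation (b : Qbar) = π ^ (6 * M + 2 * k) ∧ A.valuation u ≤ π ^ (M + 1) :=
    fun u w h4' h6' => ((scale_or_read hq hq5 hA h4' h6' (hesse_w_ne_zero hd' h4' h6') h4 hdvd
      (fun σ hσ => (hfix u w h4' h6' σ hσ).1) fun σ hσ => (hfix u w h4' h6' σ hσ).2)).resolve_left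
        hcon
  -- every root of the quartic of the four values of `u²`
  set g : Qbar[X] := X ^ 4 - C (6 * (a : Qbar)) * X ^ 2 - C (8 * (b : Qbar)) * X -
    C (3 * (a : Qbar) ^ 2) with hg
  have hroot : ∀ Z : Qbar, g.IsRoot Z →
      ∃ u w : Qbar, hesse4 u w = a ∧ hesse6 u w = b ∧ u ^ 2 = Z := fun Z hZ =>
    exists_hesse_of_root (by simpa [hg, IsRoot] using hZ)
  have hmonic : g.Monic := by rw [hg]; monicity!
  have hdeg : g.natDegree = 4 := by rw [hg]; compute_degree!
  obtain ⟨Z₀, hZ₀⟩ := IsAlgClosed.exists_root g (by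
    rw [degree_eq_natDegree hmonic.ne_zero, hdeg]; decide)
  obtain ⟨u₀, w₀, g4, g6, -⟩ := hroot Z₀ hZ₀
  obtain ⟨M, k, hk, hvb, -⟩ := read u₀ w₀ g4 g6
  set D : Qbar := (q : Qbar) ^ (2 * M + 2) with hD
  have hD0 : D ≠ 0 := zpow_ne_zero _ (Nat.cast_ne_zero.2 hq.ne_zero)
  have hvD : A.valuation D = π ^ (2 * M + 2) := by rw [hD, map_zpow₀]
  have hsmall : ∀ Z ∈ g.roots, Z / D ∈ A := by
    intro Z hZ
    obtain ⟨u, w, g4', g6', rfl⟩ := hroot Z (isRoot_of_mem_roots hZ)
    obtain ⟨M', k', hk', hvb', hvu'⟩ := read u w g4' g6'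
    have := zpow_right_injective₀ hπ0 hπ1.ne (hvb.symm.trans hvb')
    refine (A.valuation_le_one_iff _).1 ?_
    rw [map_div₀, map_pow, hvD, div_le_one₀ (zpow_pos hπ0 _)]
    refine (pow_le_pow_left₀ zero_le hvu' 2).trans ?_
    rw [← zpow_natCast, ← zpow_mul]
    exact (zpow_le_zpow_right_of_le_one₀ hπ0 hπ1.le (by push_cast; omega))
  have hcoef : 8 * (b : Qbar) / D ^ 3 ∈ A := by
    have hmem := coeff_scaleRoots_mem (A := A) hmonic hD0 hsmall 1
    rw [coeff_scaleRoots, hdeg] at hmem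
    have hc1 : g.coeff 1 = -(8 * (b : Qbar)) := by
      rw [hg]
      simp only [coeff_sub, coeff_X_pow, coeff_C_mul, coeff_C, coeff_X_one]
      norm_num
    rw [hc1, neg_mul] at hmem
    have := neg_mem hmem
    rw [neg_neg, show (4 - 1 : ℕ) = 3 from rfl, inv_pow, ← div_eq_mul_inv] at this
    exact this
  have hle := (A.valuation_le_one_iff _).2 hcoef
  have h8 : A.valuation (8 : Qbar) = 1 := by
    have h : IsLocalRing.residue A (8 : A) ≠ 0 := by
      rw [map_ofNat]
      exact_mod_cast natCast_residue_ne_zero hq hA (n := 8) fun h => by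
        have := Nat.le_of_dvd (by norm_num) (hq.dvd_of_dvd_pow (show q ∣ 2 ^ 3 from h)); omega
    exact (residue_ne_zero_iff A (8 : A)).1 h
  rw [map_div₀, map_mul, h8, one_mul, map_pow, hvD, hvb, ← zpow_natCast, ← zpow_mul,
    div_le_one₀ (zpow_pos hπ0 _)] at hle
  have := (zpow_le_zpow_iff_right_of_lt_one₀ hπ0 hπ1).1 hle
  push_cast at this
  omega

end FermatAgent.Switch2
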