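import Fermat.Agent.Switch.Model
import Fermat.Agent.Switch2.ScalableThree
import Fermat.Agent.Switch2.Transfers
import Fermat.Agent.Switch2.LocalModel

/-!
# Descent to semistable models keeping the torsion
-/

set_option autoImplicit false

open WeierstrassCurve

namespace FermatAgent.Switch2

open FermatAgent.Switch

/-- What is kept when passing from `X` to a smaller semistable model `X'`. -/
def IsMinimalisation (n : ℕ) (X X' : WeierstrassCurve ℤ) : Prop :=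
  X'.Δ ≠ 0 ∧ X'.IsSemistableModel ∧ TorEquiv n X X' ∧ ∃ d : ℤ, d ≠ 0 ∧
    X.c₄ = d ^ 4 * X'.c₄ ∧ X.c₆ = d ^ 6 * X'.c₆ ∧ X.Δ = d ^ 12 * X'.Δ ∧
    ∀ p : ℕ, p.Prime → (p : ℤ) ∣ d → (p : ℤ) ∣ X.c₄ ∧ (p : ℤ) ∣ X.Δ

/-- Equivalence of torsion is reflexive. -/
lemma torEquiv_refl (n : ℕ) (X : WeierstrassCurve ℤ) : TorEquiv n X X :=
  ⟨AddEquiv.refl _, fun _ _ => rfl⟩

/-- Repeated scaling at the primes `q ≥ 7`. -/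
theorem exists_minimalisation {n : ℕ} (X : WeierstrassCurve ℤ) (hΔ : X.Δ ≠ 0)
    (hsmall : ∀ p ∈ [2, 3, 5], ((p : ℕ) : ℤ) ∣ X.Δ → ¬((p : ℕ) : ℤ) ∣ X.c₄)
    (hscal : ∀ X' : WeierstrassCurve ℤ, X'.Δ ≠ 0 → TorEquiv n X X' → ∀ q : ℕ, q.Prime → 7 ≤ q →
      (q : ℤ) ∣ X.c₄ → (q : ℤ) ∣ X.Δ → (q : ℤ) ∣ X'.c₄ → (q : ℤ) ∣ X'.Δ →
      (q : ℤ) ^ 4 ∣ X'.c₄ ∧ (q : ℤ) ^ 6 ∣ X'.c₆) :
    ∃ X', IsMinimalisation n X X' := by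
  suffices H : ∀ m : ℕ, ∀ Y : WeierstrassCurve ℤ, Y.Δ.natAbs = m → Y.Δ ≠ 0 → TorEquiv n X Y →
      (∃ d : ℤ, d ≠ 0 ∧ X.c₄ = d ^ 4 * Y.c₄ ∧ X.c₆ = d ^ 6 * Y.c₆ ∧ X.Δ = d ^ 12 * Y.Δ ∧
        ∀ p : ℕ, p.Prime → (p : ℤ) ∣ d → (p : ℤ) ∣ X.c₄ ∧ (p : ℤ) ∣ X.Δ) →
      ∃ X', IsMinimalisation n X X' by
    exact H _ X rfl hΔ (torEquiv_refl n X)
      ⟨1, one_ne_zero, by ring, by ring, by ring, fun p hp h =>
        absurd (Int.natCast_dvd.1 h) (by simpa using hp.one_lt.ne')⟩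
  intro m
  induction m using Nat.strong_induction_on with
  | _ m ih =>
    intro Y hm hY hT ⟨d, hd0, e4, e6, eΔ, hdp⟩
    by_cases hss : Y.IsSemistableModel
    · exact ⟨Y, hY, hss, hT, d, hd0, e4, e6, eΔ, hdp⟩
    obtain ⟨q, hq, hqΔ, hq4⟩ : ∃ q : ℕ, q.Prime ∧ (q : ℤ) ∣ Y.Δ ∧ (q : ℤ) ∣ Y.c₄ := by
      by_contra hcon
      exact hss fun q hq hqΔ hq4 => hcon ⟨q, hq, hqΔ, hq4⟩
    have hX4 : (q : ℤ) ∣ X.c₄ := e4 ▸ hq4.mul_left _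
    have hXΔ : (q : ℤ) ∣ X.Δ := eΔ ▸ hqΔ.mul_left _
    have hne : ∀ p ∈ [2, 3, 5], q ≠ p := fun p hp h => hsmall p hp (h ▸ hXΔ) (h ▸ hX4)
    have hq7 : 7 ≤ q := by
      have h2 := hne 2 (by simp)
      have h3 := hne 3 (by simp)
      have h5 := hne 5 (by simp)
      by_contra h
      have h2' := hq.two_le
      have h46 : q ≠ 4 ∧ q ≠ 6 := by
        constructor <;> rintro rfl <;> norm_num at hq
      omega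
    obtain ⟨h4, h6⟩ := hscal Y hY hT q hq hq7 hX4 hXΔ hq4 hqΔ
    obtain ⟨Y', f4, f6, fΔ, hT'⟩ := exists_scaled_model Y hq (by omega) (by omega) h4 h6
    have hY' : Y'.Δ ≠ 0 := fun h => hY (by rw [fΔ, h, mul_zero])
    refine ih Y'.Δ.natAbs ?_ Y' rfl hY' (hT.trans (hT' n).symm)
      ⟨d * q, mul_ne_zero hd0 (Int.natCast_ne_zero.2 hq.ne_zero), by rw [e4, f4]; ring,
        by rw [e6, f6]; ring, by rw [eΔ, fΔ]; ring, fun p hp h => ?_⟩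
    · rw [← hm, fΔ, Int.natAbs_mul, Int.natAbs_pow, Int.natAbs_natCast]
      exact lt_mul_of_one_lt_left (Int.natAbs_pos.2 hY') (Nat.one_lt_pow (by norm_num) hq.one_lt)
    · rcases (Nat.prime_iff_prime_int.1 hp).dvd_mul.1 h with h | h
      · exact hdp p hp h
      · rw [(Nat.prime_dvd_prime_iff_eq hp hq).1 (Int.natCast_dvd_natCast.1 h)]
        exact ⟨hX4, hXΔ⟩

/-- A nonsplit multiplicative prime stays one after minimalisation. -/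
lemma nonsplit_transfer {n : ℕ} {X X' : WeierstrassCurve ℤ} (h : IsMinimalisation n X X') {ℓ : ℕ}
    (hℓ : ℓ.Prime) (hd : (ℓ : ℤ) ∣ X.Δ) (hns : ¬IsSquare ((-X.c₆ : ℤ) : ZMod ℓ)) :
    (ℓ : ℤ) ∣ X'.Δ ∧ ¬IsSquare ((-X'.c₆ : ℤ) : ZMod ℓ) := by
  obtain ⟨-, -, -, d, -, e4, e6, eΔ, hdp⟩ := h
  have hp := Nat.prime_iff_prime_int.1 hℓ
  have hld : ¬(ℓ : ℤ) ∣ d := fun h => by
    have h4 := (hdp ℓ hℓ h).1
    refine not_dvd_of_not_isSquare hns ?_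
    refine hp.dvd_of_dvd_pow (n := 2) ?_
    rw [show X.c₆ ^ 2 = X.c₄ ^ 3 - 1728 * X.Δ by linear_combination X.c_relation]
    exact dvd_sub (dvd_pow h4 (by norm_num)) (hd.mul_left _)
  refine ⟨(hp.dvd_mul.1 (eΔ ▸ hd)).resolve_left fun h => hld (hp.dvd_of_dvd_pow h), ?_⟩
  rintro ⟨c, hc⟩
  refine hns ⟨((d : ℤ) : ZMod ℓ) ^ 3 * c, ?_⟩
  rw [e6]
  push_cast at hc ⊢
  linear_combination ((d : ℤ) : ZMod ℓ) ^ 6 * hc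

/-- The invariants at `3` are kept up to a unit. -/
lemma at_three_transfer {n : ℕ} {X X' : WeierstrassCurve ℤ} (h : IsMinimalisation n X X')
    (h3 : (3 : ℤ) ∣ X.Δ → ¬(3 : ℤ) ∣ X.c₄) :
    ∃ d : ℤ, ¬(3 : ℤ) ∣ d ∧ (3 : ℤ) ∣ d ^ 4 - 1 ∧ (3 : ℤ) ∣ d ^ 12 - 1 ∧
      X.c₄ = d ^ 4 * X'.c₄ ∧ X.Δ = d ^ 12 * X'.Δ := by
  obtain ⟨-, -, -, d, -, e4, -, eΔ, hdp⟩ := h
  have hd : ¬(3 : ℤ) ∣ d := fun h => h3 (hdp 3 Nat.prime_three h).2 (hdp 3 Nat.prime_three h).1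
  have key : ∀ t : ZMod 3, t ≠ 0 → t ^ 4 - 1 = 0 ∧ t ^ 12 - 1 = 0 := by decide
  have hk := key (d : ZMod 3) (fun h => hd (by
    exact_mod_cast (ZMod.intCast_zmod_eq_zero_iff_dvd d 3).1 h))
  refine ⟨d, hd, ?_, ?_, e4, eΔ⟩ <;>
    rw [show (3 : ℤ) = ((3 : ℕ) : ℤ) from rfl, ← ZMod.intCast_zmod_eq_zero_iff_dvd] <;> push_cast
  exacts [hk.1, hk.2]

end FermatAgent.Switch2
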