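import Fermat.Agent.Switch2.HesseFamily
import Fermat.Agent.Switch2.Descent
import Mathlib.NumberTheory.Padics.PadicVal.Basic

/-!
# Switching at three to trace `±2`

The member at `s` of the Hesse family through `(c₄, c₆)` has the same `3`-torsion. If the
exponent of `3` in the discriminant is `3 m`, a parameter with `c₆ s - c₄` of exact order `m` at
`3` gives, after scaling by `3 ^ m`, good ordinary reduction at `3`.
-/

set_option autoImplicit false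
set_option synthInstance.maxSize 512

open WeierstrassCurve

namespace FermatAgent.Switch2

open FermatAgent.Switch

/-- Scaling the short curve keeps the torsion. -/
lemma torEquiv_scale (n : ℕ) {a b l : ℤ} (hl : l ≠ 0) :
    TorEquiv n (shortCurve a b) (shortCurve (l ^ 4 * a) (l ^ 6 * b)) := by
  have hl' : (l : ℚ) ≠ 0 := Int.cast_ne_zero.2 hl
  refine torEquiv_of_variableChange n ⟨Units.mk0 (l : ℚ) hl', 0, 0, 0⟩ ?_
  refine WeierstrassCurve.ext ?_ ?_ ?_ ?_ ?_ <;>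
    simp only [variableChange_def, WeierstrassCurve.map_a₁, WeierstrassCurve.map_a₂,
      WeierstrassCurve.map_a₃, WeierstrassCurve.map_a₄, WeierstrassCurve.map_a₆, eq_intCast,
      shortCurve, Units.val_inv_eq_inv_val, Units.val_mk0] <;> push_cast <;> field_simp <;> ring

/-- A nonsingular model has `c₄³ ≠ c₆²`. -/
lemma c₄_cube_ne_c₆_sq {W : WeierstrassCurve ℤ} (hΔ : W.Δ ≠ 0) : W.c₄ ^ 3 ≠ W.c₆ ^ 2 := fun h => by
  have e := W.c_relation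
  rw [h, sub_self] at e
  exact hΔ ((mul_eq_zero.1 e).resolve_left (by norm_num))

/-- If `3` does not divide `c₄` it does not divide `c₆`. -/
lemma not_three_dvd_c₆ {W : WeierstrassCurve ℤ} (h4 : ¬(3 : ℤ) ∣ W.c₄) : ¬(3 : ℤ) ∣ W.c₆ :=
  fun h => h4 (Int.prime_three.dvd_of_dvd_pow (n := 3) (by
    rw [show W.c₄ ^ 3 = W.c₆ ^ 2 + 1728 * W.Δ by linear_combination -W.c_relation]
    exact dvd_add (dvd_pow h two_ne_zero) ((show (3 : ℤ) ∣ 1728 by norm_num).mul_right _)))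

lemma hesse_expand (a b s : ℤ) :
    b ^ 4 * hesseA a b s = a ^ 3 * (b * s - a) ^ 4
      + (a ^ 3 - b ^ 2) * (-8 * a ^ 3 * (b * s - a) - 18 * a ^ 2 * (b * s - a) ^ 2
        - 12 * a * (b * s - a) ^ 3 - 4 * (b * s - a) ^ 4)
      + (a ^ 3 - b ^ 2) ^ 2 * (-3 * a - 4 * (b * s - a)) ∧
    b ^ 4 * hesseR a b s = -(a ^ 2 * (b * s - a) ^ 3 * (4 * a + 3 * (b * s - a)))
      + (a ^ 3 - b ^ 2) * (-4 * a ^ 3 - 12 * a ^ 2 * (b * s - a) - 18 * a * (b * s - a) ^ 2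
        - 8 * (b * s - a) ^ 3)
      + (a ^ 3 - b ^ 2) ^ 2 := by
  constructor <;> simp only [hesseA, hesseR] <;> ring

/-- The Chinese remainder theorem for two coprime moduli. -/
lemma exists_int_congr {m n : ℤ} (h : IsCoprime m n) (x y : ℤ) :
    ∃ z : ℤ, m ∣ z - x ∧ n ∣ z - y := by
  obtain ⟨u, v, huv⟩ := h
  exact ⟨x * (v * n) + y * (u * m), ⟨u * (y - x), by linear_combination x * huv⟩,
    ⟨v * (x - y), by linear_combination y * huv⟩⟩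

/-- An integer congruent to `-1` modulo three is prime to three. -/
lemma not_dvd_of_dvd_add_one {z : ℤ} (h : (3 : ℤ) ∣ z + 1) : ¬(3 : ℤ) ∣ z := fun hz => by
  have h1 := dvd_sub h hz
  rw [add_sub_cancel_left] at h1
  norm_num at h1

/-- A parameter with prescribed behaviour at `3`, trivial at the other bad primes. -/
lemma exists_three_parameter {a b : ℤ} (hb : ¬(3 : ℤ) ∣ b) {D : ℤ} (hD : ¬(3 : ℤ) ∣ D)
    (T : ℤ) (m : ℕ) :
    ∃ s : ℤ, 10 ^ 20 * D ∣ s ∧ ∃ T', b * s - a = 3 ^ m * T' ∧ (3 : ℤ) ∣ T' - T := by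
  have hc : ∀ c : ℤ, ¬(3 : ℤ) ∣ c → IsCoprime c ((3 : ℤ) ^ (m + 1)) := fun c hc =>
    IsCoprime.pow_right ((Int.prime_three.coprime_iff_not_dvd).2 hc).symm
  obtain ⟨i, hi⟩ := exists_inverse_mod (hc b hb)
  obtain ⟨s, hs1, hs2⟩ := exists_int_congr (hc (10 ^ 20 * D) fun h =>
    hD ((Int.prime_three.dvd_mul.1 h).resolve_left (by norm_num))) 0 ((a + 3 ^ m * T) * i)
  rw [sub_zero] at hs1
  obtain ⟨k, hk⟩ := hs2
  obtain ⟨l, hl⟩ := hi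
  refine ⟨s, hs1, T + 3 * (b * k + (a + 3 ^ m * T) * l), ?_, ⟨b * k + (a + 3 ^ m * T) * l, by ring⟩⟩
  linear_combination b * hk + (a + 3 ^ m * T) * hl

/-- At a parameter `s` with `3 ^ m` exactly dividing `b s - a`, suitably normalised, the member
of the Hesse family through `(a, b)` has invariants `(3 ^ (4 m) α, 3 ^ (6 m) β)` with `α` prime to
`3` and discriminant `δ` which is `-1` modulo `3`. -/
lemma exists_hesse_at_three {a b D : ℤ} {m : ℕ} (ha : ¬(3 : ℤ) ∣ a) (hb : ¬(3 : ℤ) ∣ b)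
    (hD : ¬(3 : ℤ) ∣ D) (hrel : a ^ 3 - b ^ 2 = 1728 * (3 ^ (3 * m) * D)) :
    ∃ s α β δ : ℤ, 10 ^ 20 * D ∣ s ∧ hesseA a b s = 3 ^ (4 * m) * α ∧
      hesseB a b s = 3 ^ (6 * m) * β ∧ α ^ 3 - β ^ 2 = 1728 * δ ∧ ¬(3 : ℤ) ∣ α ∧
      (3 : ℤ) ∣ δ + 1 := by
  obtain ⟨s, hs, T, ht, ⟨τ, hT⟩⟩ := exists_three_parameter (a := a) hb hD D m
  obtain ⟨eA, eR⟩ := hesse_expand a b s
  rw [hrel, ht] at eA eR
  have hcop : ∀ n : ℕ, IsCoprime ((3 : ℤ) ^ n) (b ^ 4) := fun n =>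
    (IsCoprime.pow ((Int.prime_three.coprime_iff_not_dvd).2 hb) : _)
  set PA : ℤ := 576 * D * (-8 * a ^ 3 * T - 18 * a ^ 2 * (3 ^ m * T ^ 2)
    - 12 * a * (3 ^ (2 * m) * T ^ 3) - 4 * (3 ^ (3 * m) * T ^ 4))
    + 995328 * D ^ 2 * 3 ^ (2 * m) * (-3 * a - 4 * (3 ^ m * T)) with hPA
  have eA' : b ^ 4 * hesseA a b s = 3 ^ (4 * m) * (a ^ 3 * T ^ 4 + 3 * PA) := by
    rw [eA, hPA]; ring
  set PR : ℤ := -(a ^ 2 * 3 ^ m * T ^ 4) + 576 * D * (-4 * a ^ 3 - 12 * a ^ 2 * (3 ^ m * T)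
    - 18 * a * (3 ^ (2 * m) * T ^ 2) - 8 * (3 ^ (3 * m) * T ^ 3))
    + 995328 * D ^ 2 * 3 ^ (3 * m) with hPR
  have eR' : b ^ 4 * hesseR a b s = 3 ^ (3 * m) * (-4 * a ^ 3 * T ^ 3 + 3 * PR) := by
    rw [eR, hPR]; ring
  obtain ⟨α, hα⟩ : (3 : ℤ) ^ (4 * m) ∣ hesseA a b s :=
    (hcop _).dvd_of_dvd_mul_left (eA' ▸ dvd_mul_right _ _)
  obtain ⟨ρ, hρ⟩ : (3 : ℤ) ^ (3 * m) ∣ hesseR a b s :=
    (hcop _).dvd_of_dvd_mul_left (eR' ▸ dvd_mul_right _ _)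
  have eα : b ^ 4 * α = a ^ 3 * T ^ 4 + 3 * PA :=
    mul_left_cancel₀ (pow_ne_zero (4 * m) (show (3 : ℤ) ≠ 0 by norm_num))
      (by rw [← eA', hα]; ring)
  have eρ : b ^ 4 * ρ = -4 * a ^ 3 * T ^ 3 + 3 * PR :=
    mul_left_cancel₀ (pow_ne_zero (3 * m) (show (3 : ℤ) ≠ 0 by norm_num))
      (by rw [← eR', hρ]; ring)
  set δ := D * ρ ^ 3 with hδ
  have hdiscAB : hesseA a b s ^ 3 - hesseB a b s ^ 2 = 3 ^ (12 * m) * (1728 * δ) := by
    rw [hesse_family_disc, hrel, hρ, hδ]; ring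
  obtain ⟨β, hβ⟩ : (3 : ℤ) ^ (6 * m) ∣ hesseB a b s := by
    refine (Int.pow_dvd_pow_iff two_ne_zero).1 ⟨α ^ 3 - 1728 * δ, ?_⟩
    rw [hα] at hdiscAB
    linear_combination -hdiscAB
  have hdisc : α ^ 3 - β ^ 2 = 1728 * δ :=
    mul_left_cancel₀ (pow_ne_zero (12 * m) (show (3 : ℤ) ≠ 0 by norm_num))
      (by rw [← hdiscAB, hα, hβ]; ring)
  -- the residues at three
  have h0 : (3 : ZMod 3) = 0 := rfl
  have ecast : ∀ x : ℤ, ((x : ZMod 3) = 0 ↔ (3 : ℤ) ∣ x) := fun x =>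
    ZMod.intCast_zmod_eq_zero_iff_dvd x 3
  have ea : (a : ZMod 3) ≠ 0 := fun h => ha ((ecast a).1 h)
  have eb : (b : ZMod 3) ≠ 0 := fun h => hb ((ecast b).1 h)
  have eD : (D : ZMod 3) ≠ 0 := fun h => hD ((ecast D).1 h)
  have eab : (a : ZMod 3) ^ 3 = (b : ZMod 3) ^ 2 := by
    have h := congrArg (fun x : ℤ => (x : ZMod 3)) hrel
    push_cast at h
    rw [show (1728 : ZMod 3) = 0 from rfl, zero_mul] at h
    exact sub_eq_zero.1 h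
  have eT : (T : ZMod 3) = (D : ZMod 3) := by
    rw [← sub_eq_zero, ← Int.cast_sub, hT]; push_cast; rw [h0, zero_mul]
  have key4 : ∀ x y d z : ZMod 3, x ≠ 0 → y ≠ 0 → d ≠ 0 →
      y ^ 4 * z = x ^ 3 * d ^ 4 → z ≠ 0 := by decide
  have keyr : ∀ x y d r : ZMod 3, x ≠ 0 → y ≠ 0 → d ≠ 0 → x ^ 3 = y ^ 2 →
      y ^ 4 * r = -4 * x ^ 3 * d ^ 3 → d * r ^ 3 + 1 = 0 := by decide
  have k4 := congrArg (fun x : ℤ => (x : ZMod 3)) eα
  have kr := congrArg (fun x : ℤ => (x : ZMod 3)) eρ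
  push_cast at k4 kr
  rw [eT, h0, zero_mul, add_zero] at k4 kr
  have kα := key4 _ _ _ (α : ZMod 3) ea eb eD k4
  have kδ := keyr _ _ _ (ρ : ZMod 3) ea eb eD eab kr
  have hα3 : ¬(3 : ℤ) ∣ α := fun h => kα ((ecast α).2 h)
  have hδ1 : (3 : ℤ) ∣ δ + 1 := (ecast _).1 (by rw [hδ]; push_cast; exact kδ)
  exact ⟨s, α, β, δ, hs, hα, hβ, hdisc, hα3, hδ1⟩

/-- **The switch at three to trace `±2`.** A semistable curve, multiplicative or good ordinary at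
`3` with discriminant of exponent `3 m` there, has a switch at `3` with good ordinary reduction
at `3` and discriminant `-1` modulo `3`. -/
theorem exists_three_switch {W : WeierstrassCurve ℤ} (hW : W.IsSemistableModel)
    (h4 : ¬(3 : ℤ) ∣ W.c₄) {m : ℕ} {D : ℤ} (hD : ¬(3 : ℤ) ∣ D) (hΔD : W.Δ = 3 ^ (3 * m) * D) :
    ∃ X : WeierstrassCurve ℤ, IsSwitch 3 W X ∧ ¬(3 : ℤ) ∣ X.c₄ ∧ (3 : ℤ) ∣ X.Δ + 1 := by
  have hD0 : D ≠ 0 := fun h => hD (h ▸ dvd_zero _)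
  have hΔ : W.Δ ≠ 0 := by rw [hΔD]; exact mul_ne_zero (pow_ne_zero _ (by norm_num)) hD0
  set a := W.c₄ with ha
  set b := W.c₆ with hbdef
  obtain ⟨s, α, β, δ, hs, hα, hβ, hdisc, hα3, hδ1⟩ :=
    exists_hesse_at_three h4 (not_three_dvd_c₆ h4) hD (by rw [← hΔD, W.c_relation])
  have hδ0 : δ ≠ 0 := fun h => by rw [h] at hδ1; norm_num at hδ1
  obtain ⟨ν, hν⟩ := exists_inverse_mod
    (show IsCoprime ((3 : ℤ) ^ m) (10 ^ 20) from IsCoprime.pow (by norm_num))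
  obtain ⟨dA, dB, -⟩ := hesse_sub_dvd (a := a) (b := b) ((dvd_mul_right ((10 : ℤ) ^ 20) D).trans hs)
  obtain ⟨X, hX4, hX6, hXΔ, hmap⟩ := exists_model W hdisc
    (dvd_sub_pow_mul hν 4 (by rw [mul_comm m, ← hα]; exact dA))
    (dvd_sub_pow_mul hν 6 (by rw [mul_comm m, ← hβ]; exact dB)) (Or.inl hα3)
  have hT3 : TorEquiv 3 W X := by
    refine (torEquiv_shortCurve 3 W).symm.trans (((torEquiv_hesse (s := s)
      (c₄_cube_ne_c₆_sq hΔ) ?_).trans ?_).trans (torEquiv_shortCurve 3 X))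
    · rw [← sub_ne_zero, hα, hβ,
        show (3 ^ (4 * m) * α) ^ 3 - (3 ^ (6 * m) * β) ^ 2 = 3 ^ (12 * m) * (α ^ 3 - β ^ 2) by ring,
        hdisc]
      exact mul_ne_zero (pow_ne_zero _ (by norm_num)) (mul_ne_zero (by norm_num) hδ0)
    · rw [hα, hβ, hX4, hX6, show (3 : ℤ) ^ (4 * m) = (3 ^ m) ^ 4 by ring,
        show (3 : ℤ) ^ (6 * m) = (3 ^ m) ^ 6 by ring]
      exact (torEquiv_scale 3 (pow_ne_zero m (by norm_num))).symm
  obtain ⟨n4, -, nΔ⟩ := dvd_of_map_eq hmap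
  obtain ⟨s4, -, sΔ⟩ := scaledModel_invariants W ν
  rw [s4] at n4
  rw [sΔ] at nΔ
  have hsmall := not_additive_small hW hν n4 nΔ (Or.inl fun h => hα3 (hX4 ▸ h))
  obtain ⟨X', hX'⟩ := exists_minimalisation X (hXΔ ▸ hδ0) hsmall
      fun Y hY hTY q hq hq7 hq4 hqΔ hY4 hYΔ => by
    refine scalable_three hY (hT3.trans hTY) hq (by omega) (fun hWq => ?_) hY4 hYΔ
    have hp := Nat.prime_iff_prime_int.1 hq
    have hqD : (q : ℤ) ∣ D := (hp.dvd_mul.1 (hΔD ▸ hWq)).resolve_left fun h => by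
      have h' := Int.natCast_dvd_natCast.1 (show ((q : ℕ) : ℤ) ∣ ((3 : ℕ) : ℤ) from
        hp.dvd_of_dvd_pow h)
      have := Nat.le_of_dvd (by norm_num) h'
      omega
    have h1 := (hesse_sub_dvd (a := a) (b := b) ((hqD.mul_left _).trans hs)).1
    rw [hX4] at hq4
    have h2 := dvd_sub (hq4.mul_left ((3 : ℤ) ^ (4 * m))) (hα ▸ h1)
    rw [sub_sub_cancel] at h2
    exact hW q hq hWq h2
  obtain ⟨d, -, hd4, hd12, e4, eΔ⟩ := at_three_transfer hX' (fun h => hX4 ▸ hα3)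
  have hX'Δ : (3 : ℤ) ∣ X'.Δ + 1 := by
    rw [hXΔ] at eΔ
    rw [show X'.Δ + 1 = (δ + 1) - (d ^ 12 - 1) * X'.Δ by rw [eΔ]; ring]
    exact dvd_sub hδ1 (hd12.mul_right _)
  exact ⟨X', ⟨hX'.1, hX'.2.1, hT3.trans hX'.2.2.1, fun _ => not_dvd_of_dvd_add_one hX'Δ⟩,
    fun h => hα3 (hX4 ▸ e4 ▸ h.mul_left _), hX'Δ⟩

end FermatAgent.Switch2
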