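import Fermat.Agent.Switch2.StepKlein
import Fermat.Agent.Switch2.AtThree
import Fermat.Agent.Switch2.Supersingular

/-!
# The local steps of the chain and the `3`–`5` switch

The switch at `5` along the half member moves the reduction at `3` as follows: good ordinary with
`Δ ≡ -1 (mod 3)` to supersingular, multiplicative of exponent `v ≥ 2` to multiplicative of
exponent `v + 5`. In every case some switch at `5` has irreducible `3`-torsion, which is the
`3`–`5` switch.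
-/

set_option autoImplicit false

open WeierstrassCurve

namespace FermatAgent.Switch2

open FermatAgent.Switch

/-- A nonzero integer is a power of three times an integer prime to three. -/
lemma exists_pow_mul_three {z : ℤ} (hz : z ≠ 0) :
    ∃ D : ℤ, ¬(3 : ℤ) ∣ D ∧ z = 3 ^ padicValInt 3 z * D := by
  obtain ⟨D, hD⟩ := padicValInt_dvd (p := 3) z
  refine ⟨D, fun ⟨E, hE⟩ => ?_, hD⟩
  rcases (padicValInt_dvd_iff (p := 3) (padicValInt 3 z + 1) z).1
    ⟨E, hD.trans (by rw [hE]; push_cast; ring)⟩ with h | h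
  · exact hz h
  · omega

/-- If `3 ^ j` divides `3 ^ w * x` and `x` is prime to `3`, then `j ≤ w`. -/
lemma le_of_pow_dvd_mul {x : ℤ} {j w : ℕ} (hx : ¬(3 : ℤ) ∣ x)
    (h : (3 : ℤ) ^ j ∣ 3 ^ w * x) : j ≤ w :=
  (pow_dvd_pow_iff (by norm_num) Int.prime_three.not_isUnit).1
    (((Int.prime_three.coprime_iff_not_dvd).2 hx).pow_left.dvd_of_dvd_mul_right h)

/-- Two exact powers of `3` congruent modulo the next power have the same exponent. -/
lemma exponent_eq {x y : ℤ} {w k : ℕ} (hx : ¬(3 : ℤ) ∣ x) (hy : ¬(3 : ℤ) ∣ y)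
    (h : (3 : ℤ) ^ (k + 1) ∣ 3 ^ w * x - 3 ^ k * y) : w = k := by
  rcases Nat.lt_trichotomy w k with hlt | heq | hgt
  · exfalso
    have := le_of_pow_dvd_mul hx (j := w + 1) (by
      simpa using dvd_add ((pow_dvd_pow (3 : ℤ) (show w + 1 ≤ k + 1 by omega)).trans h)
        ((pow_dvd_pow (3 : ℤ) (show w + 1 ≤ k by omega)).trans (dvd_mul_right _ y)))
    omega
  · exact heq
  · exfalso
    have := le_of_pow_dvd_mul hy (j := k + 1) (by
      simpa using dvd_sub ((pow_dvd_pow (3 : ℤ) (show k + 1 ≤ w by omega)).trans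
        (dvd_mul_right _ x)) h)
    omega

lemma c₆_sq_congr {W : WeierstrassCurve ℤ} (h4 : ¬(3 : ℤ) ∣ W.c₄) : (3 : ℤ) ∣ W.c₆ ^ 2 - 1 := by
  have key : ∀ t : ZMod 3, t ≠ 0 → t ^ 2 - 1 = 0 := by decide
  rw [show (3 : ℤ) = ((3 : ℕ) : ℤ) from rfl, ← ZMod.intCast_zmod_eq_zero_iff_dvd]
  push_cast
  exact key _ fun h => not_three_dvd_c₆ h4
    (by exact_mod_cast (ZMod.intCast_zmod_eq_zero_iff_dvd W.c₆ 3).1 h)

/-- **From trace `±2` to supersingular reduction.** A curve with good ordinary reduction at `3`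
and discriminant `-1` modulo `3` has a switch at `5` with supersingular good reduction at `3`. -/
theorem exists_supersingular_switch {W : WeierstrassCurve ℤ} (hW : W.IsSemistableModel)
    (h4 : ¬(3 : ℤ) ∣ W.c₄) (hΔ : (3 : ℤ) ∣ W.Δ + 1) :
    ∃ X : WeierstrassCurve ℤ, IsSwitch 5 W X ∧ X.IsGoodPrimeFor 3 ∧ (3 : ℤ) ∣ X.c₄ := by
  have hΔ3 := not_dvd_of_dvd_add_one hΔ
  have hΔ0 : W.Δ ≠ 0 := fun h => hΔ3 (h ▸ dvd_zero _)
  set B := W.c₆ ^ 2 with hB
  obtain ⟨T, hT⟩ : (3 : ℤ) ∣ W.Δ + B := by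
    have := dvd_add hΔ (c₆_sq_congr h4)
    rwa [show W.Δ + 1 + (W.c₆ ^ 2 - 1) = W.Δ + B by rw [hB]; ring] at this
  have hD : W.Δ = -B + 3 * T := by linear_combination hT
  obtain ⟨g, hg⟩ := halfG_super B T
  obtain ⟨h, hh⟩ := halfH_super B T
  obtain ⟨e, he⟩ := halfE_super B T
  rw [← hD] at hg hh he
  have hB3 : ∀ n, ¬(3 : ℤ) ∣ B ^ n := fun n hd => not_three_dvd_c₆ h4
    (Int.prime_three.dvd_of_dvd_pow (n := 2) (Int.prime_three.dvd_of_dvd_pow hd))
  have hE : ∀ u : ℤ, ¬(3 : ℤ) ∣ u → ¬(3 : ℤ) ∣ u * B ^ 30 + 3 * e := fun u hu hd => by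
    rcases Int.prime_three.dvd_mul.1 ((dvd_add_left (dvd_mul_right 3 e)).1 hd) with h' | h'
    exacts [hu h', hB3 30 h']
  have hΔE : ¬(3 : ℤ) ∣ W.Δ * (2 * B ^ 30 + 3 * e) := fun hd =>
    (Int.prime_three.dvd_mul.1 hd).elim hΔ3 (hE 2 (by norm_num))
  obtain ⟨X, hX, -, e₁, f₁, he₁, hf₁, hc₄, hXΔ⟩ := exists_five_switch_core hΔ0 hW h4
    (G := 3 * (1 * B ^ 10 + 3 * g)) (H := 27 * h) (hg.trans (by ring)) (hh.trans (by ring)) he
    (Or.inr ⟨dvd_mul_right 3 _, dvd_mul_right 27 _, hΔE⟩) 1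
  refine ⟨X, hX, fun hd => hΔE ?_, ?_⟩
  · rw [pow_one] at hXΔ
    have := dvd_sub ((show (3 : ℤ) ∣ X.Δ from hd).mul_left f₁) hXΔ
    rwa [sub_sub_cancel] at this
  · refine (Int.prime_three.dvd_mul.1 ?_).resolve_left he₁
    exact (dvd_add_left ((dvd_mul_right (3 : ℤ) _).mul_left W.c₄).neg_right).1
      (by rwa [← sub_eq_add_neg])

/-- **From multiplicative reduction at `3` the exponent moves up by five.** A curve with
multiplicative reduction at `3` has a switch at `5` with irreducible `3`-torsion and multiplicative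
reduction at `3` of exponent at least two, which exceeds that of the curve by five if that is at
least two. -/
theorem exists_multiplicative_switch {W : WeierstrassCurve ℤ} (hW : W.IsSemistableModel)
    (hΔ0 : W.Δ ≠ 0) (h4 : ¬(3 : ℤ) ∣ W.c₄) (hv : 1 ≤ padicValInt 3 W.Δ) :
    ∃ X : WeierstrassCurve ℤ, IsSwitch 5 W X ∧ X.ModRepIsIrreducible 3 ∧ ¬(3 : ℤ) ∣ X.c₄ ∧
      2 ≤ padicValInt 3 X.Δ ∧
      (2 ≤ padicValInt 3 W.Δ → padicValInt 3 X.Δ = padicValInt 3 W.Δ + 5) := by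
  obtain ⟨D, hD, hΔ⟩ := exists_pow_mul_three hΔ0
  obtain ⟨u, hu⟩ := Nat.exists_eq_add_of_le hv
  rw [hu] at hΔ ⊢
  set B := W.c₆ ^ 2 with hB
  have hB3 : ∀ n, ¬(3 : ℤ) ∣ B ^ n := fun n hd => not_three_dvd_c₆ h4
    (Int.prime_three.dvd_of_dvd_pow (n := 2) (Int.prime_three.dvd_of_dvd_pow hd))
  have hT : W.Δ = 3 * (3 ^ u * D) := by rw [hΔ, pow_add]; ring
  obtain ⟨g, hg⟩ := halfG_mult B (3 ^ u * D)
  obtain ⟨h, hh⟩ := halfH_mult B (3 ^ u * D)
  obtain ⟨e, he⟩ := halfE_mult B (3 ^ u * D)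
  rw [← hT] at hg hh he
  obtain ⟨X, hX, hXi, e₁, f₁, he₁, hf₁, hc₄, hXΔ⟩ :=
    exists_five_switch_core hΔ0 hW h4
    (hg.trans rfl) (hh.trans rfl) (E := 3 ^ 5 * e) (he.trans (by ring))
    (Or.inl fun hd => by
      rcases Int.prime_three.dvd_mul.1 ((dvd_add_left (dvd_mul_right 3 g)).1 hd) with h' | h'
      exacts [by norm_num at h', hB3 10 h']) (u + 7)
  obtain ⟨D', hD', hw⟩ := exists_pow_mul_three hX.ne_zero
  set w := padicValInt 3 X.Δ
  have hx4 : ¬(3 : ℤ) ∣ X.c₄ := fun hd => by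
    have := dvd_sub (hd.mul_left e₁) hc₄
    rw [sub_sub_cancel] at this
    rcases Int.prime_three.dvd_mul.1 this with h' | h'
    · exact h4 h'
    rcases Int.prime_three.dvd_mul.1 ((dvd_add_left (dvd_mul_right 3 g)).1 h') with h'' | h''
    exacts [by norm_num at h'', hB3 10 h'']
  have n1 : ¬(3 : ℤ) ∣ f₁ * D' := fun h => (Int.prime_three.dvd_mul.1 h).elim hf₁ hD'
  refine ⟨X, hX, hXi, hx4, ?_, fun h2 => ?_⟩
  · have h6 : (3 : ℤ) ^ (u + 6) ∣ f₁ * X.Δ := by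
      have := dvd_add ((pow_dvd_pow (3 : ℤ) (show u + 6 ≤ u + 7 by omega)).trans hXΔ)
        (show (3 : ℤ) ^ (u + 6) ∣ W.Δ * (3 ^ 5 * e) from ⟨D * e, by rw [hΔ]; ring⟩)
      rwa [sub_add_cancel] at this
    rw [hw, mul_left_comm] at h6
    have := le_of_pow_dvd_mul n1 h6
    omega
  · obtain ⟨u', rfl⟩ : ∃ u', u = u' + 1 := ⟨u - 1, by omega⟩
    obtain ⟨e', he'⟩ := halfE_mult_two B (3 ^ u' * D)
    rw [show 9 * (3 ^ u' * D) = W.Δ by rw [hΔ]; ring, he] at he'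
    have hee := mul_left_cancel₀ (pow_ne_zero 65 (show (3 : ℤ) ≠ 0 by norm_num)) he'
    have he3 : ¬(3 : ℤ) ∣ e := by
      rw [hee]
      intro hd
      rcases Int.prime_three.dvd_mul.1 ((dvd_add_left (dvd_mul_right 3 e')).1 hd) with h' | h'
      exacts [by norm_num at h', hB3 30 h']
    have hkey : (3 : ℤ) ^ (u' + 8) ∣ 3 ^ w * (f₁ * D') - 3 ^ (u' + 7) * (D * e) := by
      rw [show 3 ^ w * (f₁ * D') - 3 ^ (u' + 7) * (D * e) = f₁ * X.Δ - W.Δ * (3 ^ 5 * e) by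
        rw [hw, hΔ]; ring]
      exact hXΔ
    have := exponent_eq n1 (fun h => (Int.prime_three.dvd_mul.1 h).elim hD he3) hkey
    omega

/-- A curve with good ordinary reduction at `3` and discriminant `1` modulo `3` has a switch at
`5` with irreducible `3`-torsion. -/
theorem exists_ordinary_switch {W : WeierstrassCurve ℤ} (hΔ : W.Δ ≠ 0) (hW : W.IsSemistableModel)
    (h4 : ¬(3 : ℤ) ∣ W.c₄) (h : (3 : ℤ) ∣ W.Δ - 1) :
    ∃ X : WeierstrassCurve ℤ, IsSwitch 5 W X ∧ X.ModRepIsIrreducible 3 := by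
  obtain ⟨T, hT⟩ := dvd_sub h (c₆_sq_congr h4)
  obtain ⟨g, hg⟩ := halfG_ordinary (W.c₆ ^ 2) T
  obtain ⟨h', hh⟩ := halfH_ordinary (W.c₆ ^ 2) T
  obtain ⟨e, he⟩ := halfE_ordinary (W.c₆ ^ 2) T
  rw [show W.c₆ ^ 2 + 3 * T = W.Δ by linear_combination -hT] at hg hh he
  obtain ⟨X, hX, hX3, -⟩ := exists_five_switch_core hΔ hW h4 hg hh he
    (Or.inl fun hd => not_three_dvd_c₆ h4 (Int.prime_three.dvd_of_dvd_pow (n := 2)
      (Int.prime_three.dvd_of_dvd_pow (n := 10)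
        (by simpa using (dvd_add_left (dvd_mul_right 3 g)).1 hd)))) 0
  exact ⟨X, hX, hX3⟩

/-- **The `3`–`5` switch** (Wiles): every semistable curve has a switch at `5` with irreducible
`3`-torsion, that is, a semistable curve with Galois-equivariantly the same `5`-torsion, good at
`5` if the curve is, whose representation modulo `3` is irreducible. -/
theorem exists_switch (W : WeierstrassCurve ℤ) (hΔ : W.Δ ≠ 0) (hW : W.IsSemistableModel) :
    ∃ W' : WeierstrassCurve ℤ, IsSwitch 5 W W' ∧ W'.ModRepIsIrreducible 3 := by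
  have : Fact (Nat.Prime 3) := ⟨Nat.prime_three⟩
  by_cases h4 : (3 : ℤ) ∣ W.c₄
  · exact ⟨W, ⟨hΔ, hW, torEquiv_refl 5 W, id⟩,
      modRepIsIrreducible_three_of_supersingular hΔ (fun h => hW 3 Nat.prime_three h h4) h4⟩
  by_cases hv : 1 ≤ padicValInt 3 W.Δ
  · obtain ⟨X, hX, hX3, -⟩ := exists_multiplicative_switch hW hΔ h4 hv
    exact ⟨X, hX, hX3⟩
  obtain ⟨D, hD, hΔD⟩ := exists_pow_mul_three hΔ
  rw [show padicValInt 3 W.Δ = 0 by omega, pow_zero, one_mul] at hΔD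
  subst hΔD
  rcases (by omega : (3 : ℤ) ∣ W.Δ + 1 ∨ (3 : ℤ) ∣ W.Δ - 1) with h | h
  · obtain ⟨X, hX, hX3, hX4⟩ := exists_supersingular_switch hW h4 h
    exact ⟨X, hX, modRepIsIrreducible_three_of_supersingular hX.ne_zero hX3 hX4⟩
  · exact exists_ordinary_switch hΔ hW h4 h

end FermatAgent.Switch2
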