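import Fermat.Agent.Switch2.StepIrreducibleFive
import Fermat.Agent.Switch2.Steps
import Fermat.Agent.Switch2.StepHesse
import Fermat.Agent.Switch2.Supersingular

/-!
# Every semistable curve with irreducible three or five torsion reaches the base case

With both representations irreducible and `3 ∤ c₄`, switches at `5` bring the exponent `v` of `3`
in the discriminant to a multiple of three, one switch at `3` gives good ordinary reduction with
trace `±2`, and one at `5` supersingular reduction. If one is reducible, a switch makes both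
irreducible.
-/

set_option autoImplicit false

open WeierstrassCurve
open scoped WeierstrassCurve.Affine

namespace FermatAgent.Switch2

open FermatAgent.Switch

variable {W W' : WeierstrassCurve ℤ}

/-- Irreducibility is a property of the torsion module. -/
theorem modRepIsIrreducible_of_torEquiv {p : ℕ} [Fact p.Prime] (hT : TorEquiv p W W')
    (h : W.ModRepIsIrreducible p) : W'.ModRepIsIrreducible p := by
  classical
  obtain ⟨f, hf⟩ := hT
  obtain ⟨hnt, hN⟩ := h
  refine ⟨?_, fun N hst => ?_⟩
  · have : Nontrivial _ := hnt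
    exact f.injective.nontrivial
  have hsurj : Function.Surjective (f.toAddMonoidHom.toZModLinearMap p) := f.surjective
  rcases hN (N.comap (f.toAddMonoidHom.toZModLinearMap p)) (fun σ x hx => by
      show f (σ • x) ∈ N
      rw [hf]
      exact hst σ _ hx) with e | e
  · left
    rw [← Submodule.map_comap_eq_of_surjective hsurj N, e, Submodule.map_bot]
  · right
    rw [← Submodule.map_comap_eq_of_surjective hsurj N, e, Submodule.map_top,
      LinearMap.range_eq_top.2 hsurj]

/-- Supersingular reduction is the base case. -/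
theorem transfers_supersingular (hΔ : W.Δ ≠ 0) (hW : W.IsSemistableModel)
    (hgood : W.IsGoodPrimeFor 3) (h4 : (3 : ℤ) ∣ W.c₄) : Transfers W :=
  haveI : Fact (Nat.Prime 3) := ⟨Nat.prime_three⟩
  .base hΔ hW hgood (three_dvd_apOfModel hgood h4) (surjThree_of_supersingular hΔ hW hgood h4)

/-- Trace `±2` at `3` is one link away from the base case. -/
theorem transfers_trace_two (hΔ : W.Δ ≠ 0) (hW : W.IsSemistableModel) (h4 : ¬(3 : ℤ) ∣ W.c₄)
    (hD : (3 : ℤ) ∣ W.Δ + 1) : Transfers W := by
  obtain ⟨X, hX, hX3, hX4⟩ := exists_supersingular_switch hW h4 hD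
  exact .five hΔ hW
    (modRepIsIrreducible_five_of_trace hΔ (not_dvd_of_dvd_add_one hD)
      (apOfModel_three_eq_two h4 hD))
    hX (transfers_supersingular hX.ne_zero hX.semistable hX3 hX4)

/-- Exponent at `3` divisible by three: a switch at `3` leads to trace `±2`. -/
theorem transfers_of_three_dvd (hΔ : W.Δ ≠ 0) (hW : W.IsSemistableModel)
    (h3 : W.ModRepIsIrreducible 3) (h4 : ¬(3 : ℤ) ∣ W.c₄) (hv : 3 ∣ padicValInt 3 W.Δ) :
    Transfers W := by
  obtain ⟨m, hm⟩ := hv
  obtain ⟨D, hD, hΔD⟩ := exists_pow_mul_three hΔ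
  rw [hm] at hΔD
  obtain ⟨X, hX, hX4, hXD⟩ := exists_three_switch hW h4 hD hΔD
  exact .three hΔ hW h3 hX (transfers_trace_two hX.ne_zero hX.semistable hX4 hXD)

/-- Multiplicative reduction at `3` with exponent at least two: at most two switches at `5`, each
adding five to the exponent, make it divisible by three. -/
theorem transfers_of_two_le (hΔ : W.Δ ≠ 0) (hW : W.IsSemistableModel)
    (h3 : W.ModRepIsIrreducible 3) (h5 : W.ModRepIsIrreducible 5) (h4 : ¬(3 : ℤ) ∣ W.c₄)
    (hv : 2 ≤ padicValInt 3 W.Δ) : Transfers W := by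
  have : Fact (Nat.Prime 5) := ⟨by norm_num⟩
  by_cases h : 3 ∣ padicValInt 3 W.Δ
  · exact transfers_of_three_dvd hΔ hW h3 h4 h
  obtain ⟨X, hX, hX3, hX4, -, hXv⟩ := exists_multiplicative_switch hW hΔ h4 (by omega)
  have hw := hXv hv
  refine .five hΔ hW h5 hX ?_
  by_cases h' : 3 ∣ padicValInt 3 X.Δ
  · exact transfers_of_three_dvd hX.ne_zero hX.semistable hX3 hX4 h'
  obtain ⟨Y, hY, hY3, hY4, -, hYv⟩ :=
    exists_multiplicative_switch hX.semistable hX.ne_zero hX4 (by omega)
  have hw' := hYv (by omega)
  exact .five hX.ne_zero hX.semistable (modRepIsIrreducible_of_torEquiv hX.torEquiv h5) hY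
    (transfers_of_three_dvd hY.ne_zero hY.semistable hY3 hY4 (by omega))

/-- Both residual representations irreducible. -/
theorem transfers_of_irreducible (hΔ : W.Δ ≠ 0) (hW : W.IsSemistableModel)
    (h3 : W.ModRepIsIrreducible 3) (h5 : W.ModRepIsIrreducible 5) : Transfers W := by
  have : Fact (Nat.Prime 5) := ⟨by norm_num⟩
  by_cases h4 : (3 : ℤ) ∣ W.c₄
  · exact transfers_supersingular hΔ hW (fun h => hW 3 Nat.prime_three h h4) h4
  by_cases hv : 3 ∣ padicValInt 3 W.Δ
  · exact transfers_of_three_dvd hΔ hW h3 h4 hv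
  obtain ⟨X, hX, hX3, hX4, hXv, -⟩ := exists_multiplicative_switch hW hΔ h4 (by omega)
  exact .five hΔ hW h5 hX (transfers_of_two_le hX.ne_zero hX.semistable hX3
    (modRepIsIrreducible_of_torEquiv hX.torEquiv h5) hX4 hXv)

/-- **Transfer to the base case.** A semistable curve with irreducible representation modulo `3`
or `5` is joined, by switches at `3` and `5` along irreducible representations, to a semistable
curve with supersingular good reduction at `3` and surjective representation modulo `3`. -/
theorem transfers (W : WeierstrassCurve ℤ) (hΔ : W.Δ ≠ 0) (hW : W.IsSemistableModel)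
    (h : W.ModRepIsIrreducible 3 ∨ W.ModRepIsIrreducible 5) : Transfers W := by
  have : Fact (Nat.Prime 3) := ⟨Nat.prime_three⟩
  have : Fact (Nat.Prime 5) := ⟨by norm_num⟩
  by_cases h3 : W.ModRepIsIrreducible 3
  · by_cases h5 : W.ModRepIsIrreducible 5
    · exact transfers_of_irreducible hΔ hW h3 h5
    obtain ⟨X, hX, hX5⟩ := exists_five_irreducible hΔ hW
    exact .three hΔ hW h3 hX (transfers_of_irreducible hX.ne_zero hX.semistable
      (modRepIsIrreducible_of_torEquiv hX.torEquiv h3) hX5)
  · have h5 := h.resolve_left h3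
    obtain ⟨X, hX, hX3⟩ := exists_switch W hΔ hW
    exact .five hΔ hW h5 hX (transfers_of_irreducible hX.ne_zero hX.semistable hX3
      (modRepIsIrreducible_of_torEquiv hX.torEquiv h5))

end FermatAgent.Switch2
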