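import Mathlib

/-!
# Subgroups of `GL₂(𝔽₃)`
-/

set_option autoImplicit false

noncomputable section

open Module Matrix

namespace FermatAgent.Switch2.GLTwoThree

local notation "M₂" => Matrix (Fin 2) (Fin 2) (ZMod 3)

lemma upper_pow (a : ZMod 3) (n : ℕ) : (!![1, a; 0, 1] : M₂) ^ n = !![1, n * a; 0, 1] := by
  induction n with
  | zero => ext i j; fin_cases i <;> fin_cases j <;> simp
  | succ n ih => rw [pow_succ, ih]; ext i j; fin_cases i <;> fin_cases j <;> simp; ring

lemma lower_pow (a : ZMod 3) (n : ℕ) : (!![1, 0; a, 1] : M₂) ^ n = !![1, 0; n * a, 1] := by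
  induction n with
  | zero => ext i j; fin_cases i <;> fin_cases j <;> simp
  | succ n ih => rw [pow_succ, ih]; ext i j; fin_cases i <;> fin_cases j <;> simp; ring

set_option maxRecDepth 100000 in
lemma sl_two_eq : ∀ a b c d : ZMod 3, a * d - b * c = 1 → ∃ i j k l : ZMod 3,
    (1 + j * k) = a ∧ j + (1 + j * k) * l = b ∧ i * (1 + j * k) + k = c ∧
      i * j + 1 + (i * (1 + j * k) + k) * l = d := by
  decide +kernel

set_option maxRecDepth 100000 in
lemma exp_twenty_four : ∀ a b c d : ZMod 3, a * d - b * c ≠ 0 →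
    (!![a, b; c, d] : M₂) ^ 24 = 1 := by
  decide +kernel

set_option maxRecDepth 100000 in
lemma det_cube : ∀ x : ZMod 3, x ^ 3 = 1 → x = 1 := by decide

/-- `1 ≠ -1` in `ZMod 3`. -/
lemma one_ne_neg_one_three : (1 : ZMod 3) ≠ -1 := by decide

/-- The units of `ZMod 3` are `±1`. -/
lemma det_ne_zero_cases : ∀ x : ZMod 3, x ≠ 0 → x = 1 ∨ x = -1 := by decide

variable {V : Type*} [AddCommGroup V] [Module (ZMod 3) V]

/-- A unit endomorphism has order dividing `24`. -/
lemma pow_twenty_four (hV : finrank (ZMod 3) V = 2) [Fact (Nat.Prime 3)]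
    (f : Module.End (ZMod 3) V) (hf : LinearMap.det f ≠ 0) : f ^ 24 = 1 := by
  have : FiniteDimensional (ZMod 3) V := Module.finite_of_finrank_eq_succ hV
  let b : Basis (Fin 2) (ZMod 3) V := Module.finBasisOfFinrankEq _ _ hV
  apply (LinearMap.toMatrixAlgEquiv b).injective
  rw [map_pow, map_one, Matrix.eta_fin_two (LinearMap.toMatrixAlgEquiv b f)]
  refine exp_twenty_four _ _ _ _ ?_
  rw [← Matrix.det_fin_two]
  rw [← LinearMap.det_toMatrix b] at hf
  exact hf

/-- A unipotent endomorphism fixes a nonzero vector. -/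
lemma exists_fixed (hV : finrank (ZMod 3) V = 2) (f : Module.End (ZMod 3) V) (hf : f ^ 3 = 1) :
    ∃ v : V, v ≠ 0 ∧ f v = v := by
  by_contra hcon
  push Not at hcon
  have hinj : Function.Injective (f - 1 : Module.End (ZMod 3) V) := by
    refine (injective_iff_map_eq_zero _).2 fun v hv => ?_
    by_contra h0
    exact hcon v h0 (sub_eq_zero.1 hv)
  have : Nontrivial V := Module.nontrivial_of_finrank_eq_succ hV
  obtain ⟨v, hv⟩ := exists_ne (0 : V)
  refine hv (hinj.iterate 3 ?_)
  have e : f (f (f v)) = v := by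
    rw [show f (f (f v)) = (f ^ 3) v by rw [pow_succ, pow_succ, pow_one]; rfl, hf]; rfl
  simp only [Function.iterate_succ, Function.iterate_zero, Function.comp_apply, id_eq,
    LinearMap.sub_apply, Module.End.one_apply, map_zero, map_sub, e]
  have h3 := ZModModule.char_nsmul_eq_zero 3 (f v)
  have h3' := ZModModule.char_nsmul_eq_zero 3 (f (f v))
  calc v - f (f v) - (f (f v) - f v) - (f (f v) - f v - (f v - v))
      = 3 • f v - 3 • f (f v) := by abel
    _ = 0 := by rw [h3, h3', sub_zero]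

variable {Γ : Type*} [Group Γ] (ρ : Γ →* Module.End (ZMod 3) V)

/-- An irreducible image with surjective determinant and an element of order three is all of
`GL₂(𝔽₃)`. -/
theorem exists_eq_of_order_three [Fact (Nat.Prime 3)] (hV : finrank (ZMod 3) V = 2)
    (hirr : ∀ v : V, v ≠ 0 → ∃ g, ∀ c : ZMod 3, ρ g v ≠ c • v)
    {g₁ : Γ} (hd : LinearMap.det (ρ g₁) = -1) {t : Γ} (ht : ρ t ^ 3 = 1) (ht1 : ρ t ≠ 1)
    (f : Module.End (ZMod 3) V) (hf : LinearMap.det f ≠ 0) : ∃ g, ρ g = f := by
  classical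
  have : FiniteDimensional (ZMod 3) V := Module.finite_of_finrank_eq_succ hV
  obtain ⟨v, hv0, hv⟩ := exists_fixed hV _ ht
  obtain ⟨g, hg⟩ := hirr v hv0
  have hli : LinearIndependent (ZMod 3) ![v, ρ g v] :=
    (LinearIndependent.pair_iff' hv0).2 fun c hc => hg c hc.symm
  let b := basisOfLinearIndependentOfCardEqFinrank hli (by simp [hV])
  have hb : ⇑b = ![v, ρ g v] := coe_basisOfLinearIndependentOfCardEqFinrank hli _
  let M : Γ →* M₂ := (LinearMap.toMatrixAlgEquiv b : _ →* M₂).comp ρ
  have hM : ∀ x, M x = LinearMap.toMatrixAlgEquiv b (ρ x) := fun x => rfl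
  have hdet : ∀ x, (M x).det = LinearMap.det (ρ x) := fun x => LinearMap.det_toMatrix b _
  have hcol : ∀ x (j : Fin 2), ρ x (b j) = b j → ∀ i, M x i j = if i = j then 1 else 0 := by
    intro x j h i
    rw [hM, LinearMap.toMatrixAlgEquiv_apply, h, b.repr_self, Finsupp.single_apply]
    exact if_congr eq_comm rfl rfl
  have hdt : LinearMap.det (ρ t) = 1 := det_cube _ (by rw [← map_pow, ht, map_one])
  have hv' : ρ t (b 0) = b 0 := by rw [hb]; exact hv
  have hU : M t = !![1, M t 0 1; 0, 1] := by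
    have h00 := hcol t 0 hv' 0
    have h10 := hcol t 0 hv' 1
    simp only [if_true, show ((1 : Fin 2) = 0) = False by simp, if_false] at h00 h10
    have hd11 := hdet t
    rw [Matrix.det_fin_two, h00, h10, hdt, one_mul, mul_zero, sub_zero] at hd11
    ext i j
    fin_cases i <;> fin_cases j <;> simp [h00, h10, hd11]
  set t' := g * t * g⁻¹ with ht'
  have hgg : ρ g⁻¹ (ρ g v) = v := by
    rw [← Module.End.mul_apply, ← map_mul, inv_mul_cancel, map_one, Module.End.one_apply]
  have hw : ρ t' (b 1) = b 1 := by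
    rw [hb]
    show ρ t' (ρ g v) = ρ g v
    rw [ht', map_mul, map_mul, Module.End.mul_apply, Module.End.mul_apply, hgg, hv]
  have hdt' : LinearMap.det (ρ t') = 1 := by
    rw [ht', map_mul, map_mul, map_mul, map_mul, hdt, mul_one, ← map_mul, ← map_mul,
      mul_inv_cancel, map_one, map_one]
  have hL : M t' = !![1, 0; M t' 1 0, 1] := by
    have h01 := hcol t' 1 hw 0
    have h11 := hcol t' 1 hw 1
    simp only [if_true, show ((0 : Fin 2) = 1) = False by simp, if_false] at h01 h11
    have hd00 := hdet t'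
    rw [Matrix.det_fin_two, h01, h11, hdt', mul_one, zero_mul, sub_zero] at hd00
    ext i j
    fin_cases i <;> fin_cases j <;> simp [h01, h11, hd00]
  set a := M t 0 1 with ha
  set c := M t' 1 0 with hc
  have hinjM : ∀ x y, M x = M y → ρ x = ρ y :=
    fun x y h => (LinearMap.toMatrixAlgEquiv b).injective h
  have ha0 : a ≠ 0 := fun h => ht1 (by
    rw [← map_one ρ]
    refine hinjM _ _ ?_
    rw [hU, h, map_one, Matrix.one_fin_two])
  have hc0 : c ≠ 0 := fun h => ht1 (by
    have : ρ t' = 1 := by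
      rw [← map_one ρ]
      refine hinjM _ _ ?_
      rw [hL, h, map_one, Matrix.one_fin_two]
    have e : t = g⁻¹ * t' * g := by rw [ht']; group
    rw [e, map_mul, map_mul, this, mul_one, ← map_mul, inv_mul_cancel, map_one])
  have hsl : ∀ m : M₂, m.det = 1 → ∃ x, M x = m := by
    intro m hm
    rw [Matrix.det_fin_two] at hm
    obtain ⟨i, j, k, l, e1, e2, e3, e4⟩ := sl_two_eq _ _ _ _ hm
    refine ⟨t' ^ (i / c).val * t ^ (j / a).val * t' ^ (k / c).val * t ^ (l / a).val, ?_⟩
    rw [map_mul, map_mul, map_mul, map_pow, map_pow, map_pow, map_pow, hU, hL, upper_pow,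
      lower_pow, upper_pow, lower_pow]
    simp only [ZMod.natCast_zmod_val, div_mul_cancel₀ _ ha0, div_mul_cancel₀ _ hc0]
    ext u w
    fin_cases u <;> fin_cases w <;> simp [← e1, ← e2, ← e3, ← e4] <;> ring
  obtain ⟨x, hx⟩ : ∃ x, M x = LinearMap.toMatrixAlgEquiv b f := by
    have hmd : (LinearMap.toMatrixAlgEquiv b f).det = LinearMap.det f := LinearMap.det_toMatrix b _
    rcases det_ne_zero_cases _ hf with h | h
    · exact hsl _ (hmd.trans h)
    · obtain ⟨x, hx⟩ := hsl (LinearMap.toMatrixAlgEquiv b f * M g₁) (by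
        rw [Matrix.det_mul, hmd, hdet, hd, h, neg_mul_neg, mul_one])
      refine ⟨x * g₁⁻¹, ?_⟩
      rw [map_mul, hx, mul_assoc, ← map_mul, mul_inv_cancel, map_one, mul_one]
  exact ⟨x, (LinearMap.toMatrixAlgEquiv b).injective hx⟩

/-- A commutative image containing a reflection is reducible. -/
theorem false_of_commute_reflection [Fact (Nat.Prime 3)] (hV : finrank (ZMod 3) V = 2)
    (hirr : ∀ v : V, v ≠ 0 → ∃ g, ∀ c : ZMod 3, ρ g v ≠ c • v)
    {s : Γ} (hs : ρ s * ρ s = 1) (hd : LinearMap.det (ρ s) = -1)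
    (hcomm : ∀ g, Commute (ρ g) (ρ s)) : False := by
  have : FiniteDimensional (ZMod 3) V := Module.finite_of_finrank_eq_succ hV
  have hne : ρ s ≠ -1 := by
    intro h
    rw [h, ← neg_one_smul (ZMod 3) (1 : Module.End (ZMod 3) V), LinearMap.det_smul, hV, map_one,
      neg_one_sq, one_mul] at hd
    exact one_ne_neg_one_three hd
  have hne1 : ρ s ≠ 1 := by
    intro h
    rw [h, map_one] at hd
    exact one_ne_neg_one_three hd
  obtain ⟨y, hy⟩ : ∃ y, ρ s y + y ≠ 0 := by
    by_contra hcon
    push Not at hcon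
    exact hne (LinearMap.ext fun y => eq_neg_of_add_eq_zero_left (hcon y))
  set u := ρ s y + y with hu
  have hsu : ρ s u = u := by
    rw [hu, map_add, ← Module.End.mul_apply, hs, Module.End.one_apply, add_comm]
  obtain ⟨g, hg⟩ := hirr u hy
  have hli : LinearIndependent (ZMod 3) ![u, ρ g u] :=
    (LinearIndependent.pair_iff' hy).2 fun c hc => hg c hc.symm
  let b := basisOfLinearIndependentOfCardEqFinrank hli (by simp [hV])
  have hb : ⇑b = ![u, ρ g u] := coe_basisOfLinearIndependentOfCardEqFinrank hli _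
  refine hne1 (b.ext fun i => ?_)
  rw [Module.End.one_apply, hb]
  fin_cases i
  · exact hsu
  · show ρ s (ρ g u) = ρ g u
    rw [← Module.End.mul_apply, ← (hcomm g).eq, Module.End.mul_apply, hsu]

end FermatAgent.Switch2.GLTwoThree
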