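import Fermat.Agent.Switch2.KleinHalf
import Mathlib.Tactic.ReduceModChar

/-!
# Values at `3` of the half member
-/

set_option autoImplicit false

namespace FermatAgent.Switch2

/-- `halfA / c₄` in `B = c₆²` and the discriminant. -/
def halfG (B D : ℤ) : ℤ :=
  3486784401 * B ^ 10
    + (-178077052927872) * B ^ 9 * D
    + (-1177954265538883584) * B ^ 8 * D ^ 2
    + (-2432317900786935791616) * B ^ 7 * D ^ 3
    + (-646982448837746277482496) * B ^ 6 * D ^ 4
    + 4623885152682799910105382912 * B ^ 5 * D ^ 5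
    + 7584460518936917775606595190784 * B ^ 4 * D ^ 6
    + 5669180784245104651915538775146496 * B ^ 3 * D ^ 7
    + 2640133616716021796681586332324069376 * B ^ 2 * D ^ 8
    + 796914011730987355632554889128706048000 * B * D ^ 9
    + 43802606104883147793494330496044236800000 * D ^ 10

/-- `halfB / c₆` in `B = c₆²` and the discriminant. -/
def halfH (B D : ℤ) : ℤ :=
  205891132094649 * B ^ 15
    + 27632237056158652992 * B ^ 14 * D
    + 138448655420810984165376 * B ^ 13 * D ^ 2
    + (-414049376628836465102290944) * B ^ 12 * D ^ 3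
    + (-5391673156560890510374380503040) * B ^ 11 * D ^ 4
    + (-20129876251118866955660180336934912) * B ^ 10 * D ^ 5
    + (-41367465378773701771350940962999238656) * B ^ 9 * D ^ 6
    + (-53970460356883075366743710320956505325568) * B ^ 8 * D ^ 7
    + (-50312825491795862606111588237030264036917248) * B ^ 7 * D ^ 8
    + (-41633350788189738090975302601388482124736102400) * B ^ 6 * D ^ 9
    + (-36612204129179544964269231971688702239615471321088) * B ^ 5 * D ^ 10
    + (-29139089502291280191649089610187288370573495704223744) * B ^ 4 * D ^ 11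
    + (-16284639925153749522558676510492462265701564745873620992) * B ^ 3 * D ^ 12
    + (-5408902601226388786822370628054134640611731227831699505152) * B ^ 2 * D ^ 13
    + (-933789307445068218124432588243529915772733316512434094080000) * B * D ^ 14
    + (-97029103176581987710394951852373573616954202827322818560000000) * D ^ 15

/-- The cofactor of the discriminant. -/
def halfE (B D : ℤ) : ℤ :=
  (-10301051460877537453973547267843) * B ^ 30
    + (-314250743233170742595886348650997120) * B ^ 29 * D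
    + (-4820117078361222039775082947092079349760) * B ^ 28 * D ^ 2
    + (-49134911237667015909860951649025778091294720) * B ^ 27 * D ^ 3
    + (-371646143040279304634571561283302202815094456320) * B ^ 26 * D ^ 4
    + (-2209632185764066978734065821742092649938148030152704) * B ^ 25 * D ^ 5
    + (-10687062039183336716751760979692988083887466563124592640) * B ^ 24 * D ^ 6
    + (-42971122066249383017554275208423179494284585715211907891200) * B ^ 23 * D ^ 7
    + (-145664133560673904723500518933996156521841235802219214001930240) * B ^ 22 * D ^ 8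
    + (-419926299429152902046353173491971170094490003490819642969450086400) * B ^ 21 * D ^ 9
    + (-1034419001831473231768676673215616899201927743205405436535872996507648) * B ^ 20 * D ^ 10
    + (-2180396148613210648888556568560710036465195141590152676941770261738291200) * B ^ 19 * D ^ 11
    + (-435816735885350615482519 * 2 ^ 72 * 3 ^ 62 * 5 ^ 1) * B ^ 18 * D ^ 12
    + (-15633287414101774310641783 * 2 ^ 79 * 3 ^ 61 * 5 ^ 1) * B ^ 17 * D ^ 13
    + (-1889872822098969653294197093 * 2 ^ 84 * 3 ^ 60 * 5 ^ 1) * B ^ 16 * D ^ 14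
    + (-1098321918909413599653812521 * 2 ^ 94 * 3 ^ 62) * B ^ 15 * D ^ 15
    + (-47794202818144589464181817869 * 2 ^ 96 * 3 ^ 62 * 5 ^ 1) * B ^ 14 * D ^ 16
    + (-2289259360911682669169830850693 * 2 ^ 103 * 3 ^ 60 * 5 ^ 1) * B ^ 13 * D ^ 17
    + (-788035272643800337355055431099 * 2 ^ 108 * 3 ^ 62 * 5 ^ 2) * B ^ 12 * D ^ 18
    + (-2717588822790619988161824170711 * 2 ^ 116 * 3 ^ 61 * 5 ^ 2) * B ^ 11 * D ^ 19
    + (166050034321264396634435195400139 * 2 ^ 120 * 3 ^ 60) * B ^ 10 * D ^ 20
    + (4291641195649937263346522278513 * 2 ^ 127 * 3 ^ 66 * 5 ^ 1) * B ^ 9 * D ^ 21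
    + (68800419682100303815540078021 * 2 ^ 132 * 3 ^ 72 * 5 ^ 1) * B ^ 8 * D ^ 22
    + (562001383749057985649129 * 2 ^ 141 * 3 ^ 78 * 5 ^ 2) * B ^ 7 * D ^ 23
    + (-892957068057949179977587 * 2 ^ 144 * 3 ^ 85 * 5 ^ 1) * B ^ 6 * D ^ 24
    + (-25517750893523596055809 * 2 ^ 151 * 3 ^ 90) * B ^ 5 * D ^ 25
    + (123103180950697427 * 2 ^ 156 * 3 ^ 97 * 5 ^ 4) * B ^ 4 * D ^ 26
    + (4334848870649 * 2 ^ 164 * 3 ^ 102 * 5 ^ 7) * B ^ 3 * D ^ 27
    + (-288311057 * 2 ^ 168 * 3 ^ 108 * 5 ^ 10) * B ^ 2 * D ^ 28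
    + (-5639 * 2 ^ 175 * 3 ^ 114 * 5 ^ 13) * B * D ^ 29
    + (2 ^ 180 * 3 ^ 120 * 5 ^ 15) * D ^ 30

/-- The discriminant identity of the half member. -/
theorem half_disc (B D : ℤ) :
    (B + 1728 * D) * halfG B D ^ 3 - B * halfH B D ^ 2 = 1728 * D * halfE B D := by
  simp only [halfG, halfH, halfE]; ring

variable {a b D : ℤ} (h : a ^ 3 = b ^ 2 + 1728 * D)

include h in
/-- The half member has `a` times `halfG` as first coefficient. -/
theorem halfA_eq : halfA a b = a * halfG (b ^ 2) D := by
  simp only [halfA, halfG]; rw [h]; ring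

include h in
/-- The half member has `b` times `halfH` as second coefficient. -/
theorem halfB_eq : halfB a b = b * halfH (b ^ 2) D := by
  simp only [halfB, halfH]; rw [h]; ring

/-! The values at `D = -B + 3 T` (supersingular), `D = 3 T` (multiplicative) and `D = B + 3 T`
(ordinary with trace `±1`): congruences modulo a power of `3`, checked in `ZMod (3 ^ k)`. -/

/-- An equality in `ZMod (3 ^ k)` is a congruence modulo `3 ^ k`. -/
private lemma exists_eq_add {x y : ℤ} {k : ℕ} (h : (x : ZMod (3 ^ k)) = y) :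
    ∃ z : ℤ, x = y + 3 ^ k * z := by
  obtain ⟨z, hz⟩ := (ZMod.intCast_eq_intCast_iff_dvd_sub y x (3 ^ k)).1 h.symm
  exact ⟨z, by push_cast at hz; linear_combination hz⟩

/-- The leading term at three of `halfG` in the supersingular case. -/
theorem halfG_super (B T : ℤ) :
    ∃ z : ℤ, halfG B (-B + 3 * T) = 3 ^ 21 * (1 * B ^ 10 + 3 * z) := by
  obtain ⟨z, hz⟩ := exists_eq_add (x := halfG B (-B + 3 * T)) (y := 3 ^ 21 * B ^ 10) (k := 22)
    (by simp only [halfG]; push_cast; rw [← sub_eq_zero]; ring_nf; reduce_mod_char)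
  exact ⟨z, by rw [hz]; ring⟩

/-- The divisibility at three of `halfH` in the supersingular case. -/
theorem halfH_super (B T : ℤ) : ∃ z : ℤ, halfH B (-B + 3 * T) = 3 ^ 33 * z := by
  obtain ⟨z, hz⟩ := exists_eq_add (x := halfH B (-B + 3 * T)) (y := 0) (k := 33)
    (by simp only [halfH]; push_cast; rw [← sub_eq_zero]; ring_nf; reduce_mod_char)
  exact ⟨z, by rw [hz]; ring⟩

/-- The leading term at three of `halfE` in the supersingular case. -/
theorem halfE_super (B T : ℤ) :
    ∃ z : ℤ, halfE B (-B + 3 * T) = 3 ^ 60 * (2 * B ^ 30 + 3 * z) := by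
  obtain ⟨z, hz⟩ := exists_eq_add (x := halfE B (-B + 3 * T)) (y := 3 ^ 60 * 2 * B ^ 30)
    (k := 61) (by simp only [halfE]; push_cast; rw [← sub_eq_zero]; ring_nf; reduce_mod_char)
  exact ⟨z, by rw [hz]; ring⟩

/-- The leading term at three of `halfG` in the multiplicative case. -/
theorem halfG_mult (B T : ℤ) :
    ∃ z : ℤ, halfG B (3 * T) = 3 ^ 20 * (1 * B ^ 10 + 3 * z) := by
  obtain ⟨z, hz⟩ := exists_eq_add (x := halfG B (3 * T)) (y := 3 ^ 20 * B ^ 10) (k := 21)
    (by simp only [halfG]; push_cast; rw [← sub_eq_zero]; ring_nf; reduce_mod_char)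
  exact ⟨z, by rw [hz]; ring⟩

/-- The divisibility at three of `halfH` in the multiplicative case. -/
theorem halfH_mult (B T : ℤ) : ∃ z : ℤ, halfH B (3 * T) = 3 ^ 30 * z := by
  obtain ⟨z, hz⟩ := exists_eq_add (x := halfH B (3 * T)) (y := 0) (k := 30)
    (by simp only [halfH]; push_cast; rw [← sub_eq_zero]; ring_nf; reduce_mod_char)
  exact ⟨z, by rw [hz]; ring⟩

/-- The divisibility at three of `halfE` in the multiplicative case. -/
theorem halfE_mult (B T : ℤ) : ∃ z : ℤ, halfE B (3 * T) = 3 ^ 65 * z := by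
  obtain ⟨z, hz⟩ := exists_eq_add (x := halfE B (3 * T)) (y := 0) (k := 65)
    (by simp only [halfE]; push_cast; rw [← sub_eq_zero]; ring_nf; reduce_mod_char)
  exact ⟨z, by rw [hz]; ring⟩

/-- The leading term at three of `halfE` for parameters divisible by nine. -/
theorem halfE_mult_two (B T : ℤ) :
    ∃ z : ℤ, halfE B (9 * T) = 3 ^ 65 * (2 * B ^ 30 + 3 * z) := by
  obtain ⟨z, hz⟩ := exists_eq_add (x := halfE B (9 * T)) (y := 3 ^ 65 * 2 * B ^ 30)
    (k := 66) (by simp only [halfE]; push_cast; rw [← sub_eq_zero]; ring_nf; reduce_mod_char)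
  exact ⟨z, by rw [hz]; ring⟩

/-- The leading term at three of `halfG` in the ordinary case. -/
theorem halfG_ordinary (B T : ℤ) :
    ∃ z : ℤ, halfG B (B + 3 * T) = 3 ^ 20 * (1 * B ^ 10 + 3 * z) := by
  obtain ⟨z, hz⟩ := exists_eq_add (x := halfG B (B + 3 * T)) (y := 3 ^ 20 * B ^ 10) (k := 21)
    (by simp only [halfG]; push_cast; rw [← sub_eq_zero]; ring_nf; reduce_mod_char)
  exact ⟨z, by rw [hz]; ring⟩

/-- The divisibility at three of `halfH` in the ordinary case. -/
theorem halfH_ordinary (B T : ℤ) : ∃ z : ℤ, halfH B (B + 3 * T) = 3 ^ 30 * z := by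
  obtain ⟨z, hz⟩ := exists_eq_add (x := halfH B (B + 3 * T)) (y := 0) (k := 30)
    (by simp only [halfH]; push_cast; rw [← sub_eq_zero]; ring_nf; reduce_mod_char)
  exact ⟨z, by rw [hz]; ring⟩

/-- The divisibility at three of `halfE` in the ordinary case. -/
theorem halfE_ordinary (B T : ℤ) : ∃ z : ℤ, halfE B (B + 3 * T) = 3 ^ 60 * z := by
  obtain ⟨z, hz⟩ := exists_eq_add (x := halfE B (B + 3 * T)) (y := 0) (k := 60)
    (by simp only [halfE]; push_cast; rw [← sub_eq_zero]; ring_nf; reduce_mod_char)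
  exact ⟨z, by rw [hz]; ring⟩

end FermatAgent.Switch2
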