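import Fermat.Agent.Switch2.HessePoints
import Fermat.Agent.Switch.Specialisation
import Fermat.Agent.Switch.FamilyRat

/-!
# Curves with the same three torsion
-/

set_option autoImplicit false

noncomputable section

open WeierstrassCurve WeierstrassCurve.Affine Polynomial
open scoped WeierstrassCurve.Affine
open FermatAgent.EC (mapPoint mapPoint_some)

namespace FermatAgent.Switch2

open FermatAgent.Switch

local notation "Qbar" => AlgebraicClosure ℚ

/-- The member at `s` of the family of `(a, b)` has the same three torsion. -/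
theorem torEquiv_hesse {a b s : ℤ} (hd : a ^ 3 ≠ b ^ 2)
    (hr : hesseA a b s ^ 3 ≠ hesseB a b s ^ 2) :
    TorEquiv 3 (shortCurve a b) (shortCurve (hesseA a b s) (hesseB a b s)) := by
  classical
  have hdQ : (a : Qbar) ^ 3 ≠ (b : Qbar) ^ 2 := by exact_mod_cast hd
  set A : Qbar[X] := hesseA (C (a : Qbar)) (C (b : Qbar)) X with hA
  set B : Qbar[X] := hesseB (C (a : Qbar)) (C (b : Qbar)) X with hB
  have hev : ∀ t : Qbar, A.eval t = hesseA (a : Qbar) b t ∧ B.eval t = hesseB (a : Qbar) b t :=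
    fun t => by
      have h := map_hesseAB (evalRingHom t) (C (a : Qbar)) (C (b : Qbar)) X
      simpa [hA, hB] using h
  have hAs : A.eval (s : Qbar) = ((hesseA a b s : ℤ) : Qbar) ∧
      B.eval (s : Qbar) = ((hesseB a b s : ℤ) : Qbar) := by
    rw [(hev _).1, (hev _).2]
    exact ⟨((map_hesseAB (Int.castRingHom Qbar) a b s).1).symm,
      ((map_hesseAB (Int.castRingHom Qbar) a b s).2).symm⟩
  have hrQ : A.eval (s : Qbar) ^ 3 ≠ B.eval (s : Qbar) ^ 2 := by
    rw [hAs.1, hAs.2]; exact_mod_cast hr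
  have h00 : A.eval 0 = (a : Qbar) ∧ B.eval 0 = (b : Qbar) := by
    rw [(hev _).1, (hev _).2]; exact hesseA_zero _ _
  have hline : ∀ u w t : Qbar,
      (lineHesseU (C u) (C w) X).eval t = lineHesseU u w t ∧
        (lineHesseW (C u) (C w) X).eval t = lineHesseW u w t := fun u w t => by
    have h := map_lineHesse (evalRingHom t) (C u) (C w) X
    simpa using h
  let LX : Qbar → Qbar → Qbar[X] := fun u w => 3 * lineHesseU (C u) (C w) X ^ 2
  let LY : Qbar → Qbar → Qbar[X] := fun u w => 108 * lineHesseW (C u) (C w) X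
  have hLift : ∀ u w : Qbar, hesse4 u w = a → hesse6 u w = b →
      IsLift A B 3 (3 * u ^ 2) (108 * w) (LX u w) (LY u w) := by
    intro u w h4 h6
    refine ⟨by simp [LX, (hline u w 0).1, (lineHesse_zero u w).1],
      by simp [LY, (hline u w 0).2, (lineHesse_zero u w).2], fun {_} => ?_⟩
    set φ := algebraMap Qbar[X] (FractionRing Qbar[X]) with hφ
    have hinj : Function.Injective φ := IsFractionRing.injective _ _
    have : CharZero (FractionRing Qbar[X]) := charZero_of_injective_ringHom (φ.comp C).injective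
    have e4 : hesse4 (φ (lineHesseU (C u) (C w) X)) (φ (lineHesseW (C u) (C w) X)) = φ A := by
      rw [← (map_hesse φ _ _).1, hesse4_line, ← (map_hesse C u w).1, ← (map_hesse C u w).2, h4, h6]
    have e6 : hesse6 (φ (lineHesseU (C u) (C w) X)) (φ (lineHesseW (C u) (C w) X)) = φ B := by
      rw [← (map_hesse φ _ _).2, hesse6_line, ← (map_hesse C u w).1, ← (map_hesse C u w).2, h4, h6]
    have hdK : φ A ^ 3 ≠ φ B ^ 2 := fun h => hdQ (by
      rw [← map_pow, ← map_pow] at h
      have h0 := congrArg (fun P => P.eval 0) (hinj h)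
      simpa [h00.1, h00.2] using h0)
    have h3 := three_nsmul_hessePt hdK e4 e6
    have eX : φ (LX u w) = 3 * φ (lineHesseU (C u) (C w) X) ^ 2 := by
      simp only [LX, map_mul, map_pow, map_ofNat]
    have eY : φ (LY u w) = 108 * φ (lineHesseW (C u) (C w) X) := by
      simp only [LY, map_mul, map_ofNat]
    refine ⟨by rw [eX, eY]; exact hesse_nonsingular hdK e4 e6, ?_⟩
    simp only [eX, eY]
    exact h3
  obtain ⟨f, hf, hf3, hfval⟩ := exists_specialisation (n := 3) three_ne_zero A B h00.1 h00.2 hdQ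
    (fun x y h hn => by
      obtain ⟨u, w, h4, h6, e⟩ := exists_hessePt_eq hdQ (Point.some_ne_zero h) hn
      rw [hessePt, Point.some.injEq] at e
      obtain ⟨rfl, rfl⟩ := e
      exact ⟨_, _, hLift u w h4 h6⟩) (r := (s : Qbar)) hrQ
  refine torEquiv_of_hom three_ne_zero hd hr hAs.1 hAs.2 f hf hf3 fun σ hσ S S' hS' => ?_
  have h0 := shortCurve_map_galois σ.toRingEquiv a b
  rcases hP : S.1 with _ | ⟨X₀, Y₀, hns⟩
  · rw [show S = 0 from Subtype.ext hP, show S' = 0 from Subtype.ext (by rw [hS', hP]; rfl),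
      map_zero, map_zero]
  have hP3 : (3 : ℕ) • Point.some X₀ Y₀ hns = 0 := by
    rw [← hP, ← natCast_zsmul]; exact (Submodule.mem_torsionBy_iff _ _).1 S.2
  obtain ⟨u, w, h4, h6, e⟩ := exists_hessePt_eq hdQ (Point.some_ne_zero hns) hP3
  rw [hessePt, Point.some.injEq] at e
  obtain ⟨rfl, rfl⟩ := e
  have h4' : hesse4 (σ u) (σ w) = (a : Qbar) := by
    rw [← map_intCast σ a, ← h4]; exact ((map_hesse (σ : Qbar →+* Qbar) u w).1).symm
  have h6' : hesse6 (σ u) (σ w) = (b : Qbar) := by
    rw [← map_intCast σ b, ← h6]; exact ((map_hesse (σ : Qbar →+* Qbar) u w).2).symm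
  obtain ⟨k1, v1⟩ := hfval S _ _ hns _ _ hP (hLift u w h4 h6)
  obtain ⟨k2, v2⟩ := hfval S' _ _ (hesse_nonsingular hdQ h4' h6') _ _
    (by rw [hS', hP, mapPoint_some, Point.some.injEq]; constructor <;> simp [map_ofNat])
    (hLift _ _ h4' h6')
  rw [v1, v2, mapPoint_some, Point.some.injEq]
  obtain ⟨g1, g2⟩ := map_lineHesse (σ : Qbar →+* Qbar) u w (s : Qbar)
  simp only [RingHom.coe_coe, map_intCast] at g1 g2
  constructor <;> simp [LX, LY, (hline _ _ _).1, (hline _ _ _).2, g1, g2, map_ofNat]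

end FermatAgent.Switch2
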