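import Fermat.Agent.Switch2.Supersingular
import Fermat.Agent.Switch2.HesseFamily

/-!
# A cusp of the family with the same three torsion, with prescribed Galois action

Some automorphism not inverting `ζ₅` has an eigenvector on the three torsion with eigenvalue minus
its determinant (`exists_eigen`); in Hesse coordinates it acts on a pair with invariants `(a, b)`
by a sign and on `√-3` by the opposite sign (`exists_signed_hessePair`). The line of the Hesse
family through this pair has a cusp fixed by the automorphism, where `hesseB = -M ^ 2` with `M`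
negated: the automorphism sees that the fibre is nonsplit (`exists_hesse_cusp`).
-/

set_option autoImplicit false

noncomputable section

open WeierstrassCurve WeierstrassCurve.Affine
open scoped WeierstrassCurve.Affine
open FermatAgent.EC (mapPoint mapPoint_some)

namespace FermatAgent.Switch2

open FermatAgent.Switch

local notation "Qbar" => AlgebraicClosure ℚ
local notation "GQ" => AlgebraicClosure ℚ ≃ₐ[ℚ] AlgebraicClosure ℚ

set_option maxRecDepth 100000 in
lemma exists_word : ∀ a b c d : ZMod 3, a * d - b * c ≠ 0 →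
    let H : Matrix (Fin 2) (Fin 2) (ZMod 3) := !![a, b; c, d]
    let C : Matrix (Fin 2) (Fin 2) (ZMod 3) := !![1, 0; 0, -1]
    (H + 1).det = 0 ∨ (C * H + 1).det = 0 ∨ (H ^ 3 + 1).det = 0 ∨ (C * H ^ 3 + 1).det = 0 ∨
      (C * H ^ 2 + 1).det = 0 ∨ (H ^ 4 + 1).det = 0 ∨ (H * C * H + 1).det = 0 := by
  simp only [Matrix.det_fin_two]
  decide +kernel

set_option maxRecDepth 100000 in
lemma exists_eigen_three : ∀ a b c d : ZMod 3, (a + 1) * (d + 1) - b * c = 0 →
    a * d - b * c ≠ 0 →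
    ∃ x y : ZMod 3, (x ≠ 0 ∨ y ≠ 0) ∧ a * x + b * y = -(a * d - b * c) * x ∧
      c * x + d * y = -(a * d - b * c) * y := by
  decide +kernel

variable {W : WeierstrassCurve ℤ} [Fact (Nat.Prime 3)]

set_option quotPrecheck false in
local notation "Tor" =>
  Submodule.torsionBy ℤ ((W.map (Int.castRingHom ℚ))⁄Qbar).Point ((3 : ℕ) : ℤ)

set_option quotPrecheck false in
local notation "φ₃" =>
  Affine.Point.galoisRepModuleEnd ℚ (W.map (Int.castRingHom ℚ)).toAffine 3

omit [Fact (Nat.Prime 3)] in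
lemma complexConjugation_zeta {n : ℕ} (hn : n ≠ 0) {ζ : Qbar} (h : ζ ^ n = 1) :
    complexConjugation ζ = ζ⁻¹ := by
  refine complexEmbedding.toRingHom.injective ?_
  show complexEmbedding (complexConjugation ζ) = complexEmbedding ζ⁻¹
  rw [complexEmbedding_complexConjugation, map_inv₀]
  have h1 : complexEmbedding ζ ^ n = 1 := by rw [← map_pow, h, map_one]
  rw [Complex.inv_eq_conj (Complex.norm_eq_one_of_pow_eq_one h1 hn)]

/-- An eigenvector with the wanted behaviour on the roots of unity of order five. -/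
lemma exists_eigen (hΔ0 : W.Δ ≠ 0) {ζ : Qbar} (hζ : IsPrimitiveRoot ζ 5) :
    ∃ (g : GQ) (x : Tor), x ≠ 0 ∧ g ζ ≠ ζ⁻¹ ∧ φ₃ g x = -(LinearMap.det (φ₃ g)) • x := by
  classical
  have hΔq := EC.intMap_Δ_ne_zero hΔ0
  have hrank := EC.finrank_torsionBy_rat (W.map (Int.castRingHom ℚ)) hΔq 3
  have : FiniteDimensional (ZMod 3) Tor := Module.finite_of_finrank_eq_succ hrank
  set s := complexConjugation with hsdef
  have hd : LinearMap.det (φ₃ s) = -1 := EC.det_complexConjugation hΔ0
  have hs : φ₃ s * φ₃ s = 1 := by rw [← map_mul, complexConjugation_mul_self, map_one]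
  have hss : ∀ y : Tor, φ₃ s (φ₃ s y) = y := fun y => LinearMap.congr_fun hs y
  obtain ⟨y, hy⟩ : ∃ y, φ₃ s y + y ≠ 0 := by
    by_contra hcon
    push Not at hcon
    have e : φ₃ s = -1 := LinearMap.ext fun y => eq_neg_of_add_eq_zero_left (hcon y)
    rw [e, ← neg_one_smul (ZMod 3) (1 : Module.End (ZMod 3) Tor), LinearMap.det_smul, hrank,
      map_one, neg_one_sq, one_mul] at hd
    exact GLTwoThree.one_ne_neg_one_three hd
  obtain ⟨z, hz⟩ : ∃ z, φ₃ s z - z ≠ 0 := by
    by_contra hcon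
    push Not at hcon
    have e : φ₃ s = 1 := LinearMap.ext fun y => sub_eq_zero.1 (hcon y)
    rw [e, map_one] at hd
    exact GLTwoThree.one_ne_neg_one_three hd
  set u := φ₃ s y + y with hu
  set v := φ₃ s z - z with hv
  have hsu : φ₃ s u = u := by rw [hu, map_add, hss, add_comm]
  have hsv : φ₃ s v = -v := by rw [hv, map_sub, hss, neg_sub]
  have hli : LinearIndependent (ZMod 3) ![u, v] := (LinearIndependent.pair_iff' hy).2 fun c hc => by
    have h2 : v = -v := by rw [← hsv, ← hc, map_smul, hsu]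
    refine hz (calc v = 3 • v - (v + v) := by abel
      _ = 0 := by rw [ZModModule.char_nsmul_eq_zero 3, zero_sub, neg_eq_zero]
                  nth_rewrite 1 [h2]
                  exact neg_add_cancel v)
  let b := basisOfLinearIndependentOfCardEqFinrank hli (by rw [Fintype.card_fin]; exact hrank.symm)
  have hb : ⇑b = ![u, v] := coe_basisOfLinearIndependentOfCardEqFinrank hli _
  let M : GQ →* Matrix (Fin 2) (Fin 2) (ZMod 3) :=
    (LinearMap.toMatrixAlgEquiv b : _ →* Matrix (Fin 2) (Fin 2) (ZMod 3)).comp φ₃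
  have hdet : ∀ g, (M g).det = LinearMap.det (φ₃ g) := fun g => LinearMap.det_toMatrix b _
  have hcol : ∀ (i j : Fin 2), M s i j = b.repr (φ₃ s (b j)) i := fun i j =>
    LinearMap.toMatrixAlgEquiv_apply b _ i j
  have hC : M s = !![1, 0; 0, -1] := by
    have e0 : φ₃ s (b 0) = b 0 := by rw [hb]; exact hsu
    have e1 : φ₃ s (b 1) = -b 1 := by rw [hb]; exact hsv
    ext i j
    fin_cases i <;> fin_cases j <;>
      simp only [Fin.zero_eta, Fin.mk_one, Fin.isValue, hcol, e0, e1, map_neg,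
        Module.Basis.repr_self,
        Finsupp.coe_neg, Pi.neg_apply, Finsupp.single_eq_same, ne_eq, zero_ne_one, one_ne_zero,
        not_false_eq_true, Finsupp.single_eq_of_ne, neg_zero, Matrix.of_apply, Matrix.cons_val',
        Matrix.cons_val_zero, Matrix.cons_val_one, Matrix.cons_val_fin_one]
  -- the automorphisms
  obtain ⟨h, hh⟩ := RT.exists_algHom_map_primitiveRoot hζ (ZMod.unitOfCoprime 2 (by norm_num))
  have hhζ : h ζ = ζ ^ 2 := by
    rw [← hζ.autToPow_spec ℚ h, hh]; rfl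
  have hpow : ∀ k : ℕ, (h ^ k) ζ = ζ ^ (2 ^ k) := by
    intro k
    induction k with
    | zero => simp
    | succ k ih => rw [pow_succ', AlgEquiv.mul_apply, ih, map_pow, hhζ, ← pow_mul, pow_succ']
  have hsζ : ∀ k : ℕ, s (ζ ^ k) = (ζ ^ k)⁻¹ := fun k => complexConjugation_zeta (n := 5)
    (by norm_num) (by rw [← pow_mul, mul_comm, pow_mul, hζ.pow_eq_one, one_pow])
  have hno : ∀ m : ℕ, ¬5 ∣ m → ζ ^ m ≠ 1 := fun m hm e => hm (hζ.dvd_of_pow_eq_one m e)
  have hζ0 : ζ ≠ 0 := hζ.ne_zero (by norm_num)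
  have hp : ∀ k : ℕ, ¬5 ∣ k + 1 → ζ ^ k ≠ ζ⁻¹ := fun k hk e => hno (k + 1) hk (by
    rw [pow_succ, e, inv_mul_cancel₀ hζ0])
  have hm : ∀ k : ℕ, ¬5 ∣ k → (ζ ^ (k + 1))⁻¹ ≠ ζ⁻¹ := fun k hk e => hno k hk (by
    rw [inv_inj, pow_succ] at e
    exact (mul_eq_right₀ hζ0).1 e)
  obtain ⟨g, hgζ, hg⟩ : ∃ g : GQ, g ζ ≠ ζ⁻¹ ∧ (M g + 1).det = 0 := by
    have hdh : (M h).det ≠ 0 := by
      rw [hdet]
      intro h0
      have hu : IsUnit (φ₃ h) := ⟨MonoidHom.toHomUnits φ₃ h, rfl⟩
      exact not_isUnit_zero (h0 ▸ hu.map LinearMap.det)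
    rw [Matrix.det_fin_two] at hdh
    have hw := exists_word _ _ _ _ hdh
    simp only [← Matrix.eta_fin_two (M h), ← hC, ← map_pow, ← map_mul] at hw
    rcases hw with e | e | e | e | e | e | e
    · exact ⟨_, by rw [hhζ]; exact hp 2 (by norm_num), e⟩
    · exact ⟨_, by rw [AlgEquiv.mul_apply, hhζ, hsζ]; exact hm 1 (by norm_num), e⟩
    · exact ⟨_, by rw [hpow]; exact hp 8 (by norm_num), e⟩
    · exact ⟨_, by rw [AlgEquiv.mul_apply, hpow, hsζ]; exact hm 7 (by norm_num), e⟩
    · exact ⟨_, by rw [AlgEquiv.mul_apply, hpow, hsζ]; exact hm 3 (by norm_num), e⟩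
    · exact ⟨_, by rw [hpow]; exact hp 16 (by norm_num), e⟩
    · refine ⟨_, ?_, e⟩
      rw [AlgEquiv.mul_apply, AlgEquiv.mul_apply, hhζ, hsζ, map_inv₀, map_pow, hhζ, ← pow_mul]
      exact hm 3 (by norm_num)
  have hdg : (M g).det ≠ 0 := by
    rw [hdet]
    intro h0
    have hu : IsUnit (φ₃ g) := ⟨MonoidHom.toHomUnits φ₃ g, rfl⟩
    exact not_isUnit_zero (h0 ▸ hu.map LinearMap.det)
  rw [Matrix.det_fin_two] at hdg hg
  simp only [Matrix.add_apply, Matrix.one_apply_eq, Matrix.one_apply,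
    if_neg (by decide : ¬(0 : Fin 2) = 1),
    if_neg (by decide : ¬(1 : Fin 2) = 0), add_zero] at hg
  obtain ⟨p, q, hpq, e1, e2⟩ := exists_eigen_three _ _ _ _ hg hdg
  refine ⟨g, p • b 0 + q • b 1, fun h0 => ?_, hgζ, ?_⟩
  · have c0 := congrArg (fun w => b.repr w 0) h0
    have c1 := congrArg (fun w => b.repr w 1) h0
    simp only [LinearEquiv.map_add, LinearEquiv.map_smul, LinearEquiv.map_zero,
      Module.Basis.repr_self, Finsupp.smul_single, smul_eq_mul,
      mul_one, Finsupp.coe_add, Pi.add_apply, Finsupp.coe_zero, Pi.zero_apply,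
      Finsupp.single_eq_same,
      ne_eq, Fin.isValue, zero_ne_one, one_ne_zero, not_false_eq_true, Finsupp.single_eq_of_ne,
      add_zero, zero_add] at c0 c1
    exact hpq.elim (fun h => h c0) (fun h => h c1)
  · rw [← hdet, Matrix.det_fin_two]
    have hMg : ∀ i j, b.repr (φ₃ g (b j)) i = M g i j := fun i j =>
      (LinearMap.toMatrixAlgEquiv_apply b _ i j).symm
    apply b.repr.injective
    ext i
    fin_cases i <;>
      simp only [Fin.zero_eta, Fin.mk_one, Fin.isValue, LinearEquiv.map_add, LinearEquiv.map_smul,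
        LinearMap.map_add, LinearMap.map_smul, Module.Basis.repr_self,
        Finsupp.coe_add, Finsupp.coe_smul, Pi.add_apply, Pi.smul_apply, smul_eq_mul, hMg,
        Finsupp.single_eq_same, ne_eq, zero_ne_one, one_ne_zero, not_false_eq_true,
        Finsupp.single_eq_of_ne, mul_zero, mul_one, add_zero, zero_add] <;>
      first | linear_combination e1 | linear_combination e2

/-- An automorphism `g`, not inverting `ζ`, acting by a sign on a Hesse pair with invariants
`(a, b)` and by the opposite sign on `√-3 = 2 ω + 1`. -/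
lemma exists_signed_hessePair {a b : ℤ} (hd : a ^ 3 ≠ b ^ 2) {ζ : Qbar}
    (hζ : IsPrimitiveRoot ζ 5) :
    ∃ (g : GQ) (u w ω e : Qbar), hesse4 u w = (a : Qbar) ∧ hesse6 u w = (b : Qbar) ∧
      ω ^ 2 + ω + 1 = 0 ∧ g ζ ≠ ζ⁻¹ ∧ (e = 1 ∨ e = -1) ∧ (g u = e * u ∧ g w = e * w) ∧
      g (2 * ω + 1) = -e * (2 * ω + 1) := by
  classical
  set S := shortCurve a b with hS
  have hΔS : S.Δ ≠ 0 := by
    rw [hS, shortCurve_Δ]; exact mul_ne_zero (by norm_num) (sub_ne_zero.2 hd)
  obtain ⟨g, x, hx0, hgζ, hgx⟩ := exists_eigen (W := S) hΔS hζ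
  have hdQ : (a : Qbar) ^ 3 ≠ (b : Qbar) ^ 2 := by exact_mod_cast hd
  let pc := ECLocal.pointCongr (qbar_curve_eq a b)
  have h0 := shortCurve_map_galois g.toRingEquiv a b
  have hP0 : pc x.1 ≠ 0 := fun h =>
    hx0 (Subtype.ext (pc.injective (h.trans (map_zero pc).symm)))
  have hP3 : (3 : ℕ) • pc x.1 = 0 := by
    rw [← map_nsmul, ECLocal.nsmul_coe_torsion, map_zero]
  obtain ⟨u, w, h4, h6, hP⟩ := exists_hessePt_eq hdQ hP0 hP3
  have h4σ : hesse4 (g u) (g w) = (a : Qbar) := by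
    rw [← map_intCast g a, ← h4]; exact ((map_hesse (g : Qbar →+* Qbar) u w).1).symm
  have h6σ : hesse6 (g u) (g w) = (b : Qbar) := by
    rw [← map_intCast g b, ← h6]; exact ((map_hesse (g : Qbar →+* Qbar) u w).2).symm
  have hmap : hessePt hdQ h4σ h6σ = pc (g • x.1) := by
    rw [pointCongr_galois (qbar_curve_eq a b) g h0 x.1]
    show _ = mapPoint g.toRingEquiv.toRingHom h0 (pc x.1)
    rw [← hP, hessePt, hessePt, mapPoint_some, Point.some.injEq]
    constructor <;> simp [map_ofNat]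
  have hn : Nat.card (rootsOfUnity 3 Qbar) = 3 := IsAlgClosed.card_rootsOfUnity_eq Qbar 3
  have hΔq := EC.intMap_Δ_ne_zero hΔS
  have hdetc := congrArg Units.val (EC.galoisRepDetEqCyclotomic_rat
    (S.map (Int.castRingHom ℚ)) hΔq 3 hn g)
  rw [Affine.Point.galoisRepDet_apply, LinearEquiv.coe_det] at hdetc
  set d := LinearMap.det
    (Affine.Point.galoisRepModuleEnd ℚ (S.map (Int.castRingHom ℚ)).toAffine 3 g)
    with hdd
  change d = _ at hdetc
  obtain ⟨ω, hω⟩ := HasEnoughRootsOfUnity.exists_primitiveRoot Qbar 3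
  have hgω : g ω = ω ^ d.val := by
    rw [hdetc]
    exact modularCyclotomicCharacter.spec Qbar hn (g : Qbar ≃+* Qbar)
      (t := (hω.isUnit (by norm_num)).unit) (by
        rw [mem_rootsOfUnity]; exact Units.ext (by push_cast; exact hω.pow_eq_one))
  have hd0 : d ≠ 0 := by
    rw [hdd]
    intro h0'
    have hu : IsUnit (Affine.Point.galoisRepModuleEnd ℚ (S.map (Int.castRingHom ℚ)).toAffine 3 g) :=
      ⟨MonoidHom.toHomUnits _ g, rfl⟩
    exact not_isUnit_zero (h0' ▸ hu.map LinearMap.det)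
  have hω2 : ω ^ 2 + ω + 1 = 0 := by
    have h := hω.geom_sum_eq_zero (by norm_num)
    simp [Finset.sum_range_succ] at h
    linear_combination h
  rcases GLTwoThree.det_ne_zero_cases d hd0 with h | h
  · rw [h, ZMod.val_one, pow_one] at hgω
    have h4n : hesse4 (-u) (-w) = (a : Qbar) := (hesse_neg u w).1.trans h4
    have h6n : hesse6 (-u) (-w) = (b : Qbar) := (hesse_neg u w).2.trans h6
    obtain ⟨eu, ew⟩ := hesse_inj hdQ (h4 := h4n) (h6 := h6n) (h4' := h4σ) (h6' := h6σ) (by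
      rw [hmap]
      have hv : g • x.1 = -x.1 := by
        have := congrArg Subtype.val hgx
        rw [h, neg_one_smul] at this
        exact this
      rw [hv, map_neg, ← hP, hessePt, hessePt, Point.neg_some, Point.some.injEq]
      constructor
      · ring
      · simp [WeierstrassCurve.Affine.negY, shortCurve])
    exact ⟨g, u, w, ω, -1, h4, h6, hω2, hgζ, Or.inr rfl, ⟨by rw [eu]; ring, by rw [ew]; ring⟩,
      by rw [map_add, map_mul, map_ofNat, map_one, hgω]; ring⟩
  · rw [h] at hgω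
    obtain ⟨eu, ew⟩ := hesse_inj hdQ (h4 := h4) (h6 := h6) (h4' := h4σ) (h6' := h6σ) (by
      rw [hmap]
      have hv : g • x.1 = x.1 := by
        have := congrArg Subtype.val hgx
        rw [h, neg_neg, one_smul] at this
        exact this
      rw [hv, hP])
    refine ⟨g, u, w, ω, 1, h4, h6, hω2, hgζ, Or.inl rfl, ⟨by rw [eu, one_mul], by rw [ew, one_mul]⟩,
      ?_⟩
    rw [map_add, map_mul, map_ofNat, map_one, hgω,
      show (-1 : ZMod 3).val = 2 from rfl]
    linear_combination 2 * hω2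

/-- A cusp `rc` of the Hesse family, and an automorphism fixing it, seeing that the fibre is
nonsplit and not inverting `ζ`. -/
theorem exists_hesse_cusp {a b : ℤ} (hd : a ^ 3 ≠ b ^ 2) (ha : a ≠ 0) {ζ : Qbar}
    (hζ : IsPrimitiveRoot ζ 5) :
    ∃ (g : GQ) (rc M : Qbar), g ζ ≠ ζ⁻¹ ∧ M ≠ 0 ∧ g rc = rc ∧ g M = -M ∧
      hesseB (a : Qbar) b rc = -M ^ 2 ∧
      hesseA (a : Qbar) b rc ^ 3 = hesseB (a : Qbar) b rc ^ 2 := by
  classical
  have hdQ : (a : Qbar) ^ 3 ≠ (b : Qbar) ^ 2 := by exact_mod_cast hd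
  obtain ⟨g, u, w, ω, e, h4, h6, hω2, hgζ, hgu, hgw, hgs⟩ := exists_signed_hessePair hd hζ
  have hu0 : u ≠ 0 := by
    intro h
    rw [h] at h4
    simp [hesse4] at h4
    exact ha (by exact_mod_cast h4.symm)
  have hw0 : w ≠ 0 := hesse_w_ne_zero hdQ h4 h6
  have hs0 : (2 * ω + 1) ≠ 0 := fun h => by
    have h3 : (3 : Qbar) = 0 := by linear_combination 4 * hω2 - (2 * ω + 1) * h
    norm_num at h3
  have he2 : e ^ 2 = 1 := by rcases hgu with rfl | rfl <;> norm_num
  set u' := 36 * w / u ^ 2 with hu'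
  refine ⟨g, -1 / u ^ 2, (2 * ω + 1) / 9 * u' ^ 3, hgζ, ?_, ?_, ?_, ?_⟩
  · exact mul_ne_zero (div_ne_zero hs0 (by norm_num))
      (pow_ne_zero _ (div_ne_zero (mul_ne_zero (by norm_num) hw0) (pow_ne_zero _ hu0)))
  · rw [map_div₀, map_neg, map_one, map_pow, hgw.1, mul_pow, he2, one_mul]
  · rw [map_mul, map_div₀, map_pow, hgs, hu', map_div₀, map_mul, map_pow, hgw.1, hgw.2, map_ofNat,
      map_ofNat, mul_pow, he2, one_mul]
    linear_combination (-((2 * ω + 1) / 9 * (36 * w / u ^ 2) ^ 3) * (e ^ 2 + 1)) * he2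
  have eU : lineHesseU u w (-1 / u ^ 2) = u' := by
    rw [hu', lineHesseU]; field_simp; ring
  have eW : 27 * lineHesseW u w (-1 / u ^ 2) = u' ^ 3 := by
    rw [hu', lineHesseW]; field_simp; ring
  have eA : hesseA (a : Qbar) b (-1 / u ^ 2) = u' ^ 4 / 9 := by
    rw [← h4, ← h6, ← hesse4_line, eU, hesse4]
    linear_combination (-(8 / 9) * u') * eW
  have eB : hesseB (a : Qbar) b (-1 / u ^ 2) = u' ^ 6 / 27 := by
    rw [← h4, ← h6, ← hesse6_line, eU, hesse6]
    linear_combination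
      (36 / 27 * u' ^ 3 - 216 / 729 * (27 * lineHesseW u w (-1 / u ^ 2) + u' ^ 3)) * eW
  constructor
  · rw [eB]
    linear_combination (4 / 81 * u' ^ 6) * hω2
  · rw [eA, eB]; ring

end FermatAgent.Switch2
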