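import Mathlib.Tactic.LinearCombination
import Mathlib.Tactic.Ring
import Mathlib.Algebra.Ring.Hom.Defs

/-!
# The forms of level three and the linear family of curves with the same three torsion

`(hesse4 u w, hesse6 u w)` are `(c₄, c₆)` of a curve on which `(3 u², 108 w)` has order three;
with `v³ = u³ - 27 w` the family is the line `(u + s (u³ - 36 w), v (1 + u² s))`.
-/

set_option autoImplicit false

namespace FermatAgent.Switch2

universe u v

variable {R : Type u} [CommRing R]

/-- `c₄` at `(u, w)`. -/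
def hesse4 (u w : R) : R := u ^ 4 - 24 * u * w

/-- `c₆` at `(u, w)`. -/
def hesse6 (u w : R) : R := -u ^ 6 + 36 * u ^ 3 * w - 216 * w ^ 2

/-- `u` along the family. -/
def lineHesseU (u w s : R) : R := u + s * (u ^ 3 - 36 * w)

/-- `w` along the family. -/
def lineHesseW (u w s : R) : R :=
  w * (1 - u ^ 2 * s + (-5 * u ^ 4 + 144 * u * w) * s ^ 2
    + (-3 * u ^ 6 + 144 * u ^ 3 * w - 1728 * w ^ 2) * s ^ 3)

/-- `c₄` of the member at `s` of the family of `(a, b)`. -/
def hesseA (a b s : R) : R :=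
  a - 4 * b * s + 6 * a ^ 2 * s ^ 2 - 4 * a * b * s ^ 3 + (4 * b ^ 2 - 3 * a ^ 3) * s ^ 4

/-- `c₆` of the member at `s` of the family of `(a, b)`. -/
def hesseB (a b s : R) : R :=
  b - 6 * a ^ 2 * s + 15 * a * b * s ^ 2 - 20 * b ^ 2 * s ^ 3 + 15 * a ^ 2 * b * s ^ 4
    + (12 * a * b ^ 2 - 18 * a ^ 4) * s ^ 5 + (9 * a ^ 3 * b - 8 * b ^ 3) * s ^ 6

/-- The factor of the discriminant of the member at `s`. -/
def hesseR (a b s : R) : R := 1 - 6 * a * s ^ 2 + 8 * b * s ^ 3 - 3 * a ^ 2 * s ^ 4

/-- The discriminant of the forms of level three. -/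
theorem hesse_disc (u w : R) :
    hesse4 u w ^ 3 - hesse6 u w ^ 2 = 1728 * w ^ 3 * (u ^ 3 - 27 * w) := by
  simp only [hesse4, hesse6]; ring

/-- On the line the quartic form is the first coefficient of the family. -/
theorem hesse4_line (u w s : R) :
    hesse4 (lineHesseU u w s) (lineHesseW u w s) = hesseA (hesse4 u w) (hesse6 u w) s := by
  simp only [hesse4, hesse6, lineHesseU, lineHesseW, hesseA]; ring

/-- On the line the sextic form is the second coefficient of the family. -/
theorem hesse6_line (u w s : R) :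
    hesse6 (lineHesseU u w s) (lineHesseW u w s) = hesseB (hesse4 u w) (hesse6 u w) s := by
  simp only [hesse4, hesse6, lineHesseU, lineHesseW, hesseB]; ring

/-- The discriminant of the family is that of the curve times a cube. -/
theorem hesse_family_disc (a b s : R) :
    hesseA a b s ^ 3 - hesseB a b s ^ 2 = (a ^ 3 - b ^ 2) * hesseR a b s ^ 3 := by
  simp only [hesseA, hesseB, hesseR]; ring

/-- The forms of level three are even. -/
theorem hesse_neg (u w : R) : hesse4 (-u) (-w) = hesse4 u w ∧ hesse6 (-u) (-w) = hesse6 u w := by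
  constructor <;> simp only [hesse4, hesse6] <;> ring

/-- The line starts at `(u, w)`. -/
theorem lineHesse_zero (u w : R) : lineHesseU u w 0 = u ∧ lineHesseW u w 0 = w := by
  constructor <;> simp only [lineHesseU, lineHesseW] <;> ring

/-- The family starts at the curve. -/
theorem hesseA_zero (a b : R) : hesseA a b 0 = a ∧ hesseB a b 0 = b := by
  constructor <;> simp only [hesseA, hesseB] <;> ring

variable {S : Type v} [CommRing S]

/-- The forms commute with ring homomorphisms. -/
theorem map_hesse (φ : R →+* S) (u w : R) :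
    φ (hesse4 u w) = hesse4 (φ u) (φ w) ∧ φ (hesse6 u w) = hesse6 (φ u) (φ w) := by
  constructor <;> simp [hesse4, hesse6, map_ofNat]

/-- The line commutes with ring homomorphisms. -/
theorem map_lineHesse (φ : R →+* S) (u w s : R) :
    φ (lineHesseU u w s) = lineHesseU (φ u) (φ w) (φ s) ∧
      φ (lineHesseW u w s) = lineHesseW (φ u) (φ w) (φ s) := by
  constructor <;> simp [lineHesseU, lineHesseW, map_ofNat]

/-- The family commutes with ring homomorphisms. -/
theorem map_hesseAB (φ : R →+* S) (a b s : R) :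
    φ (hesseA a b s) = hesseA (φ a) (φ b) (φ s) ∧ φ (hesseB a b s) = hesseB (φ a) (φ b) (φ s) := by
  constructor <;> simp [hesseA, hesseB, map_ofNat]

/-- The family at `r` is congruent to `(a, b, 1)` modulo the divisors of `r`. -/
lemma hesse_sub_dvd {a b r M : ℤ} (hM : M ∣ r) :
    M ∣ hesseA a b r - a ∧ M ∣ hesseB a b r - b ∧ M ∣ hesseR a b r - 1 := by
  refine ⟨hM.trans ⟨-4 * b + 6 * a ^ 2 * r - 4 * a * b * r ^ 2
      + (4 * b ^ 2 - 3 * a ^ 3) * r ^ 3, ?_⟩,
    hM.trans ⟨-6 * a ^ 2 + 15 * a * b * r - 20 * b ^ 2 * r ^ 2 + 15 * a ^ 2 * b * r ^ 3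
      + (12 * a * b ^ 2 - 18 * a ^ 4) * r ^ 4 + (9 * a ^ 3 * b - 8 * b ^ 3) * r ^ 5, ?_⟩,
    hM.trans ⟨-6 * a * r + 8 * b * r ^ 2 - 3 * a ^ 2 * r ^ 3, ?_⟩⟩
  · simp only [hesseA]; ring
  · simp only [hesseB]; ring
  · simp only [hesseR]; ring

end FermatAgent.Switch2
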