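import Fermat.Agent.Switch.Points
import Fermat.Agent.Switch2.HesseForms

/-!
# Three torsion points of `y² = x³ - 27 c₄ x - 54 c₆`
-/

set_option autoImplicit false

noncomputable section

open WeierstrassCurve WeierstrassCurve.Affine
open FermatAgent.EC (mapPoint mapPoint_some)

namespace FermatAgent.Switch2

open FermatAgent.Switch

universe u

variable {k : Type u} [Field k] [CharZero k] {a b : k} (hd : a ^ 3 ≠ b ^ 2)

omit [CharZero k] in
include hd in
/-- The parameter `w` is nonzero on a nonsingular curve. -/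
lemma hesse_w_ne_zero {u w : k} (h4 : hesse4 u w = a) (h6 : hesse6 u w = b) : w ≠ 0 := by
  rintro rfl
  exact hd (sub_eq_zero.1 (by rw [← h4, ← h6, hesse_disc]; ring))

include hd in
/-- `(3 u², 108 w)` is a nonsingular point of the curve. -/
lemma hesse_nonsingular {u w : k} (h4 : hesse4 u w = a) (h6 : hesse6 u w = b) :
    (shortCurve a b).toAffine.Nonsingular (3 * u ^ 2) (108 * w) := by
  refine (equation_iff_nonsingular_of_Δ_ne_zero (shortCurve_Δ_ne_zero hd)).1 ?_
  rw [shortCurve_equation_iff, ← h4, ← h6]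
  simp only [hesse4, hesse6]
  ring

/-- The point attached to `(u, w)`. -/
def hessePt {u w : k} (h4 : hesse4 u w = a) (h6 : hesse6 u w = b) :
    (shortCurve a b).toAffine.Point :=
  .some _ _ (hesse_nonsingular hd h4 h6)

include hd in
/-- Distinct parameters give distinct points. -/
lemma hesse_inj {u w u' w' : k} {h4 : hesse4 u w = a} {h6 : hesse6 u w = b}
    {h4' : hesse4 u' w' = a} {h6' : hesse6 u' w' = b}
    (h : hessePt hd h4' h6' = hessePt hd h4 h6) : u' = u ∧ w' = w := by
  rw [hessePt, hessePt] at h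
  simp only [Point.some.injEq] at h
  have hw : w' = w := mul_left_cancel₀ (show (108 : k) ≠ 0 by norm_num) h.2
  have hu : u' ^ 2 = u ^ 2 := mul_left_cancel₀ (show (3 : k) ≠ 0 by norm_num) h.1
  have h0 : 24 * w * (u' - u) = 0 := by
    have e := h4'.trans h4.symm
    rw [hw] at e
    simp only [hesse4] at e
    linear_combination -e + (u' ^ 2 + u ^ 2) * hu
  exact ⟨sub_eq_zero.1 ((mul_eq_zero.1 h0).resolve_left
    (mul_ne_zero (by norm_num) (hesse_w_ne_zero hd h4 h6))), hw⟩

variable [DecidableEq k]

include hd in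
/-- The point is killed by three. -/
lemma three_nsmul_hessePt {u w : k} (h4 : hesse4 u w = a) (h6 : hesse6 u w = b) :
    (3 : ℕ) • hessePt hd h4 h6 = 0 := by
  have hw := hesse_w_ne_zero hd h4 h6
  obtain ⟨h', e⟩ := nsmul_two_some (hesse_nonsingular hd h4 h6)
    (mul_ne_zero (by norm_num) hw) (l := 3 * u) (by rw [← h4]; simp only [hesse4]; ring)
  rw [succ_nsmul, hessePt, e, ← eq_neg_iff_add_eq_zero, Point.neg_some]
  rw [Point.some.injEq]
  constructor
  · ring
  · simp only [WeierstrassCurve.Affine.negY, shortCurve, WeierstrassCurve.toAffine]; ring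

include hd in
/-- Every point of exact order three is attached to some `(u, w)`. -/
theorem exists_hessePt_eq {P : (shortCurve a b).toAffine.Point} (hP : P ≠ 0)
    (h3 : (3 : ℕ) • P = 0) :
    ∃ (u w : k) (h4 : hesse4 u w = a) (h6 : hesse6 u w = b), hessePt hd h4 h6 = P := by
  rcases P with _ | ⟨x, y, h⟩
  · exact absurd rfl hP
  have hy : y ≠ 0 := by
    intro hy
    apply hP
    have h2 : (2 : ℕ) • Point.some x y h = 0 := by
      rw [two_nsmul]
      exact Point.add_self_of_Y_eq (by simp [negY, shortCurve, hy])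
    rwa [show (3 : ℕ) = 2 + 1 from rfl, add_nsmul, h2, zero_add, one_nsmul] at h3
  set l := (3 * x ^ 2 - 27 * a) / (2 * y) with hl
  have hl' : l * (2 * y) = 3 * x ^ 2 - 27 * a :=
    div_mul_cancel₀ _ (mul_ne_zero (by norm_num) hy)
  obtain ⟨h', e⟩ := nsmul_two_some h hy hl'
  rw [succ_nsmul, e, ← eq_neg_iff_add_eq_zero, Point.neg_some, Point.some.injEq] at h3
  simp only [negY, shortCurve] at h3
  have hx : x = 3 * (l / 3) ^ 2 := by linear_combination -(h3.1) / 3
  have hw : y = 108 * (y / 108) := by ring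
  have h4 : hesse4 (l / 3) (y / 108) = a := by
    simp only [hesse4]
    linear_combination -(1 / 27 : k) * hl' - (1 / 9 : k) * (x + 3 * (l / 3) ^ 2) * hx
  have heq := (shortCurve_equation_iff a b x y).1 h.1
  have h6 : hesse6 (l / 3) (y / 108) = b := by
    simp only [hesse6]
    rw [← h4, hx] at heq
    simp only [hesse4] at heq
    linear_combination -(1 / 54 : k) * heq
  refine ⟨_, _, h4, h6, ?_⟩
  rw [hessePt]
  simp only [Point.some.injEq]
  exact ⟨hx.symm, hw.symm⟩

end FermatAgent.Switch2
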