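import Fermat.Agent.Switch.Family
import Mathlib.Tactic.ComputeDegree
import Mathlib.Tactic.FieldSimp

/-!
# The member of the congruent family at `r = c₄ / (2 c₆)`
-/

set_option autoImplicit false

namespace FermatAgent.Switch2

open FermatAgent.Switch Polynomial

universe u

/-- `(2 c₆)^20` times `c₄` of the member at `c₄ / (2 c₆)`. -/
def halfA {R : Type u} [CommRing R] (a b : R) : R :=
  a * (11534336 * b ^ 20
      + 572784640 * (a ^ 3) * b ^ 18
      + (-2088173568) * (a ^ 3) ^ 2 * b ^ 16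
      + 40798453760 * (a ^ 3) ^ 3 * b ^ 14
      + 19573202944 * (a ^ 3) ^ 4 * b ^ 12
      + 3310049280 * (a ^ 3) ^ 5 * b ^ 10
      + (-96379827712) * (a ^ 3) ^ 6 * b ^ 8
      + 44244801280 * (a ^ 3) ^ 7 * b ^ 6
      + (-10696487184) * (a ^ 3) ^ 8 * b ^ 4
      + 3955918500 * (a ^ 3) ^ 9 * b ^ 2
      + 184528125 * (a ^ 3) ^ 10)

/-- `(2 c₆)^30` times `c₆` of the member at `c₄ / (2 c₆)`. -/
def halfB {R : Type u} [CommRing R] (a b : R) : R :=
  1073741824 * b ^ 31
      + 522106961920 * (a ^ 3) * b ^ 29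
      + 6198510223360 * (a ^ 3) ^ 2 * b ^ 27
      + 170951895416832 * (a ^ 3) ^ 3 * b ^ 25
      + (-1770153301770240) * (a ^ 3) ^ 4 * b ^ 23
      + (-982576838737920) * (a ^ 3) ^ 5 * b ^ 21
      + (-17378689851064320) * (a ^ 3) ^ 6 * b ^ 19
      + 6548674802810880 * (a ^ 3) ^ 7 * b ^ 17
      + 32259594052485120 * (a ^ 3) ^ 8 * b ^ 15
      + (-20380950697922560) * (a ^ 3) ^ 9 * b ^ 13
      + 11884557907500032 * (a ^ 3) ^ 10 * b ^ 11
      + (-15414188581262080) * (a ^ 3) ^ 11 * b ^ 9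
      + 6356731347633600 * (a ^ 3) ^ 12 * b ^ 7
      + (-1025007654617424) * (a ^ 3) ^ 13 * b ^ 5
      + (-43243108132500) * (a ^ 3) ^ 14 * b ^ 3
      + (-26530531171875) * (a ^ 3) ^ 15 * b

section

/-- Two polynomials of degree `< n` agreeing at `0, …, n - 1` are equal. -/
private lemma eq_of_eval_range {P Q : ℤ[X]} {n : ℕ} (hP : P.natDegree < n) (hQ : Q.natDegree < n)
    (h : ∀ i ∈ List.range n, P.eval (i : ℤ) = Q.eval (i : ℤ)) : P = Q := by
  refine eq_of_natDegree_lt_card_of_eval_eq' P Q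
    ((Finset.range n).map ⟨fun i : ℕ => (i : ℤ), Nat.cast_injective⟩) (fun x hx => ?_) ?_
  · obtain ⟨i, hi, rfl⟩ := Finset.mem_map.1 hx
    exact h i (List.mem_range.2 (Finset.mem_range.1 hi))
  · rw [Finset.card_map, Finset.card_range]; exact max_lt hP hQ

variable {R : Type u} [CommRing R]

/-- `U` of the member at `(t, 1)`, times `(2 c₆)^5`. -/
def halfU (t : R) : R := t * (2 * klein6 t 1 - klein4 t 1 * (t ^ 2 + 66 * t - 11)) ^ 5

/-- `V` of the member at `(t, 1)`, times `(2 c₆)^5`. -/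
def halfV (t : R) : R := (2 * klein6 t 1 + klein4 t 1 * (11 * t ^ 2 + 66 * t - 1)) ^ 5

/-- The identity of degree 186, by evaluation at `0, …, 186`. -/
lemma klein6_half_one (t : R) :
    klein6 (halfU t) (halfV t) = halfB (klein4 t 1) (klein6 t 1) := by
  have h : klein6 (halfU (X : ℤ[X])) (halfV X) = halfB (klein4 X 1) (klein6 X 1) := by
    refine eq_of_eval_range (n := 187) ?_ ?_ ?_
    · rw [Nat.lt_succ_iff]; simp only [halfU, halfV, klein4, klein6]; compute_degree
    · rw [Nat.lt_succ_iff]; simp only [halfB, klein4, klein6]; compute_degree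
    · simp only [halfU, halfV, halfB, klein4, klein6, eval_add, eval_sub, eval_mul, eval_pow,
        eval_neg, eval_ofNat, eval_one, eval_X]
      decide +kernel
  have h' := congrArg (aeval t) h
  simpa [halfU, halfV, klein4, klein6, halfB, map_ofNat] using h'

/-- The identity of degree 124, by evaluation at `0, …, 124`. -/
lemma klein4_half_one (t : R) :
    klein4 (halfU t) (halfV t) = halfA (klein4 t 1) (klein6 t 1) := by
  have h : klein4 (halfU (X : ℤ[X])) (halfV X) = halfA (klein4 X 1) (klein6 X 1) := by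
    refine eq_of_eval_range (n := 125) ?_ ?_ ?_
    · rw [Nat.lt_succ_iff]; simp only [halfU, halfV, klein4, klein6]; compute_degree
    · rw [Nat.lt_succ_iff]; simp only [halfA, klein4, klein6]; compute_degree
    · simp only [halfU, halfV, halfA, klein4, klein6, eval_add, eval_sub, eval_mul, eval_pow,
        eval_neg, eval_ofNat, eval_one, eval_X]
      decide +kernel
  have h' := congrArg (aeval t) h
  simpa [halfU, halfV, klein4, klein6, halfA, map_ofNat] using h'

lemma klein_scale (c U V : R) :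
    klein4 (c * U) (c * V) = c ^ 4 * klein4 U V ∧ klein6 (c * U) (c * V) = c ^ 6 * klein6 U V := by
  constructor <;> simp only [klein4, klein6] <;> ring

lemma half_scale (c a b : R) :
    halfA (c ^ 4 * a) (c ^ 6 * b) = c ^ 124 * halfA a b ∧
      halfB (c ^ 4 * a) (c ^ 6 * b) = c ^ 186 * halfB a b := by
  constructor <;> simp only [halfA, halfB] <;> ring

end

variable {k : Type u} [Field k] {U V : k}

/-- The member at `r = c₄ / (2 c₆)`. -/
theorem klein_half (hV : V ≠ 0) (hb : (2 : k) * klein6 U V ≠ 0) :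
    (2 * klein6 U V) ^ 20 * klein4 (flowU U V (klein4 U V / (2 * klein6 U V)))
        (flowV U V (klein4 U V / (2 * klein6 U V))) = halfA (klein4 U V) (klein6 U V) ∧
      (2 * klein6 U V) ^ 30 * klein6 (flowU U V (klein4 U V / (2 * klein6 U V)))
        (flowV U V (klein4 U V / (2 * klein6 U V))) = halfB (klein4 U V) (klein6 U V) := by
  set D := 2 * klein6 U V with hD
  set r := klein4 U V / D with hr
  have hDr : D * r = klein4 U V := mul_div_cancel₀ _ hb
  obtain ⟨t, rfl⟩ : ∃ t, U = V * t := ⟨U / V, (mul_div_cancel₀ U hV).symm⟩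
  obtain ⟨e4, e6⟩ := klein_scale V t (1 : k)
  rw [mul_one] at e4 e6
  have eU : D ^ 5 * flowU (V * t) V r = V ^ 31 * halfU t := by
    rw [halfU, flowU,
      show D ^ 5 * (V * t * (1 - r * ((V * t) ^ 2 + 66 * (V * t) * V - 11 * V ^ 2)) ^ 5) =
      V * t * (D - D * r * ((V * t) ^ 2 + 66 * (V * t) * V - 11 * V ^ 2)) ^ 5 by ring, hDr, hD,
      e4, e6]
    ring
  have eV : D ^ 5 * flowV (V * t) V r = V ^ 31 * halfV t := by
    rw [halfV, flowV,
      show D ^ 5 * (V * (1 + r * (11 * (V * t) ^ 2 + 66 * (V * t) * V - V ^ 2)) ^ 5) =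
      V * (D + D * r * (11 * (V * t) ^ 2 + 66 * (V * t) * V - V ^ 2)) ^ 5 by ring, hDr, hD, e4, e6]
    ring
  constructor
  · rw [show D ^ 20 * klein4 (flowU (V * t) V r) (flowV (V * t) V r) =
        klein4 (D ^ 5 * flowU (V * t) V r) (D ^ 5 * flowV (V * t) V r) by
      rw [(klein_scale (D ^ 5) _ _).1]; ring, eU, eV, (klein_scale (V ^ 31) _ _).1,
      klein4_half_one, e4, e6, (half_scale V _ _).1]
    ring
  · rw [show D ^ 30 * klein6 (flowU (V * t) V r) (flowV (V * t) V r) =
        klein6 (D ^ 5 * flowU (V * t) V r) (D ^ 5 * flowV (V * t) V r) by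
      rw [(klein_scale (D ^ 5) _ _).2]; ring, eU, eV, (klein_scale (V ^ 31) _ _).2,
      klein6_half_one, e4, e6, (half_scale V _ _).2]
    ring

end FermatAgent.Switch2
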