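import Fermat.Agent.Switch.NonsplitPrime

/-!
# Nonsplit primes which are not `-1` modulo `5`
-/

set_option autoImplicit false

noncomputable section

open Polynomial

namespace FermatAgent.Switch2

open FermatAgent.Switch

local notation "Qbar" => AlgebraicClosure ℚ

/-- The primes with prescribed nodal fibre can avoid `-1` modulo `5`. -/
theorem exists_nonsplit_prime_five {A B : ℚ[X]} {g : Qbar ≃ₐ[ℚ] Qbar} {rc M : Qbar}
    {ζ : Qbar} (hζ : IsPrimitiveRoot ζ 5)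
    (hgζ : g ζ ≠ ζ⁻¹) (hM : M ≠ 0) (hrc : g rc = rc)
    (hgM : g M = -M) (hB : aeval rc B = -M ^ 2)
    (hAB : aeval rc A ^ 3 = aeval rc B ^ 2) (S : Finset ℕ) :
    ∃ ℓ : ℕ, ℓ.Prime ∧ ℓ ∉ S ∧ (ℓ : ZMod 5) ≠ -1 ∧ ∃ ρ : ℤ, ∀ r a' b' : ℤ, (ℓ : ℤ) ∣ r - ρ →
      A.eval (r : ℚ) = a' → B.eval (r : ℚ) = b' →
      (ℓ : ℤ) ∣ a' ^ 3 - b' ^ 2 ∧ ¬IsSquare ((-b' : ℤ) : ZMod ℓ) := by
  obtain ⟨ℓ, V, σ, j, k, hℓ, hℓS, hV, hσ, hfix, hρ⟩ :=
    exists_nonsplit_frobenius ζ hM hrc hgM hB hAB (S ∪ {5})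
  simp only [Finset.mem_union, Finset.mem_singleton, not_or] at hℓS
  have hσζ : σ ζ = ζ ^ ℓ := Mazur.frobenius_rootsOfUnity hℓ hV
    (fun h => hℓS.2 ((Nat.prime_dvd_prime_iff_eq hℓ (by norm_num : Nat.Prime 5)).1 h))
    (by norm_num) hσ hζ.pow_eq_one
  refine ⟨ℓ, hℓ, hℓS.1, ?_, hρ⟩
  intro h
  have h4 : ℓ % 5 = 4 := by
    rw [← ZMod.val_natCast, h]; rfl
  have hinv : σ ζ = ζ⁻¹ := by
    rw [hσζ, pow_eq_pow_mod ℓ hζ.pow_eq_one, h4]
    exact eq_inv_of_mul_eq_one_left (by rw [← pow_succ]; exact hζ.pow_eq_one)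
  have key : ∀ m : ℕ, (σ ^ m) ζ = if Even m then ζ else ζ⁻¹ := by
    intro m
    induction m with
    | zero => rfl
    | succ m ih =>
      rw [pow_succ', AlgEquiv.mul_apply, ih]
      rcases Nat.even_or_odd m with e | e
      · rw [if_pos e, if_neg (fun h => (Nat.even_add_one.1 h) e), hinv]
      · rw [if_neg (Nat.not_even_iff_odd.2 e), if_pos (Odd.add_one e), map_inv₀, hinv, inv_inv]
  obtain ⟨e1, e2⟩ := hfix
  rw [key] at e2
  split_ifs at e2 with he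
  · rw [pow_apply_eq_self g e2, hinv] at e1
    have h2 : ζ ^ 2 = 1 := by
      nth_rewrite 1 [pow_two]
      nth_rewrite 1 [← e1]
      exact inv_mul_cancel₀ (hζ.ne_zero (by norm_num))
    exact absurd (hζ.dvd_of_pow_eq_one 2 h2) (by norm_num)
  · exact hgζ e2

end FermatAgent.Switch2
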