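import Fermat.Agent.Switch2.HesseCusp
import Fermat.Agent.Switch2.NonsplitPrimeFive
import Fermat.Agent.Switch2.StepHesse

/-!
# A curve with the same three torsion and irreducible five torsion

A semistable curve with a nonsplit multiplicative prime `ℓ ≥ 7`, `ℓ ≢ -1 (mod 5)`, has
irreducible `5`-torsion; such primes occur in the Hesse family of the curve.
-/

set_option autoImplicit false

noncomputable section

open WeierstrassCurve Polynomial

namespace FermatAgent.Switch2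

open FermatAgent.Switch

local notation "Qbar" => AlgebraicClosure ℚ

/-- `c₄` of a semistable model is not zero. -/
lemma c₄_ne_zero {W : WeierstrassCurve ℤ} (hW : W.IsSemistableModel) : W.c₄ ≠ 0 := by
  intro h
  have h1 : W.Δ.natAbs = 1 := by
    by_contra hne
    obtain ⟨p, hp, hpd⟩ := Nat.exists_prime_and_dvd hne
    exact hW p hp (Int.natCast_dvd.2 hpd) (h ▸ dvd_zero _)
  have hrel := W.c_relation
  rw [h] at hrel
  have hsq : W.c₆ ^ 2 = 1728 := by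
    rcases Int.natAbs_eq W.Δ with e | e <;> rw [h1] at e <;> rw [e] at hrel <;>
      push_cast at hrel <;> nlinarith [sq_nonneg W.c₆]
  have h2 : W.c₆.natAbs ^ 2 = 1728 := by
    exact_mod_cast (Int.natAbs_sq W.c₆).trans hsq
  have h41 : 41 < W.c₆.natAbs := by
    by_contra hc
    have := Nat.pow_le_pow_left (not_lt.1 hc) 2
    omega
  have h42 : W.c₆.natAbs < 42 := by
    by_contra hc
    have := Nat.pow_le_pow_left (not_lt.1 hc) 2
    omega
  omega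

lemma twenty_seven_dvd_c₆ {W : WeierstrassCurve ℤ} (h : (3 : ℤ) ∣ W.c₄) :
    (27 : ℤ) ∣ W.c₆ := by
  obtain ⟨k, hk⟩ : (3 : ℤ) ∣ W.b₂ := Int.prime_three.dvd_of_dvd_pow (n := 2) (by
    obtain ⟨m, hm⟩ := h
    rw [WeierstrassCurve.c₄] at hm
    exact ⟨m + 8 * W.b₄, by linear_combination hm⟩)
  rw [WeierstrassCurve.c₆, hk]
  exact ⟨-k ^ 3 + 4 * k * W.b₄ - 8 * W.b₆, by ring⟩

/-- A member of the Hesse family through `(a, b)`, at a parameter divisible by `30 ^ 20 D`, with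
nonsplit multiplicative reduction at a prime `ℓ ≥ 7` which is not `-1` modulo `5`. -/
lemma exists_nonsplit_member {a b D : ℤ} (hd : a ^ 3 ≠ b ^ 2) (ha : a ≠ 0) (hD : D ≠ 0) :
    ∃ (r : ℤ) (ℓ : ℕ), 30 ^ 20 * D ∣ r ∧ ℓ.Prime ∧ 7 ≤ ℓ ∧ (ℓ : ZMod 5) ≠ -1 ∧
      (ℓ : ℤ) ∣ hesseA a b r ^ 3 - hesseB a b r ^ 2 ∧
      ¬IsSquare ((-hesseB a b r : ℤ) : ZMod ℓ) := by
  obtain ⟨ζ, hζ⟩ := HasEnoughRootsOfUnity.exists_primitiveRoot Qbar 5
  obtain ⟨g, rc, M, hgζ, hM, hrc, hgM, hB, hAB⟩ := exists_hesse_cusp hd ha hζ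
  set A : ℚ[X] := hesseA (C (a : ℚ)) (C (b : ℚ)) Polynomial.X with hAdef
  set B : ℚ[X] := hesseB (C (a : ℚ)) (C (b : ℚ)) Polynomial.X with hBdef
  have hev : aeval rc A = hesseA (a : Qbar) b rc ∧ aeval rc B = hesseB (a : Qbar) b rc := by
    have h := map_hesseAB (aeval rc : ℚ[X] →ₐ[ℚ] Qbar).toRingHom (C (a : ℚ)) (C (b : ℚ))
      Polynomial.X
    simpa [hAdef, hBdef] using h
  have hevℚ : ∀ r : ℤ, A.eval (r : ℚ) = (hesseA a b r : ℤ) ∧
      B.eval (r : ℚ) = (hesseB a b r : ℤ) := fun r => by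
    have h := map_hesseAB (evalRingHom (r : ℚ)) (C (a : ℚ)) (C (b : ℚ)) Polynomial.X
    have h' := map_hesseAB (Int.castRingHom ℚ) a b r
    simp at h h'
    simp [hAdef, hBdef, h, h'.1, h'.2]
  obtain ⟨ℓ, hℓ, hℓS, hℓmod, ρ, hρ⟩ := exists_nonsplit_prime_five (A := A) (B := B) hζ hgζ hM hrc
    hgM (hev.2.trans hB) (by rw [hev.1, hev.2]; exact hAB) (30 * D.natAbs).primeFactors
  have hℓn : ¬ℓ ∣ 30 * D.natAbs := fun h => hℓS (Nat.mem_primeFactors.2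
    ⟨hℓ, h, mul_ne_zero (by norm_num) (Int.natAbs_ne_zero.2 hD)⟩)
  have hℓ7 : 7 ≤ ℓ := by
    have h30 : ∀ p ∈ [2, 3, 5], ℓ ≠ p := fun p hp e => hℓn (dvd_mul_of_dvd_left (by
      simp only [List.mem_cons, List.not_mem_nil, or_false] at hp
      rcases hp with rfl | rfl | rfl <;> subst e <;> norm_num) _)
    have h2 := h30 2 (by simp)
    have h3 := h30 3 (by simp)
    have h5 := h30 5 (by simp)
    by_contra h
    have := hℓ.two_le
    have h46 : ℓ ≠ 4 ∧ ℓ ≠ 6 := by constructor <;> rintro rfl <;> norm_num at hℓ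
    omega
  set M₀ : ℤ := 30 ^ 20 * D with hM₀
  have hℓi := Nat.prime_iff_prime_int.1 hℓ
  obtain ⟨u, v, huv⟩ : IsCoprime M₀ (ℓ : ℤ) := by
    refine ((hℓi.coprime_iff_not_dvd).2 fun h => hℓn ?_).symm
    rcases hℓi.dvd_mul.1 h with h | h
    · exact dvd_mul_of_dvd_left (Int.natCast_dvd_natCast.1
        (show (ℓ : ℤ) ∣ ((30 : ℕ) : ℤ) from hℓi.dvd_of_dvd_pow h)) _
    · exact dvd_mul_of_dvd_right (Int.natCast_dvd.1 h) _
  set r : ℤ := M₀ * (u * ρ) with hr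
  obtain ⟨hℓd, hns⟩ := hρ r _ _ ⟨-v * ρ, by rw [hr]; linear_combination ρ * huv⟩
    (hevℚ r).1 (hevℚ r).2
  exact ⟨r, ℓ, dvd_mul_right _ _, hℓ, hℓ7, hℓmod, hℓd, hns⟩

/-- **The switch at three to irreducible five torsion.** Every semistable curve has a switch at
`3` with irreducible `5`-torsion: take a member of the Hesse family congruent to the curve at `30`
and at its bad primes, with a nonsplit multiplicative prime `ℓ` not `-1` modulo `5`. -/
theorem exists_five_irreducible {W : WeierstrassCurve ℤ} (hΔ : W.Δ ≠ 0)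
    (hW : W.IsSemistableModel) :
    ∃ X : WeierstrassCurve ℤ, IsSwitch 3 W X ∧ X.ModRepIsIrreducible 5 := by
  classical
  have : Fact (Nat.Prime 3) := ⟨Nat.prime_three⟩
  set a := W.c₄ with ha
  set b := W.c₆ with hb
  have hd : a ^ 3 ≠ b ^ 2 := c₄_cube_ne_c₆_sq hΔ
  obtain ⟨r, ℓ, hMr, hℓ, hℓ7, hℓmod, hℓd, hns⟩ :=
    exists_nonsplit_member hd (c₄_ne_zero hW) hΔ
  have hℓi := Nat.prime_iff_prime_int.1 hℓ
  set M₀ : ℤ := 30 ^ 20 * W.Δ with hM₀
  obtain ⟨dA, dB, dR⟩ := hesse_sub_dvd (a := a) (b := b) hMr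
  have h30M : ∀ p ∈ [2, 3, 5], ((p : ℕ) : ℤ) ∣ M₀ := fun p hp => dvd_mul_of_dvd_left (by
    simp only [List.mem_cons, List.not_mem_nil, or_false] at hp
    rcases hp with rfl | rfl | rfl <;> norm_num) _
  set α := hesseA a b r with hα
  set β := hesseB a b r with hβ
  set R := hesseR a b r with hR
  have hRp : ∀ p : ℕ, p.Prime → (p : ℤ) ∣ M₀ → ¬(p : ℤ) ∣ R := fun p hp hpM h => by
    have h1 := dvd_sub h (hpM.trans dR)
    rw [sub_sub_cancel] at h1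
    exact hp.ne_one (Nat.dvd_one.1 (Int.natCast_dvd_natCast.1 h1))
  have hR0 : R ≠ 0 := fun h => hRp 3 Nat.prime_three (h30M 3 (by simp)) (h ▸ dvd_zero _)
  have hdisc : α ^ 3 - β ^ 2 = 1728 * (W.Δ * R ^ 3) := by
    rw [hα, hβ, hesse_family_disc, ← hR, ha, hb, ← W.c_relation]; ring
  have h10 : (10 : ℤ) ^ 20 ∣ M₀ := ⟨3 ^ 20 * W.Δ, by rw [hM₀]; ring⟩
  have h27 : (27 : ℤ) ∣ M₀ := ⟨3 ^ 17 * 10 ^ 20 * W.Δ, by rw [hM₀]; ring⟩
  obtain ⟨X, hX4, hX6, hXΔ, -⟩ := exists_model W (α := α) (β := β) (δ := W.Δ * R ^ 3) (ν := 1)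
    hdisc (by rw [one_pow, one_mul]; exact h10.trans dA)
    (by rw [one_pow, one_mul]; exact h10.trans dB) (by
      by_cases h : (3 : ℤ) ∣ a
      · refine Or.inr ⟨?_, ?_⟩
        · have := dvd_add ((h30M 3 (by simp)).trans dA) h
          rwa [sub_add_cancel] at this
        · have := dvd_add (h27.trans dB) (twenty_seven_dvd_c₆ h)
          rwa [sub_add_cancel] at this
      · refine Or.inl fun hα3 => h ?_
        have := dvd_sub hα3 ((h30M 3 (by simp)).trans dA)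
        rwa [sub_sub_cancel] at this)
  have hX0 : X.Δ ≠ 0 := hXΔ ▸ mul_ne_zero hΔ (pow_ne_zero _ hR0)
  have hTX : TorEquiv 3 W X := by
    refine (torEquiv_shortCurve 3 W).symm.trans ((torEquiv_hesse (s := r) hd ?_).trans ?_)
    · rw [← sub_ne_zero, ← hα, ← hβ, hdisc]
      exact mul_ne_zero (by norm_num) (mul_ne_zero hΔ (pow_ne_zero _ hR0))
    · rw [← hα, ← hβ, ← hX4, ← hX6]; exact torEquiv_shortCurve 3 X
  have hbad : ∀ p : ℕ, p.Prime → (p : ℤ) ∣ M₀ → (p : ℤ) ∣ X.Δ → ¬(p : ℤ) ∣ X.c₄ :=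
    fun p hp hpM hpΔ hp4 => by
    have hpi := Nat.prime_iff_prime_int.1 hp
    rw [hXΔ] at hpΔ
    have h1 : (p : ℤ) ∣ W.Δ :=
      (hpi.dvd_mul.1 hpΔ).resolve_right fun h => hRp p hp hpM (hpi.dvd_of_dvd_pow h)
    rw [hX4] at hp4
    have h2 := dvd_sub hp4 (hpM.trans dA)
    rw [sub_sub_cancel] at h2
    exact hW p hp h1 h2
  obtain ⟨X', hX'⟩ := exists_minimalisation X hX0
    (fun p hp => hbad p (by
      simp only [List.mem_cons, List.not_mem_nil, or_false] at hp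
      rcases hp with rfl | rfl | rfl <;> norm_num) (h30M p hp))
    fun Y hY hTY q hq hq7 hq4 hqΔ hY4 hYΔ =>
      scalable_three hY (hTX.trans hTY) hq (by omega)
        (fun hWq => hbad q hq (hWq.mul_left _) hqΔ hq4) hY4 hYΔ
  have : Fact ℓ.Prime := ⟨hℓ⟩
  have hℓX : (ℓ : ℤ) ∣ X.Δ := by
    rw [hdisc, ← hXΔ] at hℓd
    refine (hℓi.dvd_mul.1 hℓd).resolve_left fun h => ?_
    rw [show (1728 : ℤ) = ((2 ^ 6 * 3 ^ 3 : ℕ) : ℤ) by norm_num, Int.natCast_dvd_natCast] at h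
    rcases (Nat.Prime.dvd_mul hℓ).1 h with h | h <;>
      have := Nat.le_of_dvd (by norm_num) (hℓ.dvd_of_dvd_pow h) <;> omega
  obtain ⟨hd', hns'⟩ := nonsplit_transfer hX' hℓ hℓX (by rw [hX6]; exact hns)
  refine ⟨X', ⟨hX'.1, hX'.2.1, hTX.trans hX'.2.2.1, fun hg hd3 => hg ?_⟩,
    modRepIsIrreducible_five_of_nonsplit hX'.1 hX'.2.1 hℓ7 hℓmod hd' hns'⟩
  obtain ⟨d, -, -, -, -, eΔ⟩ := at_three_transfer hX'
    (fun h => hbad 3 Nat.prime_three (h30M 3 (by simp)) h)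
  have h3X : (3 : ℤ) ∣ W.Δ * R ^ 3 := hXΔ ▸ eΔ ▸ hd3.mul_left _
  exact (Int.prime_three.dvd_mul.1 h3X).resolve_right fun h =>
    hRp 3 Nat.prime_three (h30M 3 (by simp)) (Int.prime_three.dvd_of_dvd_pow h)

end FermatAgent.Switch2
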