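import Fermat.Agent.Switch.Cusp
import Fermat.Agent.Switch.NonsplitPrime
import Fermat.Agent.Switch.Nonsplit
import Fermat.Agent.Switch2.HalfValues
import Fermat.Agent.Switch2.Descent
import Fermat.Agent.Switch2.StepHesse

/-!
# Switching at five along the half member

The congruent family through `(c₄, c₆)` (`Switch.exists_congruentFamily`) is specialised at an
integer parameter close to `c₄ / (2 c₆)` at `3`, congruent to `0` at `10` and near a cusp with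
nonsplit fibre at an auxiliary prime `ℓ ≡ 1 (mod 3)`.
-/

set_option autoImplicit false

noncomputable section

open WeierstrassCurve Polynomial

namespace FermatAgent.Switch2

open FermatAgent.Switch

local notation "Qbar" => AlgebraicClosure ℚ

/-- An integral value of a rational polynomial at a parameter near `a / c` at `3`. -/
lemma exists_value {P : ℚ[X]} {P' : ℤ[X]} {j N' : ℕ} (hN' : ¬3 ∣ N')
    (hP : P'.map (Int.castRingHom ℚ) = ((3 ^ j * N' : ℕ) : ℚ[X]) * P) {a₀ a c H : ℤ} {n : ℕ}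
    (h0 : P.eval 0 = a₀) (hc : ¬(3 : ℤ) ∣ c) (hH : (c : ℚ) ^ n * P.eval ((a : ℚ) / c) = H)
    {K r : ℤ} (hK : ¬(3 : ℤ) ∣ K) (hr : (N' : ℤ) * K ∣ r) {M : ℕ}
    (hra : (3 : ℤ) ^ (M + j) ∣ c * r - a) :
    ∃ x : ℤ, P.eval (r : ℚ) = x ∧ K ∣ x - a₀ ∧ (3 : ℤ) ^ M ∣ c ^ n * x - H := by
  set N : ℤ := ((3 ^ j * N' : ℕ) : ℤ) with hN
  have hN3 : N = 3 ^ j * (N' : ℤ) := by rw [hN]; push_cast; ring
  have hN'0 : (N' : ℤ) ≠ 0 := by
    simpa using fun h : N' = 0 => hN' (h ▸ dvd_zero 3)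
  have key : ∀ z : ℚ, (P'.map (Int.castRingHom ℚ)).eval z = (N : ℚ) * P.eval z := fun z => by
    rw [hP, hN]; simp
  have keyZ : ∀ z : ℤ, ((P'.eval z : ℤ) : ℚ) = (N : ℚ) * P.eval (z : ℚ) := fun z => by
    rw [← key, eval_intCast_map, eq_intCast]; simp
  have hP0 : P'.eval 0 = N * a₀ := by
    have h := keyZ 0
    rw [Int.cast_zero, h0] at h
    exact_mod_cast h
  -- divisibility by `N'`
  obtain ⟨c₁, hc₁⟩ : (N' : ℤ) * K ∣ P'.eval r - N * a₀ := by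
    refine hr.trans ?_
    rw [← hP0]
    simpa using sub_dvd_eval_sub r 0 P'
  have hcop : ∀ (z : ℤ) (k : ℕ), ¬(3 : ℤ) ∣ z → IsCoprime ((3 : ℤ) ^ k) z := fun z k hz =>
    IsCoprime.pow_left ((Int.prime_three.coprime_iff_not_dvd).2 hz)
  have hN'3 : ¬(3 : ℤ) ∣ (N' : ℤ) := fun h => hN' (by exact_mod_cast h)
  -- near the rational parameter
  set d := P'.natDegree with hd
  have hS : (3 : ℤ) ^ (M + j) ∣ c ^ d * P'.eval r - (scaleRoots P' c).eval a := by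
    rw [hd, ← Polynomial.scaleRoots_eval_mul]
    exact hra.trans (sub_dvd_eval_sub _ _ _)
  have hSa : c ^ n * (scaleRoots P' c).eval a = c ^ d * (N * H) := by
    have hcQ : (c : ℚ) ≠ 0 := Int.cast_ne_zero.2 fun h => hc (h ▸ dvd_zero _)
    have e : (((scaleRoots P' c).eval a : ℤ) : ℚ) =
        (c : ℚ) ^ d * ((N : ℚ) * P.eval ((a : ℚ) / c)) := by
      rw [← key, eval_map, ← eq_intCast (Int.castRingHom ℚ) ((scaleRoots P' c).eval a),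
        ← eval₂_hom, eq_intCast, ← eq_intCast (Int.castRingHom ℚ) c, hd,
        ← scaleRoots_eval₂_mul, eq_intCast, mul_div_cancel₀ (a : ℚ) hcQ]
    rw [← hd] at *
    have e2 : ((c ^ n * (scaleRoots P' c).eval a : ℤ) : ℚ) = ((c ^ d * (N * H) : ℤ) : ℚ) := by
      push_cast; rw [e, ← hH]; ring
    exact_mod_cast e2
  have hmain : (3 : ℤ) ^ (M + j) ∣ c ^ n * P'.eval r - N * H := by
    refine (IsCoprime.pow_right (hcop c (M + j) hc) (n := d)).dvd_of_dvd_mul_left ?_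
    rw [show c ^ d * (c ^ n * P'.eval r - N * H) =
      c ^ n * (c ^ d * P'.eval r - (scaleRoots P' c).eval a) by linear_combination hSa]
    exact hS.mul_left _
  obtain ⟨c₃, hc₃⟩ : (3 : ℤ) ^ j ∣ P'.eval r := by
    refine (IsCoprime.pow_right (hcop c j hc) (n := n)).dvd_of_dvd_mul_left ?_
    rw [show c ^ n * P'.eval r = (c ^ n * P'.eval r - N * H) + N * H by ring]
    exact dvd_add ((pow_dvd_pow _ (Nat.le_add_left j M)).trans hmain) ⟨N' * H, by rw [hN3]; ring⟩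
  obtain ⟨x, hx⟩ : N ∣ P'.eval r := by
    rw [hN3]
    exact (hcop _ j hN'3).mul_dvd ⟨c₃, hc₃⟩
      ⟨K * c₁ + 3 ^ j * a₀, by rw [hN3] at hc₁; linear_combination hc₁⟩
  have hN0 : N ≠ 0 := by rw [hN3]; exact mul_ne_zero (pow_ne_zero _ (by norm_num)) hN'0
  refine ⟨x, ?_, ?_, ?_⟩
  · have h := keyZ r
    rw [hx] at h
    push_cast at h
    exact (mul_left_cancel₀ (Int.cast_ne_zero.2 hN0) h).symm
  · refine ((hcop K j hK).symm).dvd_of_dvd_mul_left ⟨c₁, ?_⟩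
    refine mul_left_cancel₀ hN'0 ?_
    rw [hx, hN3] at hc₁
    linear_combination hc₁
  · obtain ⟨c₂, hc₂⟩ := hmain
    refine (hcop (N' : ℤ) M hN'3).dvd_of_dvd_mul_left ⟨c₂, ?_⟩
    refine mul_left_cancel₀ (pow_ne_zero j (show (3 : ℤ) ≠ 0 by norm_num)) ?_
    rw [hx, hN3, pow_add] at hc₂
    linear_combination hc₂

set_option maxRecDepth 4000 in
lemma family_half {a b : ℤ} (hd : a ^ 3 ≠ b ^ 2) (hb : b ≠ 0) {A B : ℚ[X]}
    (hfam : IsKleinFamily a b A B) :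
    ((2 * b : ℤ) : ℚ) ^ 20 * A.eval ((a : ℚ) / (2 * b : ℤ)) = (halfA a b : ℤ) ∧
      ((2 * b : ℤ) : ℚ) ^ 30 * B.eval ((a : ℚ) / (2 * b : ℤ)) = (halfB a b : ℤ) := by
  obtain ⟨U, V, h4, h6⟩ := exists_kleinSol hd
  have hV : V ≠ 0 := by
    rintro rfl
    have h := klein_disc U (0 : Qbar)
    rw [h4, h6] at h
    exact (sub_ne_zero.2 (show (a : Qbar) ^ 3 ≠ (b : Qbar) ^ 2 by exact_mod_cast hd))
      (h.trans (by ring))
  obtain ⟨e4, e6⟩ := klein_half (U := U) (V := V) hV (by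
    rw [h6]; exact mul_ne_zero two_ne_zero (Int.cast_ne_zero.2 hb))
  obtain ⟨f4, f6⟩ := hfam U V h4 h6 (klein4 U V / (2 * klein6 U V))
  rw [f4, h4, h6] at e4
  rw [f6, h4, h6] at e6
  have hr : (a : Qbar) / (2 * (b : Qbar)) = algebraMap ℚ Qbar ((a : ℚ) / (2 * b : ℤ)) := by
    simp
  rw [hr, aeval_algebraMap_apply_eq_algebraMap_eval] at e4 e6
  push_cast at e4 e6
  constructor <;> refine (algebraMap ℚ Qbar).injective ?_
  · rw [map_mul, map_pow, map_intCast, map_intCast,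
      show ((halfA a b : ℤ) : Qbar) = halfA (a : Qbar) (b : Qbar) by simp [halfA]]
    push_cast
    exact e4
  · rw [map_mul, map_pow, map_intCast, map_intCast,
      show ((halfB a b : ℤ) : Qbar) = halfB (a : Qbar) (b : Qbar) by simp [halfB]]
    push_cast
    exact e6

/-- `3` is coprime to what it does not divide. -/
private lemma isCoprime_three_pow {z : ℤ} (hz : ¬(3 : ℤ) ∣ z) (k : ℕ) :
    IsCoprime ((3 : ℤ) ^ k) z :=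
  IsCoprime.pow_left ((Int.prime_three.coprime_iff_not_dvd).2 hz)

/-- A parameter outside a finite set with prescribed residues at `Q`, at `3` and at `ℓ`. -/
private lemma exists_good_parameter {c a Q : ℤ} (hc : ¬(3 : ℤ) ∣ c) (hQ : ¬(3 : ℤ) ∣ Q) {ℓ : ℕ}
    (hℓ : ℓ.Prime) (hℓ3 : ℓ ≠ 3) (hℓQ : ¬(ℓ : ℤ) ∣ Q) (ρ : ℤ) {bad : Set ℤ} (hbad : bad.Finite)
    (M : ℕ) : ∃ r, r ∉ bad ∧ Q ∣ r ∧ (3 : ℤ) ^ M ∣ c * r - a ∧ (ℓ : ℤ) ∣ r - ρ := by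
  have hp := Nat.prime_iff_prime_int.1 hℓ
  have hℓcop : IsCoprime (Q * 3 ^ M) (ℓ : ℤ) := by
    refine (hp.coprime_iff_not_dvd.2 fun h => ?_).symm
    rcases hp.dvd_mul.1 h with h | h
    · exact hℓQ h
    · exact hℓ3 ((Nat.prime_dvd_prime_iff_eq hℓ Nat.prime_three).1
        (Int.natCast_dvd_natCast.1 (show (ℓ : ℤ) ∣ ((3 : ℕ) : ℤ) from hp.dvd_of_dvd_pow h)))
  obtain ⟨i, hi⟩ := exists_inverse_mod (isCoprime_three_pow hc M).symm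
  obtain ⟨r₀, hr₀Q, hr₀3⟩ := exists_int_congr (isCoprime_three_pow hQ M).symm 0 (a * i)
  rw [sub_zero] at hr₀Q
  obtain ⟨r₁, hr₁, hr₁ℓ⟩ := exists_int_congr hℓcop r₀ ρ
  set L : ℤ := Q * 3 ^ M * ℓ with hLdef
  have hL0 : L ≠ 0 := mul_ne_zero (mul_ne_zero (fun h => hQ (h ▸ dvd_zero _))
    (pow_ne_zero _ (by norm_num))) (Int.natCast_ne_zero.2 hℓ.ne_zero)
  obtain ⟨_, ⟨m, rfl⟩, hrbad⟩ :
      ∃ r ∈ Set.range (fun m : ℤ => r₁ + L * m), r ∉ bad := by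
    refine Set.Infinite.exists_notMem_finset ?_ hbad.toFinset |>.imp fun r h =>
      ⟨h.1, fun h' => h.2 (hbad.mem_toFinset.2 h')⟩
    exact Set.infinite_range_of_injective fun m m' h =>
      mul_left_cancel₀ hL0 (add_left_cancel h)
  refine ⟨r₁ + L * m, hrbad, ?_, ?_, ?_⟩
  · rw [show r₁ + L * m = r₀ + (r₁ - r₀) + L * m by ring, hLdef]
    exact dvd_add (dvd_add hr₀Q ((dvd_mul_right _ _).trans hr₁))
      (((dvd_mul_right Q _).mul_right _).mul_right _)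
  · rw [show c * (r₁ + L * m) - a =
      c * ((r₁ - r₀) + L * m) + c * (r₀ - a * i) + a * (c * i - 1) by ring, hLdef]
    exact dvd_add (dvd_add ((dvd_add ((dvd_mul_left _ _).trans hr₁)
      (((dvd_mul_left _ Q).mul_right _).mul_right _)).mul_left _) (hr₀3.mul_left _))
      (hi.mul_left _)
  · rw [show r₁ + L * m - ρ = (r₁ - ρ) + L * m by ring, hLdef]
    exact dvd_add hr₁ℓ ((dvd_mul_left _ _).mul_right _)

/-- If `c ^ n * x` is close to `3 ^ n * z` at `3`, then `x = 3 ^ n * α` with `c ^ n * α` close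
to `z`. -/
private lemma exists_eq_three_pow_mul {c x z : ℤ} (hc : ¬(3 : ℤ) ∣ c) {n k : ℕ}
    (h : (3 : ℤ) ^ (n + k) ∣ c ^ n * x - 3 ^ n * z) :
    ∃ α, x = 3 ^ n * α ∧ (3 : ℤ) ^ k ∣ c ^ n * α - z := by
  obtain ⟨α, hα⟩ : (3 : ℤ) ^ n ∣ x := by
    refine (IsCoprime.pow_right (isCoprime_three_pow hc n) (n := n)).dvd_of_dvd_mul_left ?_
    rw [← sub_add_cancel (c ^ n * x) (3 ^ n * z)]
    exact dvd_add ((pow_dvd_pow _ (Nat.le_add_right n k)).trans h) (dvd_mul_right _ _)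
  refine ⟨α, hα, (mul_dvd_mul_iff_left (pow_ne_zero n (by norm_num : (3 : ℤ) ≠ 0))).1 ?_⟩
  rw [← pow_add, mul_sub, show (3 : ℤ) ^ n * (c ^ n * α) = c ^ n * x by rw [hα]; ring]
  exact h

/-- The new invariants have discriminant `1728 * δ`, with `c ^ 60 * δ` close to `D * E` at `3`. -/
private lemma exists_new_disc {a b c D E G H α β : ℤ} {P : ℕ} (hrel : a ^ 3 = b ^ 2 + 1728 * D)
    (hc : ¬(3 : ℤ) ∣ c) (hmain : (a * G) ^ 3 - (b * H) ^ 2 = 1728 * (D * E))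
    (hα : (64 : ℤ) ∣ 3 ^ 20 * α - a) (hβ : (64 : ℤ) ∣ 3 ^ 30 * β - b)
    (dα : (3 : ℤ) ^ (P + 10) ∣ c ^ 20 * α - a * G) (dβ : (3 : ℤ) ^ (P + 10) ∣ c ^ 30 * β - b * H) :
    ∃ δ, α ^ 3 - β ^ 2 = 1728 * δ ∧ (3 : ℤ) ^ (P + 7) ∣ c ^ 60 * δ - D * E := by
  have dδ : (3 : ℤ) ^ (P + 10) ∣ c ^ 60 * (α ^ 3 - β ^ 2) - 1728 * (D * E) := by
    rw [← hmain, show c ^ 60 * (α ^ 3 - β ^ 2) - ((a * G) ^ 3 - (b * H) ^ 2) =
      ((c ^ 20 * α) ^ 3 - (a * G) ^ 3) - ((c ^ 30 * β) ^ 2 - (b * H) ^ 2) by ring]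
    exact dvd_sub (dα.trans (sub_dvd_pow_sub_pow _ _ 3)) (dβ.trans (sub_dvd_pow_sub_pow _ _ 2))
  obtain ⟨δ, hdisc⟩ : (1728 : ℤ) ∣ α ^ 3 - β ^ 2 := by
    rw [show (1728 : ℤ) = 3 ^ 3 * 64 by norm_num]
    refine (isCoprime_three_pow (z := 64) (by norm_num) 3).mul_dvd ?_ ?_
    · refine (IsCoprime.pow_right (isCoprime_three_pow hc 3) (n := 60)).dvd_of_dvd_mul_left ?_
      rw [show c ^ 60 * (α ^ 3 - β ^ 2) = (c ^ 60 * (α ^ 3 - β ^ 2) - 1728 * (D * E))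
        + 3 ^ 3 * (64 * (D * E)) by ring]
      exact dvd_add ((pow_dvd_pow _ (by omega)).trans dδ) (dvd_mul_right _ _)
    · refine (IsCoprime.pow_right (show IsCoprime (64 : ℤ) 3 by norm_num) (n := 60)
        ).dvd_of_dvd_mul_left ?_
      rw [show (3 : ℤ) ^ 60 * (α ^ 3 - β ^ 2) = ((3 ^ 20 * α) ^ 3 - a ^ 3)
        - ((3 ^ 30 * β) ^ 2 - b ^ 2) + (a ^ 3 - b ^ 2) by ring]
      exact dvd_add (dvd_sub (hα.trans (sub_dvd_pow_sub_pow _ _ 3))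
        (hβ.trans (sub_dvd_pow_sub_pow _ _ 2))) ⟨27 * D, by rw [hrel]; ring⟩
  refine ⟨δ, hdisc, (IsCoprime.pow_left (show IsCoprime (3 : ℤ) 64 by norm_num) (m := P + 7)
    ).dvd_of_dvd_mul_left ?_⟩
  refine (mul_dvd_mul_iff_left (pow_ne_zero 3 (by norm_num : (3 : ℤ) ≠ 0))).1 ?_
  rw [← pow_add, show (3 : ℤ) ^ 3 * (64 * (c ^ 60 * δ - D * E)) =
    c ^ 60 * (1728 * δ) - 1728 * (D * E) by ring, ← hdisc, show 3 + (P + 7) = P + 10 by ring]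
  exact dδ

/-- The new invariants inherit the shape at `3` of `(G, H, D * E)`. -/
private lemma three_adic_shape {a b c D E G H α β δ : ℤ} {P : ℕ} (ha : ¬(3 : ℤ) ∣ a)
    (hc : ¬(3 : ℤ) ∣ c) (dα : (3 : ℤ) ^ (P + 10) ∣ c ^ 20 * α - a * G)
    (dβ : (3 : ℤ) ^ (P + 10) ∣ c ^ 30 * β - b * H)
    (dΔ : (3 : ℤ) ^ (P + 7) ∣ c ^ 60 * δ - D * E)
    (hloc : ¬(3 : ℤ) ∣ G ∨ (3 : ℤ) ∣ G ∧ (27 : ℤ) ∣ H ∧ ¬(3 : ℤ) ∣ D * E) :
    ¬(3 : ℤ) ∣ α ∨ ((3 : ℤ) ∣ α ∧ (27 : ℤ) ∣ β ∧ ¬(3 : ℤ) ∣ δ) := by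
  rcases hloc with h | ⟨hG3, hH3, hΔE⟩
  · left
    intro h'
    refine h ((Int.prime_three.dvd_mul.1 ?_).resolve_left ha)
    rw [show a * G = c ^ 20 * α - (c ^ 20 * α - a * G) by ring]
    exact dvd_sub (h'.mul_left _) ((dvd_pow_self _ (by omega)).trans dα)
  · right
    refine ⟨?_, ?_, fun h' => hΔE ?_⟩
    · refine (((Int.prime_three.dvd_mul (a := c ^ 20)).1 ?_).resolve_left fun h =>
        hc (Int.prime_three.dvd_of_dvd_pow h) : (3 : ℤ) ∣ α)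
      rw [show c ^ 20 * α = (c ^ 20 * α - a * G) + a * G by ring]
      exact dvd_add ((dvd_pow_self _ (by omega)).trans dα) (hG3.mul_left _)
    · rw [show (27 : ℤ) = 3 ^ 3 by norm_num] at hH3 ⊢
      refine (IsCoprime.pow_right (isCoprime_three_pow hc 3) (n := 30)).dvd_of_dvd_mul_left ?_
      rw [show c ^ 30 * β = (c ^ 30 * β - b * H) + b * H by ring]
      exact dvd_add ((pow_dvd_pow _ (by omega)).trans dβ) (hH3.mul_left _)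
    · rw [show D * E = c ^ 60 * δ - (c ^ 60 * δ - D * E) by ring]
      exact dvd_sub (h'.mul_left _) ((dvd_pow_self _ (by omega)).trans dΔ)

/-- Reduction at `5` is kept. -/
private lemma five_dvd_of_five_dvd {D D' ν : ℤ} (hν : (10 : ℤ) ^ 20 ∣ 3 ^ 5 * ν - 1)
    (nΔ : ((10 : ℕ) : ℤ) ∣ D' - ν ^ 12 * D) (h : (5 : ℤ) ∣ D') : (5 : ℤ) ∣ D := by
  have h5 : (5 : ℤ) ∣ ν ^ 12 * D := by
    simpa using dvd_sub h ((show (5 : ℤ) ∣ ((10 : ℕ) : ℤ) by norm_num).trans nΔ)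
  refine ((Int.prime_iff_natAbs_prime.2 (by norm_num)).dvd_mul.1 h5).resolve_left fun h' =>
    not_dvd_inverse hν (p := 5) (by norm_num) (by norm_num) ?_
  exact (Int.prime_iff_natAbs_prime.2
    (by norm_num : Nat.Prime ((5 : ℕ) : ℤ).natAbs)).dvd_of_dvd_pow h'

/-- A prime not dividing `30` dividing the discriminant of `(3 ^ 20 * α, 3 ^ 30 * β)` divides
`δ`. -/
private lemma dvd_disc_of_dvd {α β δ : ℤ} (hdisc : α ^ 3 - β ^ 2 = 1728 * δ) {ℓ : ℕ}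
    (hℓ : ℓ.Prime) (hℓ30 : ¬ℓ ∣ 30) (h : (ℓ : ℤ) ∣ (3 ^ 20 * α) ^ 3 - (3 ^ 30 * β) ^ 2) :
    (ℓ : ℤ) ∣ δ := by
  have hℓp := Nat.prime_iff_prime_int.1 hℓ
  rw [show (3 ^ 20 * α) ^ 3 - (3 ^ 30 * β) ^ 2 = ((2 : ℕ) : ℤ) ^ 6 * ((3 : ℕ) : ℤ) ^ 63 * δ by
    push_cast; linear_combination (3 : ℤ) ^ 60 * hdisc] at h
  refine (hℓp.dvd_mul.1 h).resolve_left fun h => ?_
  rcases hℓp.dvd_mul.1 h with h | h
  · exact hℓ30 ((Int.natCast_dvd_natCast.1 (hℓp.dvd_of_dvd_pow h)).trans (by norm_num))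
  · exact hℓ30 ((Int.natCast_dvd_natCast.1 (hℓp.dvd_of_dvd_pow h)).trans (by norm_num))

/-- The invariants `(α, β)` of the switched curve: congruent to those of `W` at `10 ^ 20`, to
`(a * G, b * H)` at `3`, with a non-split multiplicative prime. -/
private lemma exists_switched_invariants {W : WeierstrassCurve ℤ} (hΔ : W.Δ ≠ 0)
    (hb3 : ¬(3 : ℤ) ∣ W.c₆) {G H : ℤ} (hG : halfG (W.c₆ ^ 2) W.Δ = 3 ^ 20 * G)
    (hH : halfH (W.c₆ ^ 2) W.Δ = 3 ^ 30 * H) (P : ℕ) :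
    ∃ α β : ℤ, (10 : ℤ) ^ 20 ∣ 3 ^ 20 * α - W.c₄ ∧ (10 : ℤ) ^ 20 ∣ 3 ^ 30 * β - W.c₆ ∧
      (3 : ℤ) ^ (P + 10) ∣ (2 * W.c₆) ^ 20 * α - W.c₄ * G ∧
      (3 : ℤ) ^ (P + 10) ∣ (2 * W.c₆) ^ 30 * β - W.c₆ * H ∧
      (3 ^ 20 * α) ^ 3 ≠ (3 ^ 30 * β) ^ 2 ∧
      TorEquiv 5 (shortCurve W.c₄ W.c₆) (shortCurve (3 ^ 20 * α) (3 ^ 30 * β)) ∧
      ∃ ℓ : ℕ, ℓ.Prime ∧ ¬ℓ ∣ 30 ∧ ℓ % 3 = 1 ∧
        (ℓ : ℤ) ∣ (3 ^ 20 * α) ^ 3 - (3 ^ 30 * β) ^ 2 ∧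
        ¬IsSquare ((-(3 ^ 30 * β) : ℤ) : ZMod ℓ) := by
  set a := W.c₄ with ha
  set b := W.c₆ with hbdef
  have hb0 : b ≠ 0 := fun h => hb3 (h ▸ dvd_zero _)
  have hd := c₄_cube_ne_c₆_sq hΔ
  have hrel : a ^ 3 = b ^ 2 + 1728 * W.Δ := by rw [W.c_relation, ha, hbdef]; ring
  obtain ⟨A, B, hA0, hB0, hfam, bad, hbad, hfin⟩ := exists_congruentFamily hd
  obtain ⟨g, rc, Mc, hw, hM, hrc, hgM, hBc, -, hAB⟩ := exists_cusp hd hfam
  obtain ⟨NA, hNA, A', hA'⟩ := exists_int_multiple_poly A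
  obtain ⟨NB, hNB, B', hB'⟩ := exists_int_multiple_poly B
  obtain ⟨jA, nA, hnA, rfl⟩ := Nat.exists_eq_pow_mul_and_not_dvd hNA.ne' 3 (by norm_num)
  obtain ⟨jB, nB, hnB, rfl⟩ := Nat.exists_eq_pow_mul_and_not_dvd hNB.ne' 3 (by norm_num)
  have hnA0 : nA ≠ 0 := fun h => hnA (h ▸ dvd_zero _)
  have hnB0 : nB ≠ 0 := fun h => hnB (h ▸ dvd_zero _)
  obtain ⟨ℓ, hℓ, hℓS, hℓ3, ρ, hρ⟩ :=
    exists_nonsplit_prime hw hM hrc hgM hBc hAB (30 * nA * nB).primeFactors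
  have hnd : ¬ℓ ∣ 30 * nA * nB := fun h =>
    hℓS (Nat.mem_primeFactors.2 ⟨hℓ, h, by positivity⟩)
  have hℓ30 : ¬ℓ ∣ 30 := fun h => hnd ((h.mul_right nA).mul_right nB)
  set K : ℤ := 10 ^ 20 with hK
  set Q : ℤ := (nA : ℤ) * nB * K with hQ
  have hp3 : ∀ {n : ℕ}, ¬3 ∣ n → ¬(3 : ℤ) ∣ (n : ℤ) := fun h h' => h (by exact_mod_cast h')
  have hQ3 : ¬(3 : ℤ) ∣ Q := fun h => by
    rcases Int.prime_three.dvd_mul.1 h with h | h
    · rcases Int.prime_three.dvd_mul.1 h with h | h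
      exacts [hp3 hnA h, hp3 hnB h]
    · norm_num [hK] at h
  have hℓQ : ¬(ℓ : ℤ) ∣ Q := fun h => by
    have hp := Nat.prime_iff_prime_int.1 hℓ
    rcases hp.dvd_mul.1 h with h | h
    · rcases hp.dvd_mul.1 h with h | h
      · exact hnd (((Int.natCast_dvd_natCast.1 h).mul_left 30).mul_right nB)
      · exact hnd ((Int.natCast_dvd_natCast.1 h).mul_left (30 * nA))
    · exact hℓ30 ((hℓ.dvd_of_dvd_pow (Int.natCast_dvd_natCast.1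
        (show (ℓ : ℤ) ∣ ((10 ^ 20 : ℕ) : ℤ) by simpa [hK] using h))).trans (by norm_num))
  have h2b : ¬(3 : ℤ) ∣ 2 * b := fun h =>
    hb3 ((Int.prime_three.dvd_mul.1 h).resolve_left (by norm_num))
  obtain ⟨r, hrbad, ⟨t, ht⟩, hra, hrℓ⟩ := exists_good_parameter (a := a) h2b hQ3 hℓ
    (fun h => hℓ30 (h ▸ by norm_num)) hℓQ ρ hbad (P + 100 + jA + jB)
  -- the values
  obtain ⟨hHA, hHB⟩ := family_half hd hb0 hfam
  have hK3 : ¬(3 : ℤ) ∣ K := by norm_num [hK]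
  obtain ⟨x, hx, hxK, hx3⟩ := exists_value hnA hA' hA0 h2b hHA hK3 (r := r)
    ⟨(nB : ℤ) * t, by rw [ht, hQ]; ring⟩ (M := P + 100)
    ((pow_dvd_pow _ (by omega)).trans hra)
  obtain ⟨y, hy, hyK, hy3⟩ := exists_value hnB hB' hB0 h2b hHB hK3 (r := r)
    ⟨(nA : ℤ) * t, by rw [ht, hQ]; ring⟩ (M := P + 100)
    ((pow_dvd_pow _ (by omega)).trans hra)
  rw [halfA_eq hrel, hG, mul_left_comm] at hx3
  rw [halfB_eq hrel, hH, mul_left_comm] at hy3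
  obtain ⟨α, rfl, dα⟩ := exists_eq_three_pow_mul h2b (k := P + 10)
    ((pow_dvd_pow _ (by omega)).trans hx3)
  obtain ⟨β, rfl, dβ⟩ := exists_eq_three_pow_mul h2b (k := P + 10)
    ((pow_dvd_pow _ (by omega)).trans hy3)
  obtain ⟨hab, hT⟩ := hfin r _ _ hrbad hx hy
  exact ⟨α, β, hxK, hyK, dα, dβ, hab, hT, ℓ, hℓ, hℓ30, hℓ3, hρ r _ _ hrℓ hx hy⟩

/-- **The switch at five along the half member.** Let `(3 ^ 20 G, 3 ^ 30 H, 3 ^ 60 E)` be the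
values of `halfG`, `halfH`, `halfE` at `(c₆ ^ 2, Δ)` of `W`. Then `W` has a switch `X` at `5` with
irreducible `3`-torsion whose `c₄` and `Δ` are, up to units at `3`, congruent to `c₄ G` modulo `3`
and to `Δ E` modulo `3 ^ P`. -/
theorem exists_five_switch_core {W : WeierstrassCurve ℤ} (hΔ : W.Δ ≠ 0) (hW : W.IsSemistableModel)
    (h4 : ¬(3 : ℤ) ∣ W.c₄) {G H E : ℤ} (hG : halfG (W.c₆ ^ 2) W.Δ = 3 ^ 20 * G)
    (hH : halfH (W.c₆ ^ 2) W.Δ = 3 ^ 30 * H) (hE : halfE (W.c₆ ^ 2) W.Δ = 3 ^ 60 * E)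
    (hloc : ¬(3 : ℤ) ∣ G ∨ (3 : ℤ) ∣ G ∧ (27 : ℤ) ∣ H ∧ ¬(3 : ℤ) ∣ W.Δ * E)
    (P : ℕ) :
    ∃ X : WeierstrassCurve ℤ, IsSwitch 5 W X ∧ X.ModRepIsIrreducible 3 ∧
      ∃ e f : ℤ, ¬(3 : ℤ) ∣ e ∧ ¬(3 : ℤ) ∣ f ∧
        (3 : ℤ) ∣ e * X.c₄ - W.c₄ * G ∧ (3 : ℤ) ^ P ∣ f * X.Δ - W.Δ * E := by
  classical
  have hb3 := not_three_dvd_c₆ h4
  obtain ⟨α, β, hα, hβ, dα, dβ, hab, hT, ℓ, hℓ, hℓ30, hℓ3, hℓd, hns⟩ :=
    exists_switched_invariants hΔ hb3 hG hH P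
  set a := W.c₄ with ha
  set b := W.c₆ with hbdef
  set c := 2 * b with hcdef
  have h2b : ¬(3 : ℤ) ∣ c := fun h =>
    hb3 ((Int.prime_three.dvd_mul.1 h).resolve_left (by norm_num))
  have hrel : a ^ 3 = b ^ 2 + 1728 * W.Δ := by rw [W.c_relation, ha, hbdef]; ring
  have h30 : (3 : ℤ) ≠ 0 := by norm_num
  have hmain : (a * G) ^ 3 - (b * H) ^ 2 = 1728 * (W.Δ * E) := by
    have h := half_disc (b ^ 2) W.Δ
    rw [hG, hH, hE, ← hrel] at h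
    exact mul_left_cancel₀ (pow_ne_zero 60 h30) (by linear_combination h)
  have h64 : (64 : ℤ) ∣ 10 ^ 20 := by norm_num
  obtain ⟨δ, hdisc, dΔ⟩ := exists_new_disc hrel h2b hmain (h64.trans hα) (h64.trans hβ) dα dβ
  have hcase := three_adic_shape h4 h2b dα dβ dΔ hloc
  obtain ⟨ν, hν⟩ := exists_inverse_mod
    (show IsCoprime ((3 : ℤ) ^ 5) (10 ^ 20) from IsCoprime.pow (by norm_num))
  obtain ⟨X, hX4, hX6, hXΔ, hmap⟩ := exists_model W hdisc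
    (dvd_sub_pow_mul hν 4 hα) (dvd_sub_pow_mul hν 6 hβ) (hcase.imp_right fun h => ⟨h.1, h.2.1⟩)
  have hXne : X.Δ ≠ 0 := fun h => hab (by
    have e := X.c_relation
    rw [h, mul_zero, hX4, hX6, eq_comm, sub_eq_zero] at e
    rw [mul_pow, mul_pow, e]; ring)
  have hT5 : TorEquiv 5 W X := by
    refine (torEquiv_shortCurve 5 W).symm.trans ((hT.trans ?_).trans (torEquiv_shortCurve 5 X))
    rw [hX4, hX6, show (3 : ℤ) ^ 20 = (3 ^ 5) ^ 4 by norm_num,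
      show (3 : ℤ) ^ 30 = (3 ^ 5) ^ 6 by norm_num]
    exact (torEquiv_scale 5 (pow_ne_zero 5 h30)).symm
  obtain ⟨n4, -, nΔ⟩ := dvd_of_map_eq hmap
  obtain ⟨s4, -, sΔ⟩ := scaledModel_invariants W ν
  rw [s4] at n4
  rw [sΔ] at nΔ
  have hsmall := not_additive_small hW hν n4 nΔ
    (by rw [hX4, hXΔ]; exact hcase.imp_right fun h => h.2.2)
  have hℓX : (ℓ : ℤ) ∣ X.Δ := hXΔ ▸ dvd_disc_of_dvd hdisc hℓ hℓ30 hℓd
  have hnsX : ¬IsSquare ((-X.c₆ : ℤ) : ZMod ℓ) := by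
    rintro ⟨s, hs⟩
    refine hns ⟨((3 : ℤ) : ZMod ℓ) ^ 15 * s, ?_⟩
    rw [hX6] at hs
    push_cast at hs ⊢
    linear_combination (3 : ZMod ℓ) ^ 30 * hs
  obtain ⟨X', hX'⟩ := exists_minimalisation X hXne hsmall fun Y hY hTY q hq hq7 _ _ hY4 hYΔ =>
    semistable_or_scalable hΔ hY (hT5.trans hTY) hq (by omega) (hW q hq) hY4 hYΔ
  obtain ⟨hℓ', hns'⟩ := nonsplit_transfer hX' hℓ hℓX hnsX
  obtain ⟨d, hd3, -, -, e4, eΔ⟩ := at_three_transfer hX' (fun h => hsmall 3 (by simp) h)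
  have : Fact ℓ.Prime := ⟨hℓ⟩
  have hnd' : ∀ k n : ℕ, ¬(3 : ℤ) ∣ c ^ k * d ^ n := fun k n h => by
    rcases Int.prime_three.dvd_mul.1 h with h | h
    exacts [h2b (Int.prime_three.dvd_of_dvd_pow h), hd3 (Int.prime_three.dvd_of_dvd_pow h)]
  refine ⟨X', ⟨hX'.1, hX'.2.1, hT5.trans hX'.2.2.1, fun hg hd5 => hg ?_⟩,
    modRepIsIrreducible_three_of_nonsplit hX'.1 hX'.2.1 hℓ3 hℓ' hns',
    c ^ 20 * d ^ 4, c ^ 60 * d ^ 12, hnd' _ _, hnd' _ _, ?_, ?_⟩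
  · exact five_dvd_of_five_dvd hν nΔ (show (5 : ℤ) ∣ X.Δ from eΔ ▸ Dvd.dvd.mul_left hd5 _)
  · rw [show c ^ 20 * d ^ 4 * X'.c₄ = c ^ 20 * α by rw [mul_assoc, ← e4, hX4]]
    exact (dvd_pow_self _ (by omega)).trans dα
  · rw [show c ^ 60 * d ^ 12 * X'.Δ = c ^ 60 * δ by rw [mul_assoc, ← eΔ, hXΔ]]
    exact (pow_dvd_pow _ (by omega)).trans dΔ

end FermatAgent.Switch2
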